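/-
GATE-F / GF-EIS leaf (E4), part 1 (helper65): the nodal frame REMEMBERING the centres.

`GK/NodalBridge.exists_places_T` and `GS/Nodal/Inst/Frame.exists_frameFacts_fibre` return the node
branches `P Q : ↥(nodes J') → Place k F` but forget that `P i` is centred at the node `i` (and `Q i`
at its Frobenius pull-back).  Here the same statements are re-proved WITH these outputs, plus

* `eq_of_centredAt` : two places centred at the same ideal of a Dedekind `k`-algebra `C` with
  `Frac C = F` coincide (`S24_helper6/PlaceDict.placeOfPrime_primeOfPlace`);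
* `centredAt_centre` : a place containing `C` is centred at its centre `m_v ∩ C`.
-/
import Fermat.Agent.GS.Nodal.Inst.Level
import Fermat.Agent.S24_helper6.PlaceDict

set_option autoImplicit false
set_option linter.unusedSectionVars false
set_option linter.style.haveILetI false

noncomputable section

namespace Fermat.Agent.GF.Eis.NodesCentred

open AlgebraicCurve IntermediateField Module IsLocalRing ModularCurve
open Fermat.Agent.S24 Fermat.Agent.S24_helper62 Fermat.Agent.RRh45 Fermat.Agent.RR
open Fermat.Agent.GJ.J1 Fermat.Agent.GJ.J1.Val Fermat.Agent.GJ.J1.InstGen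
open Fermat.Agent.GJ.J1.PlaceLattice
open Fermat.Agent.GK.FrobGlue Fermat.Agent.GK.NodalBridge Fermat.Agent.GK.NodalGraded
open Fermat.Agent.GK.NodalPole

/-! ### generic: centred places -/

section Generic

variable {k F : Type*} [Field k] [Field F] [Algebra k F]
variable {C : Type*} [CommRing C] [Algebra k C] [Algebra C F] [IsScalarTower k C F]

/-- a place containing `C` is centred at its centre -/
theorem centredAt_centre (v : Place k F) (hB : Fermat.Agent.S24_helper6.ContainsB C v) :
    CentredAt v (Fermat.Agent.S24_helper6.centre v hB) where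
  mem := hB
  mem_iff c := by
    rw [Fermat.Agent.S24_helper6.mem_centre_iff, mem_ordGE]
    constructor
    · intro hnu
      by_cases h0 : algebraMap C F c = 0
      · exact Or.inl h0
      · right
        have hnon : algebraMap C F c ∈ v.toValuationSubring.nonunits := by
          rw [ValuationSubring.mem_nonunits_iff_exists_mem_maximalIdeal]
          exact ⟨hB c, (IsLocalRing.mem_maximalIdeal _).mpr hnu⟩
        have := (Fermat.Agent.GJ.FF.ord_pos_iff_mem_nonunits v h0).mpr hnon
        omega
    · intro hc hu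
      have hnon : algebraMap C F c ∈ v.toValuationSubring.nonunits := by
        rcases hc with h0 | h1
        · rw [h0, ValuationSubring.mem_nonunits_iff_or]; exact Or.inl rfl
        · have h0 : algebraMap C F c ≠ 0 := by
            intro h0
            rw [h0, Place.ord_zero] at h1
            omega
          exact (Fermat.Agent.GJ.FF.ord_pos_iff_mem_nonunits v h0).mp (by omega)
      rw [ValuationSubring.mem_nonunits_iff_exists_mem_maximalIdeal] at hnon
      obtain ⟨hmem, hmax⟩ := hnon
      exact (IsLocalRing.mem_maximalIdeal _).mp hmax hu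

variable [IsDedekindDomain C] [IsFractionRing C F]

/-- **two places centred at the same ideal coincide** -/
theorem eq_of_centredAt {v v' : Place k F} {m : Ideal C} (h : CentredAt v m)
    (h' : CentredAt v' m) : v = v' := by
  have hB : Fermat.Agent.S24_helper6.ContainsB C v := h.mem
  have hB' : Fermat.Agent.S24_helper6.ContainsB C v' := h'.mem
  have e1 : Fermat.Agent.S24_helper6.centre v hB = m := (centredAt_centre v hB).eq h
  have e2 : Fermat.Agent.S24_helper6.centre v' hB' = m := (centredAt_centre v' hB').eq h'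
  have e : Fermat.Agent.S24_helper6.primeOfPlace v hB =
      Fermat.Agent.S24_helper6.primeOfPlace v' hB' := by
    apply IsDedekindDomain.HeightOneSpectrum.ext
    rw [Fermat.Agent.S24_helper6.primeOfPlace_asIdeal,
      Fermat.Agent.S24_helper6.primeOfPlace_asIdeal, e1, e2]
  rw [← Fermat.Agent.S24_helper6.placeOfPrime_primeOfPlace v hB,
    ← Fermat.Agent.S24_helper6.placeOfPrime_primeOfPlace v' hB', e]

end Generic

/-! ### `exists_places_T` with the centres -/

section PlacesT

variable {k F : Type*} [Field k] [Field F] [Algebra k F]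
variable {C : Type*} [CommRing C] [Algebra k C] [Algebra C F] [IsScalarTower k C F]
variable {Ψ : C →ₐ[k] C} {J' : Ideal C} {D₁ D₂ : Divisor k F} [IsAlgClosed k]

/-- `NodalBridge.exists_places_T` remembering the centres -/
theorem exists_places_T_centred (x₀ : F) [IsGen k x₀]
    (hinj : Function.Injective (algebraMap C F)) (hCf : ¬ IsField C)
    (hfix : fixIdeal Ψ ≤ J')
    (hJ : ∀ c : C, c ∈ J' ↔ ∀ m ∈ nodes J', c ∈ m)
    {t₁ t₂ : F}
    (hC₁ : ∀ x : F, RegFin k t₁ x → x ∈ Set.range (algebraMap C F))
    (hC₂ : ∀ x : F, RegFin k t₂ x → x ∈ Set.range (algebraMap C F))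
    (ht₁C : t₁ ∈ Set.range (algebraMap C F)) (ht₂C : t₂ ∈ Set.range (algebraMap C F))
    (ht₁ : ExactPoles t₁ D₁) (ht₂ : ExactPoles t₂ D₂) :
    ∃ P Q : ↥(nodes J') → Place k F, Function.Injective P ∧ Function.Injective Q ∧
      (∀ i, (P i).deg = 1) ∧ (∀ i, (Q i).deg = 1) ∧
      (∀ i, D₁ (P i) = 0) ∧ (∀ i, D₂ (Q i) = 0) ∧
      (∀ n, Tglue Ψ J' D₁ D₂ n = T P Q D₁ D₂ n) ∧
      (∀ i, CentredAt (P i) i.1) ∧ (∀ i, CentredAt (Q i) (i.1.comap Ψ)) := by
  obtain ⟨P, Q, hP, hQ, hPinj, hQinj, hrat⟩ :=
    exists_node_places (Ψ := Ψ) (J' := J') x₀ hinj hCf hfix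
  refine ⟨P, Q, hPinj, hQinj, fun i => PlaceB.deg_eq_one _ x₀, fun i => PlaceB.deg_eq_one _ x₀,
    ?_, ?_, fun n => ?_, hP, hQ⟩
  · intro i
    obtain ⟨g, rfl⟩ := ht₁C
    exact apply_eq_zero_of_ord_nonneg ht₁ ((hP i).ord_nonneg g)
  · intro i
    obtain ⟨g, rfl⟩ := ht₂C
    exact apply_eq_zero_of_ord_nonneg ht₂ ((hQ i).ord_nonneg g)
  · exact Tglue_eq_T (fun i : ↥(nodes J') => i.1) P Q hP hQ
      (fun c => by
        rw [hJ]
        exact ⟨fun h i => h i.1 i.2, fun h m hm => h ⟨m, hm⟩⟩)
      hrat x₀ hC₁ hC₂ ht₁ ht₂ n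

end PlacesT

end Fermat.Agent.GF.Eis.NodesCentred

end
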