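/-
GATE-F / GF-EIS leaf (E4), part 2 (helper65): `GS/Nodal/Inst/Frame.exists_frameFacts_fibre`
(helper86) re-proved with the node index type `↥(nodes J')` and the centres of the node branches
as outputs (`CentredAt (P i) i.1`, `CentredAt (Q i) (i.1.comap Ψ)`).  Same proof, one more output.
-/
import Fermat.Agent.GF.Eis.NodesCentred

set_option autoImplicit false
set_option linter.unusedSectionVars false
set_option linter.style.haveILetI false

noncomputable section

namespace Fermat.Agent.GF.Eis.NodesFrame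

open AlgebraicCurve IntermediateField Module IsLocalRing ModularCurve
open Fermat.Agent.S24 Fermat.Agent.S24_helper62 Fermat.Agent.RRh45 Fermat.Agent.RR
open Fermat.Agent.GJ.J1 Fermat.Agent.GJ.J1.Val Fermat.Agent.GJ.J1.InstGen
open Fermat.Agent.GJ.KumGroup Fermat.Agent.GJ.FF.PrincipalOf
open Fermat.Agent.GK.AL Fermat.Agent.GK.MultiVal Fermat.Agent.GK.Core
open Fermat.Agent.GK.CuspSep Fermat.Agent.GK.SymChart Fermat.Agent.GK.SymDegree
open Fermat.Agent.GK.BallTwo Fermat.Agent.GK.Val.TwoVal Fermat.Agent.GK.PsiFN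
open Fermat.Agent.GK.FrobGlue Fermat.Agent.GK.NodalBridge Fermat.Agent.GK.NodalGraded
open Fermat.Agent.GK.NodalPole Fermat.Agent.GK.PencilInf Fermat.Agent.GK.PencilInstS
open Fermat.Agent.GK.SS.TwoRed Fermat.Agent.GK.SS.FrobNodes Fermat.Agent.GK.SS.HTGlue
open Fermat.Agent.GK.SS.CompRiemann Fermat.Agent.GK.Core.Twist Fermat.Agent.GK.Core.TwistNodal
open Fermat.Agent.GK.SS.Modular
open Fermat.Agent.GS.Nodal.Inst Fermat.Agent.GF.Eis.NodesCentred

variable {q : ℕ} (N : ℕ) [NeZero N] [NeZero q] (A : ValuationSubring Kbar) (h : ExactDvd q N)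

attribute [local instance] finiteResidues_FN hasPrincipalDivisors_FN nonempty_place_FN
  isAlgClosed_res finiteResidues_Fres hasPrincipalDivisors_Fres nonempty_place_Fres

section Extract

variable {C : Type} [CommRing C] [Algebra (ResidueField A) C] [Algebra C (FresBar N A)]
  [IsScalarTower (ResidueField A) C (FresBar N A)]

set_option maxHeartbeats 1600000 in
/-- `GS/Nodal/Inst/Frame.exists_frameFacts_fibre` (helper86) with the node index type `↥(nodes J')`
and the centres of the node branches as outputs: same proof. -/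
theorem exists_frameFacts_fibre_centred (hA : A.LiesOverPrime q)
    [IsDedekindDomain C] (hCf : ¬ IsField C)
    (hinj : Function.Injective (algebraMap C (FresBar N A)))
    (hCrange : ∀ z : FresBar N A, RegFin (ResidueField A) (tauF N A) z →
      z ∈ Set.range (algebraMap C (FresBar N A)))
    (Ψ : C →ₐ[ResidueField A] C) (hΨpow : ∀ a, ∃ b, Ψ a = b ^ q)
    (hΨ : ∀ c, algebraMap C (FresBar N A) (Ψ c) = psiFN N A h hA (algebraMap C (FresBar N A) c))
    (J' : Ideal C) (hfix : fixIdeal Ψ ≤ J')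
    (hB : ∀ (x : FN N) (h1 : x ∈ (redDataBar N A).Rw) (h2 : x ∈ (redData2 N A h).Rw),
      RegFin Kbar (jF N) x →
      ∃ g g' : C, algebraMap C (FresBar N A) g = (redDataBar N A).red ⟨x, h1⟩ ∧
        algebraMap C (FresBar N A) g' = (redData2 N A h).red ⟨x, h2⟩ ∧ g - Ψ g' ∈ J')
    (hBsurj : ∀ g g' : C, g - Ψ g' ∈ J' →
      ∃ (x : FN N) (h1 : x ∈ (redDataBar N A).Rw) (h2 : x ∈ (redData2 N A h).Rw),
        RegFin Kbar (jF N) x ∧ (redDataBar N A).red ⟨x, h1⟩ = algebraMap C (FresBar N A) g ∧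
          (redData2 N A h).red ⟨x, h2⟩ = algebraMap C (FresBar N A) g')
    (mα mβ : ℕ)
    (hα : ∀ m : ℕ, mα ≤ m → ∀ y ∈ Lfib (ResidueField A) (tauF N A) (m : ℤ), ∃ x,
      ∃ hx : x ∈ (ballFN N A h).B,
      RegFin Kbar (jF N * jdF N q h.dvd)⁻¹ ((jF N)⁻¹ ^ m * x) ∧
        (ballFN N A h).red ⟨x, hx⟩ = (y, psiFN N A h hA y))
    (hβ : ∀ m : ℕ, mβ ≤ m → ∀ y ∈ Lfib (ResidueField A) (tauF N A) (m : ℤ), ∃ x,
      ∃ hx : x ∈ (ballFN N A h).B,
      RegFin Kbar (jF N * jdF N q h.dvd)⁻¹ ((jdF N q h.dvd)⁻¹ ^ m * x) ∧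
        (ballFN N A h).red ⟨x, hx⟩ = (psiFN N A h hA y, y)) :
    ∃ (_ : Fintype ↥(nodes J')) (P Q : ↥(nodes J') → Place (ResidueField A) (FresBar N A)),
      FrameFacts N A h P Q ∧ (∀ i, CentredAt (P i) i.1) ∧
        (∀ i, CentredAt (Q i) (i.1.comap Ψ)) := by
  classical
  haveI hgenK : IsGen Kbar (jF N) := isGen_jF N
  haveI hgenk : IsGen (ResidueField A) (tauF N A) := isGen_tauF N A
  haveI : Infinite (ResidueField A) := IsAlgClosed.instInfinite
  -- the nodes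
  have hq2 : 2 ≤ q := h.prime.two_le
  have hJ0 : J' ≠ ⊥ := fun h0 => fixIdeal_ne_bot Ψ hCf hq2 hΨpow (le_bot_iff.1 (h0 ▸ hfix))
  have hrad : J'.IsRadical := isRadical_of_fixIdeal_le Ψ hCf hq2 hΨpow hfix
  letI : Fintype ↥(nodes J') := (finite_nodes hCf hJ0).fintype
  have hJ : ∀ c : C, c ∈ J' ↔ ∀ m ∈ nodes J', c ∈ m := by
    intro c
    conv_lhs => rw [eq_sInf_nodes hJ0 hrad]
    rw [Ideal.mem_sInf]
  -- the chart on the special fibre
  have hτ0 : tauF N A ≠ 0 := tauF_ne_zero N A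
  have hs0 : tauF N A ^ (1 + q) ≠ 0 := pow_ne_zero _ hτ0
  have hD : ExactPoles (tauF N A ^ (1 + q)) (Bound.poleDiv (ResidueField A) (tauF N A ^ (1 + q))) :=
    exactPoles_poleDiv hs0
  have hregpow : ∀ x : FresBar N A, RegFin (ResidueField A) (tauF N A ^ (1 + q)) x ↔
      RegFin (ResidueField A) (tauF N A) x :=
    fun x => Fermat.Agent.GK.Red.regFin_pow_iff (by omega)
  have hC₁ : ∀ x : FresBar N A, RegFin (ResidueField A) (tauF N A ^ (1 + q)) x →
      x ∈ Set.range (algebraMap C (FresBar N A)) := fun x hx => hCrange x ((hregpow x).1 hx)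
  obtain ⟨gτ, hgτ⟩ := hCrange (tauF N A) (regFin_self (tauF N A))
  have hgs : algebraMap C (FresBar N A) (gτ ^ (1 + q)) = tauF N A ^ (1 + q) := by
    rw [map_pow, hgτ]
  obtain ⟨P, Q, hPinj, hQinj, hdP, hdQ, hD₁, hD₂, hTeq, hPc, hQc⟩ :=
    exists_places_T_centred (Ψ := Ψ) (J' := J') (tauF N A) hinj hCf hfix hJ hC₁ hC₁ ⟨_, hgs⟩
      ⟨_, hgs⟩ hD hD
  have hs : ((tauF N A ^ (1 + q), tauF N A ^ (1 + q)) : FresBar N A × FresBar N A) ∈
      T P Q (Bound.poleDiv (ResidueField A) (tauF N A ^ (1 + q)))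
        (Bound.poleDiv (ResidueField A) (tauF N A ^ (1 + q))) 1 := by
    rw [← hTeq 1]
    have := mem_Tglue_of_regFin (Ψ := Ψ) (J' := J') (tauF N A) hD hD (n := 1)
      (chart_sub_mem N A h hA hinj Ψ hΨ hfix hgτ)
      (by rw [hgs]; exact regFin_self _) (by rw [hgs]; exact regFin_self _)
      (by rw [hgs, pow_one, inv_mul_cancel₀ hs0]; exact regFin_one _)
      (by rw [hgs, pow_one, inv_mul_cancel₀ hs0]; exact regFin_one _)
    rwa [hgs] at this
  -- the chart on the generic fibre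
  have ht1 := isGaussChart1_tS N A h hA
  have ht2 := isGaussChart2_tS N A h hA
  have hr1 : (redDataBar N A).red ⟨tS N h.dvd, ht1.1⟩ = tauF N A ^ (1 + q) := by
    rw [red1_tS N A h hA, add_comm]
  have hr2 : (redData2 N A h).red ⟨tS N h.dvd, ht2.1⟩ = tauF N A ^ (1 + q) := by
    rw [red2_tS N A h hA, add_comm]
  have hD1' : ExactPoles ((redDataBar N A).red ⟨tS N h.dvd, ht1.1⟩)
      (Bound.poleDiv (ResidueField A) (tauF N A ^ (1 + q))) := by rw [hr1]; exact hD
  have hD2' : ExactPoles ((redData2 N A h).red ⟨tS N h.dvd, ht2.1⟩)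
      (Bound.poleDiv (ResidueField A) (tauF N A ^ (1 + q))) := by rw [hr2]; exact hD
  haveI : FiniteDimensional Kbar⟮tS N h.dvd⟯ (FN N) := (isGen_tS N h.dvd).finite
  have hc := redCompatFN N A h
  have hne := Rw1_ne_Rw2 N A h hA
  have hdeg := hdeg_tS_le N A h hA
  have hti1 := inv_tS_mem_Rw1 N A h hA
  have hti2 := inv_tS_mem_Rw2 N A h hA
  have hB' : ∀ (x : FN N) (h1 : x ∈ (redDataBar N A).Rw) (h2 : x ∈ (redData2 N A h).Rw),
      RegFin Kbar (tS N h.dvd) x →
      ∃ g g' : C, algebraMap C (FresBar N A) g = (redDataBar N A).red ⟨x, h1⟩ ∧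
        algebraMap C (FresBar N A) g' = (redData2 N A h).red ⟨x, h2⟩ ∧ g - Ψ g' ∈ J' :=
    fun x h1 h2 hx => hB x h1 h2 ((regFin_tS_iff N h.dvd h.prime x).1 hx)
  -- the node count
  have hfin : ∀ n, ∀ z ∈ T P Q (Bound.poleDiv (ResidueField A) (tauF N A ^ (1 + q)))
      (Bound.poleDiv (ResidueField A) (tauF N A ^ (1 + q))) n,
      z ∈ redAlg (ballFN N A h) (jF N * jdF N q h.dvd) := by
    intro n z hz
    rw [← hTeq n] at hz
    obtain ⟨-, -, g, g', hg, hg', hgg'⟩ := hz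
    obtain ⟨x, h1, h2, hreg, e1, e2⟩ := hBsurj g g' hgg'
    refine ⟨x, (mem_ballFN N A h).2 ⟨h1, h2⟩, (regFin_tS_iff N h.dvd h.prime x).2 hreg, ?_⟩
    exact Prod.ext (e1.trans hg) (e2.trans hg')
  have hdim := Fermat.Agent.GK.NodesGeFN.exists_hdimT_FN N A h hA
    hPinj hQinj hdP hdQ hD₁ hD₂ hs mα mβ hα hβ hfin
  refine ⟨inferInstance, P, Q,
    { injP := hPinj, injQ := hQinj, degP := hdP, degQ := hdQ, offP := hD₁, offQ := hD₂
      chart_mem := hs
      pencil := fun n x hx => ?_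
      hdimT := hdim }, hPc, hQc⟩
  show _ ∈ T P Q (Bound.poleDiv (ResidueField A) (tauF N A ^ (1 + q)))
    (Bound.poleDiv (ResidueField A) (tauF N A ^ (1 + q))) n
  rw [← hTeq n]
  exact hT_Tglue (tauF N A) hc hne ht1 ht2 hdeg hti1 hti2 Ψ J' hD1' hD2' hB' n x hx

end Extract

end Fermat.Agent.GF.Eis.NodesFrame

end
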