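/-
GATE-F / GF-EIS leaf (E4), part 3 (helper65): **the nodal frame at the supersingular points**.

Level `N`, `p ∥ N`, `A | p`.  `GS/Nodal/Inst/Level.exists_nodalHyp_of_exactDvd` (helper86) gives a
nodal frame `(ι, P, Q)` with `FrameFacts` and `NodalHyp`; here the SAME frame is returned together
with the description of the node branches `P s` as the supersingular places:

* (d) `G := red₁ (Δ(z)/Δ(pz))` (`= pH(j~)`, the supersingular polynomial in `j~`) has NO zero off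
  the cusps other than the `P s` :
  `∀ Q', 0 ≤ ord_{Q'} τ → (∀ s, Q' ≠ P s) → ord_{Q'} G = 0`;
* (e) every `P s` IS a zero of `G` : `0 < ord_{P s} G`.

Proof: the frame of `exists_frameFacts_fibre` is indexed by `nodes J'` (maximal ideals of the
coordinate ring `C = CRing N' A` containing the node ideal `J'`), `P m` is THE place centred at `m`
(`NodesFrame.exists_frameFacts_fibre_centred`, `NodesCentred.eq_of_centredAt`), and a prime of `C`
contains `J'` iff it contains `pH(j~)` (`GL/Thick/NodesSS.le_prime_iff_ssPolyAll_mem`), while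
`red₁ (Δ(z)/Δ(pz)) = pH(j~)` (`GL/Thick/EtaNodesAll.redC1_etaB_all`).

* `red_etaQ_eq_iC`, `exists_nodalHyp_ss_mul` (level `N' ℓ`), **`exists_nodalHyp_ss`** (level `N`).
-/
import Fermat.Agent.GF.Eis.NodesFrame
import Fermat.Agent.GL.Thick.NodesSS
import Fermat.Agent.GL.Thick.PlaceDictC

set_option autoImplicit false
set_option linter.unusedSectionVars false
set_option linter.style.haveILetI false

noncomputable section

namespace Fermat.Agent.GF.Eis.NodesSS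

open AlgebraicCurve IntermediateField Module IsLocalRing ModularCurve Polynomial
open Fermat.Agent.S24 Fermat.Agent.S24_helper62 Fermat.Agent.RRh45 Fermat.Agent.RR
open Fermat.Agent.GJ.J1 Fermat.Agent.GJ.J1.Val Fermat.Agent.GJ.J1.InstGen
open Fermat.Agent.GJ.J1.PlaceLattice
open Fermat.Agent.GK.AL Fermat.Agent.GK.MultiVal
open Fermat.Agent.GK.CuspSep Fermat.Agent.GK.SymChart Fermat.Agent.GK.SymDegree
open Fermat.Agent.GK.BallTwo Fermat.Agent.GK.Val.TwoVal Fermat.Agent.GK.PsiFN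
open Fermat.Agent.GK.FrobGlue Fermat.Agent.GK.NodalBridge Fermat.Agent.GK.NodalGraded
open Fermat.Agent.GK.NodalPole
open Fermat.Agent.GK.SS.Modular
open Fermat.Agent.GS.Nodal.Inst Fermat.Agent.GS.Nodal.LSR2
open Fermat.Agent.GF.Eis.NodesCentred Fermat.Agent.GF.Eis.NodesFrame
open Fermat.Agent.GK.QS Fermat.Agent.GK.PsiFNGood
open Fermat.Agent.GL.Eta Fermat.Agent.GL.SmallQ Fermat.Agent.GL.Thick Fermat.Agent.S28

attribute [local instance] finiteResidues_FN hasPrincipalDivisors_FN nonempty_place_FN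
  isAlgClosed_res finiteResidues_Fres hasPrincipalDivisors_Fres nonempty_place_Fres

section Level

variable (N' : ℕ) [NeZero N'] (ℓ : ℕ) [Fact ℓ.Prime] [NeZero ℓ]
variable (A : ValuationSubring Kbar) (h : ExactDvd ℓ (N' * ℓ)) (hA : A.LiesOverPrime ℓ)

/-- **`red₁ (Δ(z)/Δ(ℓz)) = pH(j~)`** inside `FresBar (N' ℓ) A` -/
theorem red_etaQ_eq_iC (hℓN : ¬ ℓ ∣ N') :
    (redDataBar (N' * ℓ) A).red ⟨etaQ (N' * ℓ) ℓ h.dvd, etaQ_mem_Rw1 (N' * ℓ) A ℓ h.dvd⟩ =
      iC N' ℓ A h hA (aeval (jtC N' A)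
        (@ssPolyAll ℓ _ (ResidueField A) _ (charP_residue A Fact.out hA))) := by
  rw [← Fermat.Agent.GL.SmallQ.redC1_etaB_all (h := h) hℓN hA]
  apply Subtype.ext
  rw [coe_iC, cVal_redC1, rho1_etaB]
  exact coe_red1_etaQ _ A ℓ h.dvd _

include hA in
set_option synthInstance.maxHeartbeats 400000 in
set_option maxHeartbeats 1600000 in
/-- **the supersingular nodal frame at level `N' ℓ`, `ℓ ∤ N'`, `A | ℓ`**: `FrameFacts`, `NodalHyp`,
(d) no zero of `red₁ (Δ(z)/Δ(ℓz))` off the cusps other than the `P s`, (e) the `P s` are zeros. -/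
theorem exists_nodalHyp_ss_mul (hℓN : ¬ ℓ ∣ N') (h2 : ℓ = 2 → 3 ∣ N') (h3 : ℓ = 3 → 2 ∣ N') :
    ∃ (ι : Type) (_ : Fintype ι) (P Q : ι → Place (ResidueField A) (FresBar (N' * ℓ) A))
      (c : ℤ) (n₀ : ℕ), FrameFacts (N' * ℓ) A h P Q ∧
        NodalHyp (redCompatFN (N' * ℓ) A h) P Q (CS (N' * ℓ) h) (Dτ (N' * ℓ) A ℓ)
          (Dτ (N' * ℓ) A ℓ) (genusRR Kbar (FN (N' * ℓ))) c n₀ ∧
        (∀ Q' : Place (ResidueField A) (FresBar (N' * ℓ) A), 0 ≤ Q'.ord (tauF (N' * ℓ) A) →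
          (∀ s, Q' ≠ P s) →
          Q'.ord ((redDataBar (N' * ℓ) A).red
            ⟨etaQ (N' * ℓ) ℓ h.dvd, etaQ_mem_Rw1 (N' * ℓ) A ℓ h.dvd⟩) = 0) ∧
        (∀ s, 0 < (P s).ord ((redDataBar (N' * ℓ) A).red
            ⟨etaQ (N' * ℓ) ℓ h.dvd, etaQ_mem_Rw1 (N' * ℓ) A ℓ h.dvd⟩)) := by
  obtain ⟨hDed, hCf, hrange⟩ := fibreFacts N' ℓ A h hA hℓN h2 h3
  obtain ⟨J', hfix, hBT⟩ := exists_ideal_BT N' ℓ A h hℓN hA h2 h3
  obtain ⟨mα, hα⟩ := Fermat.Agent.GK.OldLiftsFN.exists_alpha_lifts_FN (N' * ℓ) A h hA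
    (fun e => Dvd.dvd.mul_right (h2 e) ℓ) (fun e => Dvd.dvd.mul_right (h3 e) ℓ)
  obtain ⟨mβ, hβ⟩ := Fermat.Agent.GK.OldLiftsFN.exists_beta_lifts_FN (N' * ℓ) A h hA
    (fun e => Dvd.dvd.mul_right (h2 e) ℓ) (fun e => Dvd.dvd.mul_right (h3 e) ℓ)
  letI : Algebra (CRing N' A) (FresBar (N' * ℓ) A) := (iC N' ℓ A h hA).toRingHom.toAlgebra
  haveI : IsScalarTower (ResidueField A) (CRing N' A) (FresBar (N' * ℓ) A) :=
    IsScalarTower.of_algebraMap_eq fun c => ((iC N' ℓ A h hA).commutes c).symm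
  obtain ⟨hι, P, Q, FF, hP, hQ⟩ :=
    exists_frameFacts_fibre_centred (N' * ℓ) A h hA hCf (iC_injective N' ℓ A h hA)
      (fun z hz => mem_range_iC N' ℓ A h hA hz)
      (psiC N' ℓ A hℓN hA) (exists_pow_eq_psiC N' ℓ A hℓN hA) (iC_psiC N' ℓ A h hA hℓN)
      J' hfix (hB_of_range N' ℓ A h hA hℓN hBT hrange) (hBsurj_of_BT N' ℓ A h hA hℓN hBT)
      mα mβ hα hβ
  obtain ⟨c, n₀, H⟩ := nodalHyp_of_frameFacts (N' * ℓ) A h hA FF
  -- the fraction field
  haveI hfr0 : IsFractionRing (CRing N' A) (FresBar N' A) := isFractionRing_CRing N' A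
  let e : FresBar N' A ≃ₐ[CRing N' A] FresBar (N' * ℓ) A :=
    AlgEquiv.ofRingEquiv (f := (goodEquiv A hA N' h).toRingEquiv) (fun _ => rfl)
  haveI hfr : IsFractionRing (CRing N' A) (FresBar (N' * ℓ) A) :=
    IsLocalization.isLocalization_of_algEquiv (nonZeroDivisors (CRing N' A)) e
  haveI hgenk : IsGen (ResidueField A) (tauF (N' * ℓ) A) := isGen_tauF (N' * ℓ) A
  have hG := red_etaQ_eq_iC N' ℓ A h hA hℓN
  have hG0 : (redDataBar (N' * ℓ) A).red
      ⟨etaQ (N' * ℓ) ℓ h.dvd, etaQ_mem_Rw1 (N' * ℓ) A ℓ h.dvd⟩ ≠ 0 := by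
    intro h0
    have h1 : ((redDataBar (N' * ℓ) A).red
      ⟨etaQ (N' * ℓ) ℓ h.dvd, etaQ_mem_Rw1 (N' * ℓ) A ℓ h.dvd⟩ : LaurentSeries (ResidueField A)) =
        0 := by rw [h0]; rfl
    rw [coe_red1_etaQ] at h1
    exact right_ne_zero_of_mul_eq_one (uS_mul_uInvS (ResidueField A) ℓ) h1
  refine ⟨↥(nodes J'), hι, P, Q, c, n₀, FF, H, ?_, ?_⟩
  · intro Q' hτ hne
    have hB : Fermat.Agent.S24_helper6.ContainsB (CRing N' A) Q' := fun c => by
      rw [← ord_nonneg_iff_mem]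
      exact (regFin_iff_ord (tauF (N' * ℓ) A) (tauF (N' * ℓ) A) _).1
        (regFin_iC N' ℓ A h hA c) Q' hτ
    have hmprime : (Fermat.Agent.S24_helper6.centre Q' hB).IsPrime := inferInstance
    have hm0 : Fermat.Agent.S24_helper6.centre Q' hB ≠ ⊥ :=
      Fermat.Agent.S24_helper6.centre_ne_bot Q' hB
    have hmmax : (Fermat.Agent.S24_helper6.centre Q' hB).IsMaximal := hmprime.isMaximal hm0
    have hcen : CentredAt Q' (Fermat.Agent.S24_helper6.centre Q' hB) := centredAt_centre Q' hB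
    by_contra hne0
    rw [hG] at hne0
    have hge : 0 ≤ Q'.ord (iC N' ℓ A h hA (aeval (jtC N' A)
        (@ssPolyAll ℓ _ (ResidueField A) _ (charP_residue A Fact.out hA)))) :=
      hcen.ord_nonneg _
    have hmem : aeval (jtC N' A)
        (@ssPolyAll ℓ _ (ResidueField A) _ (charP_residue A Fact.out hA)) ∈
          Fermat.Agent.S24_helper6.centre Q' hB := by
      rw [hcen.mem_iff, mem_ordGE]
      right
      have : Q'.ord (algebraMap (CRing N' A) (FresBar (N' * ℓ) A) (aeval (jtC N' A)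
        (@ssPolyAll ℓ _ (ResidueField A) _ (charP_residue A Fact.out hA)))) ≠ 0 := hne0
      have h0 : 0 ≤ Q'.ord (algebraMap (CRing N' A) (FresBar (N' * ℓ) A) (aeval (jtC N' A)
        (@ssPolyAll ℓ _ (ResidueField A) _ (charP_residue A Fact.out hA)))) := hge
      omega
    have hle : J' ≤ Fermat.Agent.S24_helper6.centre Q' hB :=
      (Fermat.Agent.GL.Thick.le_prime_iff_ssPolyAll_mem hℓN hA hBT _).2 hmem
    have hnode : Fermat.Agent.S24_helper6.centre Q' hB ∈ nodes J' := ⟨hmmax, hle⟩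
    exact hne ⟨_, hnode⟩ (eq_of_centredAt hcen (hP ⟨_, hnode⟩))
  · intro s
    have hmem : aeval (jtC N' A)
        (@ssPolyAll ℓ _ (ResidueField A) _ (charP_residue A Fact.out hA)) ∈ s.1 :=
      s.2.2 (Fermat.Agent.GL.SmallQ.ssPolyAll_mem_ideal hℓN hA hBT)
    rw [(hP s).mem_iff, mem_ordGE] at hmem
    rcases hmem with h0 | h1
    · exact absurd (hG.trans h0) hG0
    · rw [hG]
      exact lt_of_lt_of_le one_pos h1

end Level

/-- **(E4) the supersingular nodal frame at level `N`, `p ∥ N`, `A | p`**: a nodal frame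
`(ι, P, Q)` with `FrameFacts`, `NodalHyp` and
(d) `red₁ (Δ(z)/Δ(pz))` has no zero off the cusps other than the node branches `P s`;
(e) every `P s` is a zero of `red₁ (Δ(z)/Δ(pz))`. -/
theorem exists_nodalHyp_ss (N : ℕ) [NeZero N] (p : ℕ) [NeZero p]
    (A : ValuationSubring Kbar) (h : ExactDvd p N) (hA : A.LiesOverPrime p)
    (h2 : p = 2 → 3 ∣ N) (h3 : p = 3 → 2 ∣ N) :
    ∃ (ι : Type) (_ : Fintype ι) (P Q : ι → Place (ResidueField A) (FresBar N A))
      (c : ℤ) (n₀ : ℕ), FrameFacts N A h P Q ∧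
        NodalHyp (redCompatFN N A h) P Q (CS N h) (Dτ N A p) (Dτ N A p)
          (genusRR Kbar (FN N)) c n₀ ∧
        (∀ Q' : Place (ResidueField A) (FresBar N A), 0 ≤ Q'.ord (tauF N A) →
          (∀ s, Q' ≠ P s) →
          Q'.ord ((redDataBar N A).red ⟨etaQ N p h.dvd, etaQ_mem_Rw1 N A p h.dvd⟩) = 0) ∧
        (∀ s, 0 < (P s).ord ((redDataBar N A).red ⟨etaQ N p h.dvd, etaQ_mem_Rw1 N A p h.dvd⟩)) := by
  obtain ⟨N', hN'⟩ : ∃ N', N = N' * p := by
    obtain ⟨m, hm⟩ := h.dvd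
    exact ⟨m, by rw [hm, mul_comm]⟩
  subst hN'
  haveI : NeZero N' := ⟨fun h0 => NeZero.ne (N' * p) (by rw [h0, zero_mul])⟩
  haveI : Fact p.Prime := ⟨h.prime⟩
  have hpN : ¬ p ∣ N' := by
    rintro ⟨m, hm⟩
    apply h.not_sq
    exact ⟨m, by rw [hm]; ring⟩
  have h2' : p = 2 → 3 ∣ N' := by
    intro hp
    have h3N := h2 hp
    rw [hp] at h3N
    exact (Nat.Coprime.dvd_mul_right (by norm_num : Nat.Coprime 3 2)).mp h3N
  have h3' : p = 3 → 2 ∣ N' := by
    intro hp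
    have h2N := h3 hp
    rw [hp] at h2N
    exact (Nat.Coprime.dvd_mul_right (by norm_num : Nat.Coprime 2 3)).mp h2N
  exact exists_nodalHyp_ss_mul N' p A h hA hpN h2' h3'

end Fermat.Agent.GF.Eis.NodesSS

end
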