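/-
GATE-F / (L-d) DOWNSTAIRS, part 1 (helper65): **the order of `G = red₁ (Δ(z)/Δ(pz)) = pH(j~)` at its
zeros off the cusps**, level `N`, `p ∥ N`, `A | p`, in `Place` language on `FresBar N A`:

* `ord_red_etaQ_le`  : `ord_Q G ≤ 12` at EVERY place `Q` off the cusps (`0 ≤ ord_Q τ`), any level
  (thickness: `pH(j~) ∉ m^13`, `GL/Thick/EtaSharp.ssPolyAll_notMem_pow_succ`);
* `ord_red_etaQ_eq`  : `ord_Q G = 12` at every ZERO `Q` of `G` off the cusps, when the level `N / p`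
  has no elliptic points (`nuTwo (N / p) = 0`, `nuThree (N / p) = 0`, e.g. `4 ∣ N`)
  (`GL/Reg/EtaInstK0B.ssPolyAll_mem_pow_twelve_B` : `pH(j~) ∈ m^12` at every node `m`).

Generic tool: `le_ord_iff_mem_pow` : for a place `v ⊇ B` (`B` Dedekind, `Frac B = F`), `b ≠ 0`:
`n ≤ ord_v b ↔ b ∈ (m_v ∩ B)^n`.
-/
import Fermat.Agent.GF.Eis.NodesSS
import Fermat.Agent.GL.Reg.EtaInstK0B

set_option autoImplicit false
set_option linter.unusedSectionVars false
set_option linter.style.haveILetI false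

noncomputable section

namespace Fermat.Agent.GF.Eis.EtaOrd

open AlgebraicCurve IntermediateField Module IsLocalRing ModularCurve Polynomial
open IsDedekindDomain IsDedekindDomain.HeightOneSpectrum WithZero
open Fermat.Agent.S24 Fermat.Agent.S24_helper62 Fermat.Agent.RRh45 Fermat.Agent.RR
open Fermat.Agent.GJ.J1 Fermat.Agent.GJ.J1.Val Fermat.Agent.GJ.J1.InstGen
open Fermat.Agent.GJ.J1.PlaceLattice
open Fermat.Agent.GK.AL Fermat.Agent.GK.MultiVal
open Fermat.Agent.GK.CuspSep Fermat.Agent.GK.SymChart Fermat.Agent.GK.SymDegree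
open Fermat.Agent.GK.BallTwo Fermat.Agent.GK.Val.TwoVal Fermat.Agent.GK.PsiFN
open Fermat.Agent.GK.FrobGlue Fermat.Agent.GK.NodalBridge Fermat.Agent.GK.NodalGraded
open Fermat.Agent.GK.NodalPole
open Fermat.Agent.GK.SS.Modular
open Fermat.Agent.GS.Nodal.Inst Fermat.Agent.GS.Nodal.LSR2
open Fermat.Agent.GF.Eis.NodesCentred Fermat.Agent.GF.Eis.NodesFrame Fermat.Agent.GF.Eis.NodesSS
open Fermat.Agent.GK.QS Fermat.Agent.GK.PsiFNGood
open Fermat.Agent.GL.Eta Fermat.Agent.GL.SmallQ Fermat.Agent.GL.Thick Fermat.Agent.S28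
open Fermat.Agent.Common_helper32

attribute [local instance] finiteResidues_FN hasPrincipalDivisors_FN nonempty_place_FN
  isAlgClosed_res finiteResidues_Fres hasPrincipalDivisors_Fres nonempty_place_Fres

/-! ### generic: `n ≤ ord_v b ↔ b ∈ centre ^ n` -/

section Generic

variable {K F : Type*} [Field K] [Field F] [Algebra K F]
  {B : Type*} [CommRing B] [IsDedekindDomain B] [Algebra K B] [Algebra B F]
  [IsScalarTower K B F] [IsFractionRing B F]

/-- **`n ≤ ord_v b ↔ b ∈ (m_v ∩ B) ^ n`** for a place `v ⊇ B` and `b ≠ 0` -/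
theorem le_ord_iff_mem_pow (v : Place K F) (hB : Fermat.Agent.S24_helper6.ContainsB B v)
    {b : B} (hb : b ≠ 0) (n : ℕ) :
    (n : ℤ) ≤ v.ord (algebraMap B F b) ↔ b ∈ (Fermat.Agent.S24_helper6.centre v hB) ^ n := by
  rw [Fermat.Agent.S24_helper6.ord_eq_of_containsB v hB, valuation_of_algebraMap,
    ← Fermat.Agent.S24_helper6.primeOfPlace_asIdeal v hB, ← intValuation_le_pow_iff_mem]
  have hne : (Fermat.Agent.S24_helper6.primeOfPlace v hB).intValuation b ≠ 0 :=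
    (Fermat.Agent.S24_helper6.primeOfPlace v hB).intValuation_ne_zero b hb
  rw [← log_le_iff_le_exp hne]
  constructor <;> intro h <;> omega

end Generic

/-! ### level `N' ℓ` -/

section Level

variable (N' : ℕ) [NeZero N'] (ℓ : ℕ) [Fact ℓ.Prime] [NeZero ℓ]
variable (A : ValuationSubring Kbar) (h : ExactDvd ℓ (N' * ℓ)) (hA : A.LiesOverPrime ℓ)

include hA in
set_option synthInstance.maxHeartbeats 400000 in
set_option maxHeartbeats 1600000 in
/-- **the centre of a place off the cusps on the coordinate ring `C = CRing N' A`**, with the order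
dictionary, free of instance arguments: `n ≤ ord_Q (iC c) ↔ c ∈ m ^ n`. -/
theorem exists_centre_iC (hℓN : ¬ ℓ ∣ N') (h2 : ℓ = 2 → 3 ∣ N') (h3 : ℓ = 3 → 2 ∣ N')
    (Q' : Place (ResidueField A) (FresBar (N' * ℓ) A))
    (hτ : 0 ≤ Q'.ord (tauF (N' * ℓ) A)) :
    ∃ m : Ideal (CRing N' A), m.IsMaximal ∧
      ∀ c : CRing N' A, c ≠ 0 → ∀ n : ℕ,
        ((n : ℤ) ≤ Q'.ord (iC N' ℓ A h hA c) ↔ c ∈ m ^ n) := by
  obtain ⟨hDed, hCf, hrange⟩ := fibreFacts N' ℓ A h hA hℓN h2 h3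
  letI : Algebra (CRing N' A) (FresBar (N' * ℓ) A) := (iC N' ℓ A h hA).toRingHom.toAlgebra
  haveI : IsScalarTower (ResidueField A) (CRing N' A) (FresBar (N' * ℓ) A) :=
    IsScalarTower.of_algebraMap_eq fun c => ((iC N' ℓ A h hA).commutes c).symm
  haveI hfr0 : IsFractionRing (CRing N' A) (FresBar N' A) := isFractionRing_CRing N' A
  let e : FresBar N' A ≃ₐ[CRing N' A] FresBar (N' * ℓ) A :=
    AlgEquiv.ofRingEquiv (f := (goodEquiv A hA N' h).toRingEquiv) (fun _ => rfl)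
  haveI hfr : IsFractionRing (CRing N' A) (FresBar (N' * ℓ) A) :=
    IsLocalization.isLocalization_of_algEquiv (nonZeroDivisors (CRing N' A)) e
  haveI hgenk : IsGen (ResidueField A) (tauF (N' * ℓ) A) := isGen_tauF (N' * ℓ) A
  have hB : Fermat.Agent.S24_helper6.ContainsB (CRing N' A) Q' := fun c => by
    rw [← ord_nonneg_iff_mem]
    exact (regFin_iff_ord (tauF (N' * ℓ) A) (tauF (N' * ℓ) A) _).1
      (regFin_iC N' ℓ A h hA c) Q' hτ
  have hmprime : (Fermat.Agent.S24_helper6.centre Q' hB).IsPrime := inferInstance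
  have hm0 : Fermat.Agent.S24_helper6.centre Q' hB ≠ ⊥ :=
    Fermat.Agent.S24_helper6.centre_ne_bot Q' hB
  refine ⟨Fermat.Agent.S24_helper6.centre Q' hB, hmprime.isMaximal hm0, fun c hc n => ?_⟩
  exact le_ord_iff_mem_pow Q' hB hc n

include hA in
/-- **`ord_Q (red₁ (Δ(z)/Δ(ℓz))) ≤ 12`** at every place off the cusps, every level `N' ℓ`. -/
theorem ord_red_etaQ_le_mul (hℓN : ¬ ℓ ∣ N') (h2 : ℓ = 2 → 3 ∣ N') (h3 : ℓ = 3 → 2 ∣ N')
    (Q' : Place (ResidueField A) (FresBar (N' * ℓ) A))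
    (hτ : 0 ≤ Q'.ord (tauF (N' * ℓ) A)) :
    Q'.ord ((redDataBar (N' * ℓ) A).red
      ⟨etaQ (N' * ℓ) ℓ h.dvd, etaQ_mem_Rw1 (N' * ℓ) A ℓ h.dvd⟩) ≤ 12 := by
  have : CharP (ResidueField A) ℓ := charP_residue A Fact.out hA
  obtain ⟨J', hfix, hBT⟩ := exists_ideal_BT N' ℓ A h hℓN hA h2 h3
  obtain ⟨m, hmax, hm⟩ := exists_centre_iC N' ℓ A h hA hℓN h2 h3 Q' hτ
  rw [red_etaQ_eq_iC N' ℓ A h hA hℓN]
  have hg0 : aeval (jtC N' A)
      (@ssPolyAll ℓ _ (ResidueField A) _ (charP_residue A Fact.out hA)) ≠ 0 :=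
    aeval_jtC_ne_zero (ssPolyAll_ne_zero ℓ (ResidueField A))
  have h13 := ssPolyAll_notMem_pow_succ hℓN hA hfix hBT m hmax
  rw [← hm _ hg0 13] at h13
  push_cast at h13
  omega

include hA in
/-- **`ord_Q (red₁ (Δ(z)/Δ(ℓz))) = 12`** at every zero off the cusps, when the level `N'` has no
elliptic points. -/
theorem ord_red_etaQ_eq_mul (hℓN : ¬ ℓ ∣ N') (h2 : ℓ = 2 → 3 ∣ N') (h3 : ℓ = 3 → 2 ∣ N')
    (hν2 : nuTwo N' = 0) (hν3 : nuThree N' = 0)
    (Q' : Place (ResidueField A) (FresBar (N' * ℓ) A))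
    (hτ : 0 ≤ Q'.ord (tauF (N' * ℓ) A))
    (hne : Q'.ord ((redDataBar (N' * ℓ) A).red
      ⟨etaQ (N' * ℓ) ℓ h.dvd, etaQ_mem_Rw1 (N' * ℓ) A ℓ h.dvd⟩) ≠ 0) :
    Q'.ord ((redDataBar (N' * ℓ) A).red
      ⟨etaQ (N' * ℓ) ℓ h.dvd, etaQ_mem_Rw1 (N' * ℓ) A ℓ h.dvd⟩) = 12 := by
  have : CharP (ResidueField A) ℓ := charP_residue A Fact.out hA
  have hle := ord_red_etaQ_le_mul N' ℓ A h hA hℓN h2 h3 Q' hτ
  obtain ⟨J', hfix, hBT⟩ := exists_ideal_BT N' ℓ A h hℓN hA h2 h3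
  obtain ⟨m, hmax, hm⟩ := exists_centre_iC N' ℓ A h hA hℓN h2 h3 Q' hτ
  have hD : IsDedekindDomain (CRing N' A) := isDedekindDomain_CRing N' ℓ A hA
  rw [red_etaQ_eq_iC N' ℓ A h hA hℓN] at hne hle ⊢
  have hg0 : aeval (jtC N' A)
      (@ssPolyAll ℓ _ (ResidueField A) _ (charP_residue A Fact.out hA)) ≠ 0 :=
    aeval_jtC_ne_zero (ssPolyAll_ne_zero ℓ (ResidueField A))
  have h0 : (0 : ℤ) ≤ Q'.ord (iC N' ℓ A h hA (aeval (jtC N' A)
      (@ssPolyAll ℓ _ (ResidueField A) _ (charP_residue A Fact.out hA)))) := by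
    have := (hm _ hg0 0).2 (by rw [pow_zero, Ideal.one_eq_top]; trivial)
    exact_mod_cast this
  have h1 : aeval (jtC N' A)
      (@ssPolyAll ℓ _ (ResidueField A) _ (charP_residue A Fact.out hA)) ∈ m := by
    have := (hm _ hg0 1).1 (by push_cast; omega)
    rwa [pow_one] at this
  haveI : m.IsPrime := hmax.isPrime
  have hnode : J' ≤ m := (le_prime_iff_ssPolyAll_mem hℓN hA hBT m).2 h1
  have h12 := Fermat.Agent.GL.EtaInstK0B.ssPolyAll_mem_pow_twelve_B h hℓN hA h2 h3 hν2 hν3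
    hfix hBT hnode
  have := (hm _ hg0 12).2 h12
  push_cast at this
  omega

end Level

end Fermat.Agent.GF.Eis.EtaOrd

end
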