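/-
GATE-F / GF-EIS leaf (E3) of helper77 6134 (helper17): **cusps reduce to cusps on the Full frame.**

Level `M`, `ℓ ∤ M`, `A` a valuation subring of `ℚ̄` over `ℓ`, `k` its residue field,
`hle : FresBar M A ≤ modularFunctionFieldFullC k M`, `H : LSpaceHyp (redDataFull M A hle) g c`,
`r := rOf H` the place reduction map of the L-space construction:

* `red_jF`                  : `(redDataFull M A hle).red j = j̃` (`jFib k M`);
* `exists_pole_jF_of_pole`  : every pole of `j̃` is the image of a pole of `j`;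
* `hdeg_jF_full`            : degree preservation at `j` transported from `FresBar M A` to the
                              prelude's special-fibre field;
* `polar_jF`                : `(j̃)_∞ = r_* (j)_∞`;
* `rOf_pole_jF`             : a pole of `j` reduces to a pole of `j̃`.
-/
import Mathlib
import Fermat.Agent.GJ.S37.Bridge
import Fermat.Agent.GJ.S37.ROfSurj
import Fermat.Agent.GJ.J1.K18Modular
import Fermat.Agent.GJ.J1.FibreFinal
import Fermat.Agent.GL.Thick.SpecDiv

set_option autoImplicit false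
set_option linter.style.haveILetI false
set_option synthInstance.maxHeartbeats 400000
set_option maxHeartbeats 1000000

noncomputable section

namespace Fermat.Agent.GF.Eis.CuspRed

open AlgebraicCurve ModularCurve HahnSeries IntermediateField
open Fermat.Agent.S24 Fermat.Agent.RRh45 Fermat.Agent.GJ.J1 Fermat.Agent.GJ.J1.Val
  Fermat.Agent.GJ.J1.Haupt Fermat.Agent.GJ.S37LSpace Fermat.Agent.GJ.S37Bridge
  Fermat.Agent.GJ.S37ROfSurj Fermat.Agent.GJ.S37MinDiv Fermat.Agent.GJ.FibreCurve

/-! ### transport of a relative degree along an equality of intermediate fields -/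

/-- two equal intermediate fields have the same degree over the subfield generated by the same
element. -/
theorem finrank_adjoin_eq_of_eq {k L : Type*} [Field k] [Field L] [Algebra k L]
    {E₁ E₂ : IntermediateField k L} (h : E₁ = E₂) (x₁ : E₁) (x₂ : E₂)
    (hx : (x₁ : L) = (x₂ : L)) :
    Module.finrank k⟮x₁⟯ E₁ = Module.finrank k⟮x₂⟯ E₂ := by
  subst h
  obtain rfl : x₁ = x₂ := Subtype.ext hx
  rfl

variable {M : ℕ} [NeZero M] {A : ValuationSubring Kbar}

local notation "kA" => IsLocalRing.ResidueField A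

/-- `j` is Gauss-integral for the Full frame. -/
theorem jF_mem_Rw_full (hle : FresBar M A ≤ modularFunctionFieldFullC kA M) :
    jF M ∈ (redDataFull M A hle).Rw := jF_mem_Rw M A

/-- **the reduction of `j` is `j̃`.** -/
theorem red_jF (hle : FresBar M A ≤ modularFunctionFieldFullC kA M) :
    (redDataFull M A hle).red ⟨jF M, jF_mem_Rw_full hle⟩ = jFib kA M := by
  apply Subtype.ext
  rw [coe_red_redDataFull]
  exact coe_red_jF M A

theorem red_jF_ne_zero (hle : FresBar M A ≤ modularFunctionFieldFullC kA M) :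
    (redDataFull M A hle).red ⟨jF M, jF_mem_Rw_full hle⟩ ≠ 0 := by
  rw [red_jF]
  intro h
  exact transcendental_jFib kA M (h ▸ isAlgebraic_zero)

/-- the two special-fibre fields agree under M-RES. -/
theorem fresBar_eq_full (hle : FresBar M A ≤ modularFunctionFieldFullC kA M) :
    FresBar M A = modularFunctionFieldFullC kA M :=
  le_antisymm hle (full_le_FresBar M A)

/-- **degree preservation at `j`**, Full frame. -/
theorem hdeg_jF_full (hle : FresBar M A ≤ modularFunctionFieldFullC kA M)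
    {ℓ : ℕ} [Fact ℓ.Prime] (hℓM : ¬ ℓ ∣ M) (hA : A.LiesOverPrime ℓ) :
    Module.finrank Kbar⟮jF M⟯ (FN M) ≤
      Module.finrank kA⟮jFib kA M⟯ (modularFunctionFieldFullC kA M) := by
  have h1 := Fermat.Agent.GJ.J1.K18Modular.hdeg_jF M A hℓM hA
  have h2 := finrank_adjoin_eq_of_eq (fresBar_eq_full hle)
    ((redDataBar M A).red ⟨jF M, jF_mem_Rw M A⟩) (jFib kA M) (coe_red_jF M A)
  rw [← h2]
  exact h1

section Inst

variable [FiniteResidues (AlgebraicClosure ℚ) (modularFunctionFieldBar M)]
  [HasPrincipalDivisors (AlgebraicClosure ℚ) (modularFunctionFieldBar M)]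
  [Nonempty (Place (AlgebraicClosure ℚ) (modularFunctionFieldBar M))]
  [FiniteResidues (IsLocalRing.ResidueField A)
    (modularFunctionFieldFullC (IsLocalRing.ResidueField A) M)]
  [HasPrincipalDivisors (IsLocalRing.ResidueField A)
    (modularFunctionFieldFullC (IsLocalRing.ResidueField A) M)]
  [Nonempty (Place (IsLocalRing.ResidueField A)
    (modularFunctionFieldFullC (IsLocalRing.ResidueField A) M))]
  [Infinite (IsLocalRing.ResidueField A)]

/-- **every pole of `j̃` is the reduction of a pole of `j`.** -/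
theorem exists_pole_jF_of_pole (hle : FresBar M A ≤ modularFunctionFieldFullC kA M)
    {g c : ℤ} (H : LSpaceHyp (redDataFull M A hle) g c)
    (Q : Place kA (modularFunctionFieldFullC kA M)) (hQ : Q.ord (jFib kA M) < 0) :
    ∃ P : Place Kbar (FN M), P.ord (jF M) < 0 ∧ rOf H P = Q := by
  have hy := red_jF_ne_zero (M := M) (A := A) hle
  have hQ' : Q.ord ((redDataFull M A hle).red ⟨jF M, jF_mem_Rw_full hle⟩) < 0 := by
    rw [red_jF]; exact hQ
  exact exists_rOf_eq_of_ord_neg H hy hQ'

/-- **the polar divisor of `j` specialises to the polar divisor of `j̃`.** -/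
theorem polar_jF (hle : FresBar M A ≤ modularFunctionFieldFullC kA M)
    {g c : ℤ} (H : LSpaceHyp (redDataFull M A hle) g c)
    {ℓ : ℕ} [Fact ℓ.Prime] (hℓM : ¬ ℓ ∣ M) (hA : A.LiesOverPrime ℓ)
    {Dy : Divisor Kbar (FN M)} (hDy : ∀ P : Place Kbar (FN M), Dy P = P.ord (jF M))
    {Dt : Divisor kA (modularFunctionFieldFullC kA M)}
    (hDt : ∀ Q : Place kA (modularFunctionFieldFullC kA M), Dt Q = Q.ord (jFib kA M)) :
    (-Dt) ⊔ 0 = Finsupp.mapDomain (rOf H) ((-Dy) ⊔ 0) := by
  have hy := red_jF_ne_zero (M := M) (A := A) hle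
  have hgenK : IsGen Kbar (jF M) := Fermat.Agent.S24_helper62.isGen_jF M
  have hgenk : IsGen kA (jFib kA M) := isGen_jFib M A (IsLocalRing.residue A)
  have hDt' : ∀ Q : Place kA (modularFunctionFieldFullC kA M),
      Dt Q = Q.ord ((redDataFull M A hle).red ⟨jF M, jF_mem_Rw_full hle⟩) := by
    intro Q; rw [red_jF]; exact hDt Q
  refine Fermat.Agent.GL.Thick.SpecDiv.polar_eq H hy (y := ⟨jF M, jF_mem_Rw_full hle⟩) hDy hDt' ?_
  rw [Fermat.Agent.GJ.S37PoleDeg.degree_neg_sup_zero_eq_finrank (jF M) (y := jF M)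
      hgenK.transcendental hDy,
    Fermat.Agent.GJ.S37PoleDeg.degree_neg_sup_zero_eq_finrank (jFib kA M) (y := jFib kA M)
      hgenk.transcendental hDt]
  exact_mod_cast hdeg_jF_full hle hℓM hA

/-- **a pole of `j` reduces to a pole of `j̃`.** -/
theorem rOf_pole_jF (hle : FresBar M A ≤ modularFunctionFieldFullC kA M)
    {g c : ℤ} (H : LSpaceHyp (redDataFull M A hle) g c)
    {ℓ : ℕ} [Fact ℓ.Prime] (hℓM : ¬ ℓ ∣ M) (hA : A.LiesOverPrime ℓ)
    (P : Place Kbar (FN M)) (hP : P.ord (jF M) < 0) :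
    (rOf H P).ord (jFib kA M) < 0 := by
  classical
  have hgenK : IsGen Kbar (jF M) := Fermat.Agent.S24_helper62.isGen_jF M
  have hgenk : IsGen kA (jFib kA M) := isGen_jFib M A (IsLocalRing.residue A)
  have hj0 : (jF M : FN M) ≠ 0 := fun h => hgenK.transcendental (h ▸ isAlgebraic_zero)
  have hjt0 : (jFib kA M) ≠ 0 := fun h => hgenk.transcendental (h ▸ isAlgebraic_zero)
  obtain ⟨Dy, hDy, -⟩ := HasPrincipalDivisors.exists_divisor (K := Kbar) (jF M : FN M) hj0
  obtain ⟨Dt, hDt, -⟩ := HasPrincipalDivisors.exists_divisor (K := kA) (jFib kA M) hjt0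
  have hpol := polar_jF hle H hℓM hA hDy hDt
  have h1 : ((-Dt) ⊔ 0) (rOf H P) = Finsupp.mapDomain (rOf H) ((-Dy) ⊔ 0) (rOf H P) := by
    rw [hpol]
  rw [Fermat.Agent.GL.Thick.SpecDiv.negPart_apply, hDt, mapDomain_apply_eq_sum] at h1
  have hmem : P ∈ ((-Dy) ⊔ 0).support.filter (fun P' => rOf H P' = rOf H P) := by
    rw [Finset.mem_filter, Finsupp.mem_support_iff,
      Fermat.Agent.GL.Thick.SpecDiv.negPart_apply, hDy]
    refine ⟨?_, rfl⟩
    rw [max_eq_left (by omega)]
    omega
  have hnn : ∀ P' ∈ ((-Dy) ⊔ 0).support.filter (fun P' => rOf H P' = rOf H P),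
      (0 : ℤ) ≤ ((-Dy) ⊔ 0) P' := by
    intro P' _
    rw [Fermat.Agent.GL.Thick.SpecDiv.negPart_apply]
    exact le_max_right _ _
  have h2 := Finset.single_le_sum hnn hmem
  rw [← h1, Fermat.Agent.GL.Thick.SpecDiv.negPart_apply, hDy] at h2
  rw [max_eq_left (by omega : (0:ℤ) ≤ -(P.ord (jF M)))] at h2
  by_contra hcon
  rw [max_eq_right (by omega)] at h2
  omega

end Inst

end Fermat.Agent.GF.Eis.CuspRed
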