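/-
GATE-F / GF-EIS leaf (E2) (helper42; split of helper77, board 6134): **the Hecke correspondence
maps cuspidal divisors to cuspidal divisors.**

Generic form: `φ ψ : F →ₐ[K] F'` integral, `t : F` with "every pole of `φ t` is a pole of `ψ t`";
then the correspondence `ψ_* φ^*` maps divisors supported in the poles of `t` to such divisors.
Instance: `φ = β : f(q) ↦ f(q^ℓ)`, `ψ = α` the inclusion `F_N ⊂ F_{Nℓ}`, `t = j`: `β j = j(q^ℓ)` is
integral over `ℚ̄[j]` (`GK/QS/IntRN.regFin_betaB`), so its poles are poles of `α j = j`.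
-/
import Mathlib
import Fermat.Prelude.Def_AlgebraicCurve_Correspondence
import Fermat.Prelude.Def_ModularCurve_HeckeOperator
import Fermat.Agent.GK.QS.IntRN
import Fermat.Agent.GJ.J1.PlaceLattice
import Fermat.Agent.RR.ModularBar

set_option autoImplicit false
set_option linter.unusedSectionVars false

noncomputable section

open AlgebraicCurve

namespace Fermat.Agent.GF.Eis.CuspSupp

section Tower

variable {K F F' : Type*} [Field K] [Field F] [Field F']
  [Algebra K F] [Algebra K F'] [Algebra F F'] [IsScalarTower K F F'] [Algebra.IsIntegral F F']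

/-- sign of `ord` under restriction of places. -/
theorem ord_algebraMap_neg_iff (w : Place K F') (t : F) :
    w.ord (algebraMap F F' t) < 0 ↔ (w.restrict F).ord t < 0 := by
  rw [w.ord_restrict (F := F) t]
  have hpos : (0 : ℤ) < (w.ramificationIndex F : ℤ) := by
    exact_mod_cast w.ramificationIndex_pos (F := F)
  constructor
  · intro h
    by_contra hge
    push Not at hge
    have := mul_nonneg hpos.le hge
    omega
  · intro h
    exact mul_neg_of_pos_of_neg hpos h

variable [HasPrincipalDivisors K F']

/-- the support of a pull-back lies over the support. -/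
theorem restrict_mem_support_of_mem_support_pullback {D : Divisor K F} {w : Place K F'}
    (hw : w ∈ (Divisor.pullback F' D).support) : w.restrict F ∈ D.support := by
  rw [Finsupp.mem_support_iff, Divisor.pullback_apply] at hw
  rw [Finsupp.mem_support_iff]
  exact right_ne_zero_of_mul hw

omit [HasPrincipalDivisors K F'] in
/-- the support of a push-forward lies under the support. -/
theorem exists_mem_support_of_mem_support_pushforward {E : Divisor K F'} {v : Place K F}
    (hv : v ∈ (Divisor.pushforward F E).support) : ∃ w ∈ E.support, w.restrict F = v := by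
  classical
  rw [Finsupp.mem_support_iff, Divisor.pushforward_apply] at hv
  obtain ⟨w, hwE, hw⟩ := Finset.exists_ne_zero_of_sum_ne_zero hv
  refine ⟨w, hwE, ?_⟩
  by_contra hne
  rw [if_neg hne] at hw
  exact hw rfl

end Tower

section Along

variable {K F F' : Type*} [Field K] [Field F] [Field F'] [Algebra K F] [Algebra K F']
  [HasPrincipalDivisors K F']
  (φ ψ : F →ₐ[K] F') (hφ : φ.toRingHom.IsIntegral) (hψ : ψ.toRingHom.IsIntegral)

/-- **generic (E2)**: if every pole of `φ t` is a pole of `ψ t`, the correspondence `ψ_* φ^*`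
preserves the divisors supported in the poles of `t`. -/
theorem correspondence_support_poles (t : F)
    (h : ∀ w : Place K F', w.ord (φ t) < 0 → w.ord (ψ t) < 0)
    {D : Divisor K F} (hD : ∀ P ∈ D.support, P.ord t < 0) :
    ∀ P ∈ (Divisor.correspondence φ ψ hφ hψ D).support, P.ord t < 0 := by
  intro P hP
  rw [Divisor.correspondence_apply] at hP
  -- step 1: the pull-back along `φ` is supported in the poles of `φ t`
  have h1 : ∀ w ∈ (Divisor.pullbackAlong φ hφ D).support, w.ord (φ t) < 0 := by
    intro w hw
    letI := algebraAlong φ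
    haveI := isScalarTower_along φ
    haveI := isIntegral_along φ hφ
    have hr := restrict_mem_support_of_mem_support_pullback (F' := F') hw
    exact (ord_algebraMap_neg_iff w t).mpr (hD _ hr)
  -- step 2: push forward along `ψ`
  letI := algebraAlong ψ
  haveI := isScalarTower_along ψ
  haveI := isIntegral_along ψ hψ
  obtain ⟨w, hwE, rfl⟩ := exists_mem_support_of_mem_support_pushforward (F := F) hP
  exact (ord_algebraMap_neg_iff w t).mp (h w (h1 w hwE))

end Along

section Modular

open ModularCurve Fermat.Agent.S24 Fermat.Agent.GJ.HN Fermat.Agent.GJ.J1 Fermat.Agent.GK.QS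

variable (N ℓ : ℕ) [NeZero N] [NeZero ℓ]

/-- every pole of `β j = j(q^ℓ)` on `X₀(Nℓ)` is a pole of `j`. -/
theorem ord_alphaB_jF_neg_of_ord_betaB_jF_neg (w : Place Kbar (FN (N * ℓ)))
    (hw : w.ord (betaB N ℓ (jF N)) < 0) : w.ord (alphaB N ℓ (jF N)) < 0 := by
  have : IsGen Kbar (jF (N * ℓ)) := Fermat.Agent.RR.ModularBar.isGen_jF (N * ℓ)
  have hreg : RegFin Kbar (jF (N * ℓ)) (betaB N ℓ (jF N)) := regFin_betaB N ℓ (regFin_self _)
  have h := (Fermat.Agent.GJ.J1.PlaceLattice.regFin_iff_ord (jF (N * ℓ)) (jF (N * ℓ)) (betaB N ℓ (jF N))).mp hreg w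
  rw [alphaB_jF]
  by_contra hge
  push Not at hge
  have := h hge
  omega

/-- **(E2)**: the Hecke correspondence `T_ℓ` maps divisors supported at the cusps (poles of `j`)
to divisors supported at the cusps. -/
theorem heckeDivBar_cuspidal (ha : HeckeAlphaBarIntegral Kbar N ℓ)
    (hb : HeckeBetaBarIntegral Kbar N ℓ) [HasPrincipalDivisors Kbar (FN (N * ℓ))]
    {D : Divisor Kbar (FN N)} (hD : ∀ P ∈ D.support, P.ord (jF N) < 0) :
    ∀ P ∈ (heckeDivBar ha hb D).support, P.ord (jF N) < 0 :=
  correspondence_support_poles (heckeBetaBar Kbar N ℓ) (heckeAlphaBar Kbar N ℓ) hb ha (jF N)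
    (ord_alphaB_jF_neg_of_ord_betaB_jF_neg N ℓ) hD

end Modular

end Fermat.Agent.GF.Eis.CuspSupp
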