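/-
GATE-F (S40) / node GF-EIS, file 2 (helper77): **the abstract divisor lemma behind (L1)**.

`r : α → β` a surjection (place reduction), `T` an additive endomorphism of `α →₀ ℤ` (the Hecke
correspondence on divisors), `S ⊆ α` (the cusps upstairs), `Cu ⊆ β` (the cusps downstairs) with

* (i)   `r_* D = 0 → r_* (T D) = 0`                         (`T` preserves `ker r_*`),
* (ii)  `supp D ⊆ S → supp (T D) ⊆ S`                       (`T` preserves cuspidal divisors),
* (iii) `r S ⊆ Cu` and `Cu ⊆ r S`                            (cusps reduce exactly onto cusps).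

Then `T` preserves "`r_* D` is divisible by `p` off `Cu`".  Mathlib only.
-/
import Mathlib

set_option autoImplicit false

namespace Fermat.Agent.GF.Eis.Abstract

open Finsupp

variable {α β : Type*}

/-- a finitely supported function supported in `S`, pushed forward, vanishes off `r S` -/
theorem mapDomain_apply_eq_zero_of_forall (r : α → β) {X : α →₀ ℤ} {b : β}
    (h : ∀ a ∈ X.support, r a ≠ b) : Finsupp.mapDomain r X b = 0 := by
  classical
  by_contra hne
  have hb : b ∈ (Finsupp.mapDomain r X).support := Finsupp.mem_support_iff.mpr hne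
  obtain ⟨a, ha, hab⟩ := Finset.mem_image.mp (Finsupp.mapDomain_support hb)
  exact h a ha hab

/-- the support of a push-forward along `s` lies in `s (supp)` -/
theorem mem_of_mem_support_mapDomain (s : β → α) {E : β →₀ ℤ} {a : α}
    (ha : a ∈ (Finsupp.mapDomain s E).support) : ∃ b ∈ E.support, s b = a := by
  classical
  obtain ⟨b, hb, hba⟩ := Finset.mem_image.mp (Finsupp.mapDomain_support ha)
  exact ⟨b, hb, hba⟩

open Classical in
/-- **the abstract (L1)** -/
theorem dvd_mapDomain_of_ker_stable (r : α → β) (hr : Function.Surjective r)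
    (T : (α →₀ ℤ) →+ (α →₀ ℤ)) (S : Set α) (Cu : Set β) (p : ℤ)
    (hker : ∀ D : α →₀ ℤ, Finsupp.mapDomain r D = 0 → Finsupp.mapDomain r (T D) = 0)
    (hS : ∀ D : α →₀ ℤ, (∀ a ∈ D.support, a ∈ S) → ∀ a ∈ (T D).support, a ∈ S)
    (hSC : ∀ a ∈ S, r a ∈ Cu) (hCS : ∀ b ∈ Cu, ∃ a ∈ S, r a = b)
    (D : α →₀ ℤ) (hD : ∀ b, b ∉ Cu → p ∣ Finsupp.mapDomain r D b) :
    ∀ b, b ∉ Cu → p ∣ Finsupp.mapDomain r (T D) b := by
  -- a section of `r` sending `Cu` into `S`
  have hsec : ∀ b : β, ∃ a : α, r a = b ∧ (b ∈ Cu → a ∈ S) := by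
    intro b
    by_cases hb : b ∈ Cu
    · obtain ⟨a, haS, hab⟩ := hCS b hb
      exact ⟨a, hab, fun _ => haS⟩
    · obtain ⟨a, hab⟩ := hr b
      exact ⟨a, hab, fun h => absurd h hb⟩
  choose s hs hsS using hsec
  have hrs : r ∘ s = id := funext hs
  set E₀ : β →₀ ℤ := Finsupp.mapDomain r D with hE₀
  -- the cuspidal part and the `p`-divisible part of `r_* D`
  set Ecu : β →₀ ℤ := E₀.filter (fun b => b ∈ Cu) with hEcu
  set E' : β →₀ ℤ := (E₀.filter (fun b => b ∉ Cu)).mapRange (fun n => n / p) (by simp) with hE'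
  have hsplit : E₀ = Ecu + p • E' := by
    ext b
    rw [Finsupp.add_apply, Finsupp.smul_apply, hEcu, hE', Finsupp.mapRange_apply,
      Finsupp.filter_apply, Finsupp.filter_apply, smul_eq_mul]
    by_cases hb : b ∈ Cu
    · rw [if_pos hb, if_neg (not_not.mpr hb)]
      simp
    · rw [if_neg hb, if_pos hb, zero_add]
      exact (Int.mul_ediv_cancel' (hD b hb)).symm
  set D' : α →₀ ℤ := Finsupp.mapDomain s Ecu + p • Finsupp.mapDomain s E' with hD'
  have hrD' : Finsupp.mapDomain r D' = E₀ := by
    rw [hD', Finsupp.mapDomain_add, Finsupp.mapDomain_smul, ← Finsupp.mapDomain_comp,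
      ← Finsupp.mapDomain_comp, hrs, Finsupp.mapDomain_id, Finsupp.mapDomain_id, ← hsplit]
  have hdiff : Finsupp.mapDomain r (D - D') = 0 := by
    rw [sub_eq_add_neg, Finsupp.mapDomain_add, ← Finsupp.mapDomain.addMonoidHom_apply r (-D'),
      map_neg, Finsupp.mapDomain.addMonoidHom_apply, hrD', ← hE₀, add_neg_cancel]
  have hT := hker _ hdiff
  have hTD : Finsupp.mapDomain r (T D) = Finsupp.mapDomain r (T (Finsupp.mapDomain s Ecu)) +
      p • Finsupp.mapDomain r (T (Finsupp.mapDomain s E')) := by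
    have h1 : T D = T (D - D') + T D' := by rw [← map_add, sub_add_cancel]
    rw [h1, Finsupp.mapDomain_add, hT, zero_add, hD', map_add, map_zsmul, Finsupp.mapDomain_add,
      Finsupp.mapDomain_smul]
  intro b hb
  rw [hTD, Finsupp.add_apply, Finsupp.smul_apply, smul_eq_mul]
  have hcusp : Finsupp.mapDomain r (T (Finsupp.mapDomain s Ecu)) b = 0 := by
    apply mapDomain_apply_eq_zero_of_forall
    intro a ha hab
    apply hb
    rw [← hab]
    apply hSC
    refine hS _ ?_ a ha
    intro a' ha'
    obtain ⟨b', hb', rfl⟩ := mem_of_mem_support_mapDomain s ha'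
    apply hsS
    have := Finsupp.mem_support_iff.mp hb'
    rw [hEcu, Finsupp.filter_apply] at this
    by_contra hn
    rw [if_neg hn] at this
    exact this rfl
  rw [hcusp, zero_add]
  exact Dvd.intro _ rfl

end Fermat.Agent.GF.Eis.Abstract
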