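/-
GATE-F (S40/S44) / node GF-EIS, file 3 (helper77): **(L1) on an abstract good-reduction frame.**

`R : RedData K F k Ft`, `H : LSpaceHyp R g c` (the L-space frame of `GJ/S37/LSpaceRed.lean`),
`r := rOf H` the place reduction map.  `T` an additive endomorphism of `Div(F)` (the Hecke
correspondence) with a companion on functions (`div (Ty) = T (div y)`), `S` the cusps of `F`, `Cu`
the cusps of `Ft`.  If

* (i)   `T` preserves `ker r_*`,
* (ii)  `T` preserves the divisors supported in `S`,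
* (iii) `r S ⊆ Cu` and `Cu ⊆ r S`,

then for Gauss units `y`, `Ty` with `div (Ty) = T (div y)`:
`p ∣ ord_Q (red y)` for all `Q ∉ Cu`  ⟹  `p ∣ ord_Q (red (Ty))` for all `Q ∉ Cu`.
-/
import Mathlib
import Fermat.Agent.GF.Eis.Abstract
import Fermat.Agent.GJ.S37.ROfSurj

set_option autoImplicit false

noncomputable section

open AlgebraicCurve

namespace Fermat.Agent.GF.Eis.FrameL1

open Fermat.Agent.RRh45 Fermat.Agent.GJ.S37MinDiv Fermat.Agent.GJ.J1 Fermat.Agent.GJ.S37LSpace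
open Fermat.Agent.GJ.S37ROfSurj

variable {K F k Ft : Type*} [Field K] [Field F] [Algebra K F] [Field k] [Field Ft] [Algebra k Ft]
variable {R : RedData K F k Ft} {g c : ℤ}
variable [FiniteResidues K F] [HasPrincipalDivisors K F] [Nonempty (Place K F)]
variable [FiniteResidues k Ft] [HasPrincipalDivisors k Ft] [Nonempty (Place k Ft)]
variable [Infinite k]

/-- **(L1), frame form.** -/
theorem dvd_ord_red_of_frame (H : LSpaceHyp R g c)
    (T : Divisor K F →+ Divisor K F) (S : Set (Place K F)) (Cu : Set (Place k Ft)) (p : ℤ)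
    (hker : ∀ D : Divisor K F, Finsupp.mapDomain (rOf H) D = 0 →
      Finsupp.mapDomain (rOf H) (T D) = 0)
    (hS : ∀ D : Divisor K F, (∀ P ∈ D.support, P ∈ S) → ∀ P ∈ (T D).support, P ∈ S)
    (hSC : ∀ P ∈ S, rOf H P ∈ Cu) (hCS : ∀ Q ∈ Cu, ∃ P ∈ S, rOf H P = Q)
    {y Ty : R.Rw} (hy : R.red y ≠ 0) (hTy : R.red Ty ≠ 0)
    (hTdiv : ∀ D : Divisor K F, (∀ P, D P = P.ord (y : F)) → ∀ P, T D P = P.ord (Ty : F))
    (hdiv : ∀ Q : Place k Ft, Q ∉ Cu → p ∣ Q.ord (R.red y)) :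
    ∀ Q : Place k Ft, Q ∉ Cu → p ∣ Q.ord (R.red Ty) := by
  have hy0 : (y : F) ≠ 0 := fun h => hy (by rw [show y = 0 from Subtype.ext h, map_zero])
  obtain ⟨Dy, hDy, -⟩ := HasPrincipalDivisors.exists_divisor (K := K) (y : F) hy0
  have hDT := hTdiv Dy hDy
  have h1 : ∀ Q, Q ∉ Cu → p ∣ Finsupp.mapDomain (rOf H) Dy Q := by
    intro Q hQ
    rw [mapDomain_rOf_principal H hy hDy Q]
    exact hdiv Q hQ
  intro Q hQ
  have h2 := Fermat.Agent.GF.Eis.Abstract.dvd_mapDomain_of_ker_stable (rOf H) (rOf_surjective H)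
    T S Cu p hker hS hSC hCS Dy h1 Q hQ
  rwa [mapDomain_rOf_principal H hTy hDT Q] at h2

end Fermat.Agent.GF.Eis.FrameL1
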