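/-
GATE-F (S40/S44) / node GF-EIS, file 4 (helper77): **(L1) at a good level, Full frame.**

Level `N`, `A` a valuation subring of `ℚ̄`, good-reduction frame `hle`,
`H : LSpaceHyp (redDataFull N A hle) g c` (`GJ/S37/Bridge.lean`), `ℓ ∤ N` prime (the residue
characteristic allowed), `T = heckeDivBar` on `Div(X₀(N))`, `heckeNormF` on functions.

`dvd_ord_red_heckeNormF_full` : for a Gauss unit `y` of `F_N` and `Ty = heckeNormF N ℓ y`:
`p ∣ ord_Q (red y)` at every non-cuspidal place `Q` of the special fibre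
⟹ `p ∣ ord_Q (red Ty)` at every non-cuspidal place, and `red Ty = heckeNorm ℓ (red y)` as series.

Inputs: helper42 `GZ/HRed/Main.mapDomain_heckeDivBar_eq_zero` ((i): `T` preserves `ker r_*`),
`GJ/HN/Div.heckeDivBar_eq_ord_heckeNormF`, helper17 `GF/D3/RedHecke.redL_heckeNorm`, and the
binders (E2) [`T` preserves cuspidal divisors, helper42 `GF/Eis/CuspSupp`] and (E3) [cusps reduce
exactly onto cusps, helper17 `GF/Eis/CuspRed`].
-/
import Mathlib
import Fermat.Agent.GF.Eis.FrameL1
import Fermat.Agent.GZ.HRed.Main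
import Fermat.Agent.GF.D3.RedHecke

set_option autoImplicit false
set_option linter.style.haveILetI false
set_option linter.unusedSectionVars false
set_option synthInstance.maxHeartbeats 400000
set_option maxHeartbeats 1000000

noncomputable section

namespace Fermat.Agent.GF.Eis.GoodLevel

open AlgebraicCurve ModularCurve HahnSeries Fermat.Agent.S24 Fermat.Agent.GJ.HN
open Fermat.Agent.GJ Fermat.Agent.GJ.J1 Fermat.Agent.GJ.J1.Val Fermat.Agent.GJ.S37LSpace
  Fermat.Agent.GJ.S37Bridge Fermat.Agent.RRh45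

variable {N : ℕ} [NeZero N] {A : ValuationSubring (AlgebraicClosure ℚ)} (ℓ : ℕ)
  [hℓ : Fact ℓ.Prime]

section Inst

variable [FiniteResidues (AlgebraicClosure ℚ) (modularFunctionFieldBar N)]
  [HasPrincipalDivisors (AlgebraicClosure ℚ) (modularFunctionFieldBar N)]
  [Nonempty (Place (AlgebraicClosure ℚ) (modularFunctionFieldBar N))]
  [FiniteResidues (IsLocalRing.ResidueField A)
    (modularFunctionFieldFullC (IsLocalRing.ResidueField A) N)]
  [HasPrincipalDivisors (IsLocalRing.ResidueField A)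
    (modularFunctionFieldFullC (IsLocalRing.ResidueField A) N)]
  [Nonempty (Place (IsLocalRing.ResidueField A)
    (modularFunctionFieldFullC (IsLocalRing.ResidueField A) N))]
  [Infinite (IsLocalRing.ResidueField A)]

/-- the Hecke norm preserves the integral series of the function field (`emb` spelling) -/
theorem heckeNorm_emb_mem (hℓN : ¬ ℓ ∣ N) (a : LaurentSeries A)
    (ha : emb A a ∈ modularFunctionFieldBar N) :
    Kum.heckeNorm ℓ (emb A a) ∈ modularFunctionFieldBar N := by
  have h := Fermat.Agent.GZ.HRed.coeffMap_heckeNorm_mem A N ℓ hℓN a ha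
  rwa [Kum.coeffMap_heckeNorm] at h

/-- **reduction commutes with the Hecke norm, Full frame.** -/
theorem coe_red_full_heckeNormF
    (hle : FresBar N A ≤ modularFunctionFieldFullC (IsLocalRing.ResidueField A) N)
    (hℓN : ¬ ℓ ∣ N) {y Ty : (redDataFull N A hle).Rw}
    (hTy : (Ty : FN N) = heckeNormF N ℓ (y : FN N)) :
    (((redDataFull N A hle).red Ty :
        modularFunctionFieldFullC (IsLocalRing.ResidueField A) N) :
      LaurentSeries (IsLocalRing.ResidueField A)) =
      Kum.heckeNorm ℓ (((redDataFull N A hle).red y :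
        modularFunctionFieldFullC (IsLocalRing.ResidueField A) N) :
      LaurentSeries (IsLocalRing.ResidueField A)) := by
  rw [coe_red_redDataFull, coe_red_redDataFull]
  have hT : (((Ty : FN N)) : LaurentSeries Kbar) =
      Kum.heckeNorm ℓ (((y : FN N)) : LaurentSeries Kbar) := by
    rw [hTy, coe_heckeNormF N ℓ hℓN]
  exact Fermat.Agent.GF.D3.redL_heckeNorm (hGF := hasGaussFrac_bar N A) ℓ
    (heckeNorm_emb_mem ℓ hℓN) y.2 hT Ty.2

/-- **(L1), Full frame, function form.** -/
theorem dvd_ord_red_heckeNormF_full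
    (hle : FresBar N A ≤ modularFunctionFieldFullC (IsLocalRing.ResidueField A) N)
    {g c : ℤ} (H : LSpaceHyp (redDataFull N A hle) g c) (hℓN : ¬ ℓ ∣ N)
    (hα : HeckeAlphaBarIntegral Kbar N ℓ) (hβ : HeckeBetaBarIntegral Kbar N ℓ)
    [HasPrincipalDivisors Kbar (FN (N * ℓ))]
    (hfin : FiniteAlong Kbar (heckeAlphaBar Kbar N ℓ))
    (hNF : NormFormulaAlong Kbar (heckeAlphaBar Kbar N ℓ) hfin)
    (hFI : FundamentalIdentityAlong Kbar (heckeBetaBar Kbar N ℓ) hβ)
    (hE2 : ∀ D : Divisor Kbar (FN N), (∀ P ∈ D.support, P.ord (jF N) < 0) →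
      ∀ P ∈ (heckeDivBar hα hβ D).support, P.ord (jF N) < 0)
    (jt : modularFunctionFieldFullC (IsLocalRing.ResidueField A) N)
    (hE3a : ∀ P : Place Kbar (FN N), P.ord (jF N) < 0 → (rOf H P).ord jt < 0)
    (hE3b : ∀ Q : Place (IsLocalRing.ResidueField A)
      (modularFunctionFieldFullC (IsLocalRing.ResidueField A) N), Q.ord jt < 0 →
      ∃ P : Place Kbar (FN N), P.ord (jF N) < 0 ∧ rOf H P = Q)
    (p : ℤ) {y Ty : (redDataFull N A hle).Rw} (hy : (redDataFull N A hle).red y ≠ 0)
    (hTy : (Ty : FN N) = heckeNormF N ℓ (y : FN N))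
    (hdiv : ∀ Q : Place (IsLocalRing.ResidueField A)
      (modularFunctionFieldFullC (IsLocalRing.ResidueField A) N), 0 ≤ Q.ord jt →
      p ∣ Q.ord ((redDataFull N A hle).red y)) :
    ∀ Q : Place (IsLocalRing.ResidueField A)
      (modularFunctionFieldFullC (IsLocalRing.ResidueField A) N), 0 ≤ Q.ord jt →
      p ∣ Q.ord ((redDataFull N A hle).red Ty) := by
  have hy0 : (y : FN N) ≠ 0 := fun h => hy (by rw [show y = 0 from Subtype.ext h, map_zero])
  have hredT : (redDataFull N A hle).red Ty ≠ 0 := by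
    intro h0
    have h1 := coe_red_full_heckeNormF ℓ hle hℓN hTy
    rw [h0, ZeroMemClass.coe_zero] at h1
    exact Fermat.Agent.GF.D3.heckeNorm_ne_zero_field ℓ (fun h => hy (Subtype.ext h)) h1.symm
  have key := Fermat.Agent.GF.Eis.FrameL1.dvd_ord_red_of_frame H (heckeDivBar hα hβ)
    {P | P.ord (jF N) < 0} {Q | Q.ord jt < 0} p
    (fun D hD => Fermat.Agent.GZ.HRed.mapDomain_heckeDivBar_eq_zero ℓ hle H hℓN hα hβ hfin hNF
      hFI hD)
    (fun D hD P hP => hE2 D hD P hP)
    (fun P hP => hE3a P hP)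
    (fun Q hQ => by
      obtain ⟨P, hP, hPQ⟩ := hE3b Q hQ
      exact ⟨P, hP, hPQ⟩)
    hy hredT
    (fun D hD P => by
      rw [heckeDivBar_eq_ord_heckeNormF N ℓ hα hβ hfin hNF (y : FN N) hy0 D hD P, hTy])
    (fun Q hQ => hdiv Q (not_lt.mp hQ))
  intro Q hQ
  exact key Q (not_lt.mpr hQ)

end Inst

end Fermat.Agent.GF.Eis.GoodLevel
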