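/-
GATE-F (S40/S44) / node GF-EIS, file 7 (helper77): **(L1) with no binder left.**

* `dvd_ord_heckeNorm_fullC` : good level `M`, `p ∤ M`, `A | p`, `ℓ ∤ M` prime.  For `f, Tf` in the
  special-fibre field `k(X₀(M))` with `↑Tf = heckeNorm ℓ ↑f`: `n ∣ ord_Q f` at every
  non-cuspidal place ⟹ `n ∣ ord_Q Tf` at every non-cuspidal place.
  (= `GoodLevel.dvd_ord_red_heckeNormF_full` + helper42 `CuspSupp.heckeDivBar_cuspidal` (E2) +
  helper17 `CuspRed.rOf_pole_jF`, `exists_pole_jF_of_pole` (E3) + the L-space gate.)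
* `dvd_ord_heckeNorm_of_eq` : the same on ANY intermediate field `E = k(X₀(M))` of `k((q))`.
* `hL1_mul` : the binder `hL1` of `GF/Eis/Main.lean` at the bad level `N = M p`
  (`FresBar (M p) A = FresBar M A = k(X₀(M))`, `τ = red₁ j`).
-/
import Mathlib
import Fermat.Agent.GF.Eis.GoodLevel
import Fermat.Agent.GF.Eis.CuspSupp
import Fermat.Agent.GF.Eis.CuspRed
import Fermat.Agent.GJ.S37.LSpaceGateProof
import Fermat.Agent.GJ.S37.BarToFull
import Fermat.Agent.GJ.HInputs.Modular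
import Fermat.Agent.GL.Thick.KRedB
import Fermat.Agent.GK.CuspSep.Witness

set_option autoImplicit false
set_option linter.style.haveILetI false
set_option linter.unusedSectionVars false
set_option synthInstance.maxHeartbeats 400000
set_option maxHeartbeats 1000000

noncomputable section

namespace Fermat.Agent.GF.Eis.BadLevel

open AlgebraicCurve ModularCurve HahnSeries Fermat.Agent.S24 Fermat.Agent.GJ.HN
open Fermat.Agent.GJ Fermat.Agent.GJ.J1 Fermat.Agent.GJ.J1.Val Fermat.Agent.GJ.S37LSpace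
  Fermat.Agent.GJ.S37Bridge Fermat.Agent.RRh45
open Fermat.Agent.GJ.FibreCurve Fermat.Agent.GJ.FF.Fibre Fermat.Agent.GJ.ResidueAlgClosed

variable {M : ℕ} [NeZero M] {A : ValuationSubring Kbar}

local notation "kA" => IsLocalRing.ResidueField A

/-- **(L1) at a good level, special-fibre field of the prelude.** -/
theorem dvd_ord_heckeNorm_fullC {p : ℕ} (hp : p.Prime) (hpM : ¬ p ∣ M) (h2 : p = 2 → 3 ∣ M)
    (h3 : p = 3 → 2 ∣ M) (hA : A.LiesOverPrime p) {ℓ : ℕ} [NeZero ℓ] (hℓ : ℓ.Prime)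
    (hℓM : ¬ ℓ ∣ M) (n : ℤ) (f Tf : modularFunctionFieldFullC kA M) (hf : f ≠ 0)
    (hT : (Tf : LaurentSeries kA) = Kum.heckeNorm ℓ (f : LaurentSeries kA))
    (hdiv : ∀ Q : Place kA (modularFunctionFieldFullC kA M), 0 ≤ Q.ord (jFib kA M) →
      n ∣ Q.ord f) :
    ∀ Q : Place kA (modularFunctionFieldFullC kA M), 0 ≤ Q.ord (jFib kA M) → n ∣ Q.ord Tf := by
  haveI : Fact p.Prime := ⟨hp⟩
  haveI hℓF : Fact ℓ.Prime := ⟨hℓ⟩
  have hle := Fermat.Agent.GJ.J1.Res.FresBar_le_fullC M A hpM hA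
  obtain ⟨g, c, H0⟩ := Fermat.Agent.GJ.S37LSpaceGate.lSpaceGate M hp hpM h2 h3 A hA
  have H := Fermat.Agent.GJ.S37BarToFull.exists_lSpaceHyp_full hpM hA H0
  haveI : IsGen Kbar (jF M) := S24_helper62.isGen_jF M
  haveI h1 : FiniteResidues Kbar (FN M) := Fermat.Agent.GJ.FF.finiteResidues (K := Kbar) (jF M)
  haveI h2' := finiteResidues_fibre (k := kA) M A (IsLocalRing.residue A)
  haveI h3' := hasPrincipalDivisors_fibre' (k := kA) M A (IsLocalRing.residue A)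
  haveI h4 := nonempty_place_fibre' (k := kA) M A (IsLocalRing.residue A)
  haveI h5 := infinite_residueField (A := A)
  obtain ⟨hα, hβ, hP, hfin, hFI, hNF⟩ := Fermat.Agent.GJ.HInputs.heckeInputsAlong_bar M ℓ
  haveI := hP
  obtain ⟨y, hy⟩ := (redDataFull M A hle).red_surjective f
  have hyne : (redDataFull M A hle).red y ≠ 0 := by rw [hy]; exact hf
  have hTyMem : heckeNormF M ℓ (y : FN M) ∈ (redDataFull M A hle).Rw :=
    Fermat.Agent.GF.D3.heckeNorm_mem_Rw' (hGF := hasGaussFrac_bar M A) ℓ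
      (Fermat.Agent.GF.Eis.GoodLevel.heckeNorm_emb_mem ℓ hℓM) y.2
      (coe_heckeNormF M ℓ hℓM (y : FN M))
  have hredT : (redDataFull M A hle).red ⟨heckeNormF M ℓ (y : FN M), hTyMem⟩ = Tf := by
    apply Subtype.ext
    rw [Fermat.Agent.GF.Eis.GoodLevel.coe_red_full_heckeNormF ℓ hle hℓM (y := y)
      (Ty := ⟨heckeNormF M ℓ (y : FN M), hTyMem⟩) rfl, hy, hT]
  have key := Fermat.Agent.GF.Eis.GoodLevel.dvd_ord_red_heckeNormF_full ℓ hle H hℓM hα hβ hfin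
    hNF hFI (fun D hD => Fermat.Agent.GF.Eis.CuspSupp.heckeDivBar_cuspidal M ℓ hα hβ hD)
    (jFib kA M) (fun P hP' => Fermat.Agent.GF.Eis.CuspRed.rOf_pole_jF hle H hpM hA P hP')
    (fun Q hQ => Fermat.Agent.GF.Eis.CuspRed.exists_pole_jF_of_pole hle H Q hQ)
    n (y := y) (Ty := ⟨heckeNormF M ℓ (y : FN M), hTyMem⟩) hyne rfl
    (fun Q hQ => by rw [hy]; exact hdiv Q hQ)
  intro Q hQ
  have := key Q hQ
  rwa [hredT] at this

/-- **(L1) on any intermediate field equal to the special-fibre field.** -/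
theorem dvd_ord_heckeNorm_of_eq {p : ℕ} (hp : p.Prime) (hpM : ¬ p ∣ M) (h2 : p = 2 → 3 ∣ M)
    (h3 : p = 3 → 2 ∣ M) (hA : A.LiesOverPrime p) {ℓ : ℕ} [NeZero ℓ] (hℓ : ℓ.Prime)
    (hℓM : ¬ ℓ ∣ M) (n : ℤ)
    (E : IntermediateField kA (LaurentSeries kA)) (hE : E = modularFunctionFieldFullC kA M)
    (jE : E) (hj : (jE : LaurentSeries kA) = jqModC kA)
    (f Tf : E) (hf : f ≠ 0)
    (hT : (Tf : LaurentSeries kA) = Kum.heckeNorm ℓ (f : LaurentSeries kA))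
    (hdiv : ∀ Q : Place kA E, 0 ≤ Q.ord jE → n ∣ Q.ord f) :
    ∀ Q : Place kA E, 0 ≤ Q.ord jE → n ∣ Q.ord Tf := by
  subst hE
  obtain rfl : jE = jFib kA M := Subtype.ext hj
  exact dvd_ord_heckeNorm_fullC hp hpM h2 h3 hA hℓ hℓM n f Tf hf hT hdiv

/-- **the binder `hL1` of `GF/Eis/Main.lean` at the level `N = M p`.** -/
theorem hL1_mul {p : ℕ} [Fact p.Prime] [NeZero p] (hpM : ¬ p ∣ M) (h2 : p = 2 → 3 ∣ M)
    (h3 : p = 3 → 2 ∣ M) (hA : A.LiesOverPrime p) {ℓ : ℕ} [NeZero ℓ] (hℓ : ℓ.Prime)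
    (hℓM : ¬ ℓ ∣ M) (n : ℤ) (f Tf : FresBar (M * p) A) (hf : f ≠ 0)
    (hT : (Tf : LaurentSeries kA) = Kum.heckeNorm ℓ (f : LaurentSeries kA))
    (hdiv : ∀ Q : Place kA (FresBar (M * p) A),
      0 ≤ Q.ord (Fermat.Agent.GK.CuspSep.tauF (M * p) A) → n ∣ Q.ord f) :
    ∀ Q : Place kA (FresBar (M * p) A),
      0 ≤ Q.ord (Fermat.Agent.GK.CuspSep.tauF (M * p) A) → n ∣ Q.ord Tf :=
  dvd_ord_heckeNorm_of_eq (Fact.out : p.Prime) hpM h2 h3 hA hℓ hℓM n (FresBar (M * p) A)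
    ((Fermat.Agent.GL.Thick.fresBar_mul_eq M p A hpM hA).trans
      (Fermat.Agent.GJ.J1.Res.FresBar_eq_fullC M A hpM hA))
    (Fermat.Agent.GK.CuspSep.tauF (M * p) A) (Fermat.Agent.GK.CuspSep.coe_tauF (M * p) A)
    f Tf hf hT hdiv

end Fermat.Agent.GF.Eis.BadLevel
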