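/-
GATE-F (S40/S44) / node GF-EIS, file 5 (helper77): **the Eisenstein congruence on a field of Laurent
series**, from (L1) + (L2).

`E` an intermediate field of `k((q))` (the function field of a component of the special fibre),
`Cu` a set of places (the cusps), `ℓ` a prime.  Binder (L1): the Hecke norm (as a relation
`↑Tf = heckeNorm ℓ ↑f` on `E`) preserves "`p ∣ ord_Q` for all `Q ∉ Cu`".  If `G ∈ E` satisfies
`heckeNorm ℓ G = G ^ (ℓ + 1)` (L2) and `f ∈ E` is `p`-divisible off `Cu` up to `G ^ n`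
(`p ∣ ord_Q f - n ord_Q G`), then so is `Tf` up to `G ^ (n (ℓ + 1))`.
-/
import Mathlib
import Fermat.Agent.GF.D3.RedHecke

set_option autoImplicit false
set_option linter.unusedSectionVars false

noncomputable section

open AlgebraicCurve HahnSeries

namespace Fermat.Agent.GF.Eis.EisSeries

open Fermat.Agent.GJ.Kum

variable {k : Type*} [Field k] {E : IntermediateField k (LaurentSeries k)}

/-- `ord (a / b ^ n) = ord a - n ord b` -/
theorem ord_div_pow (Q : Place k E) {a b : E} (ha : a ≠ 0) (hb : b ≠ 0) (n : ℕ) :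
    Q.ord (a / b ^ n) = Q.ord a - n * Q.ord b := by
  rw [div_eq_mul_inv, Q.ord_mul ha (inv_ne_zero (pow_ne_zero n hb)), Q.ord_inv, ← zpow_natCast,
    Q.ord_zpow]
  ring

variable (ℓ : ℕ) [NeZero ℓ]

/-- the Hecke norm of `f / G ^ n` when `heckeNorm G = G ^ (ℓ + 1)` -/
theorem coe_div_pow_heckeNorm {f Tf G : E} (hG : G ≠ 0)
    (hT : (Tf : LaurentSeries k) = heckeNorm ℓ (f : LaurentSeries k))
    (hGT : heckeNorm ℓ (G : LaurentSeries k) = (G : LaurentSeries k) ^ (ℓ + 1)) (n : ℕ) :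
    ((Tf / (G ^ (ℓ + 1)) ^ n : E) : LaurentSeries k) =
      heckeNorm ℓ ((f / G ^ n : E) : LaurentSeries k) := by
  have hG' : (G : LaurentSeries k) ≠ 0 := fun h => hG (Subtype.ext h)
  rw [IntermediateField.coe_div, IntermediateField.coe_div, IntermediateField.coe_pow,
    IntermediateField.coe_pow, IntermediateField.coe_pow,
    Fermat.Agent.GF.D3.heckeNorm_div ℓ (pow_ne_zero n hG'), heckeNorm_pow, hGT, hT]

/-- **the Eisenstein congruence, series form.** -/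
theorem dvd_ord_sub (p : ℕ) (Cu : Set (Place k E))
    (hL1 : ∀ f Tf : E, f ≠ 0 →
      (Tf : LaurentSeries k) = heckeNorm ℓ (f : LaurentSeries k) →
      (∀ Q : Place k E, Q ∉ Cu → (p : ℤ) ∣ Q.ord f) →
      ∀ Q : Place k E, Q ∉ Cu → (p : ℤ) ∣ Q.ord Tf)
    {f Tf G : E} (hf : f ≠ 0) (hG : G ≠ 0)
    (hT : (Tf : LaurentSeries k) = heckeNorm ℓ (f : LaurentSeries k))
    (hGT : heckeNorm ℓ (G : LaurentSeries k) = (G : LaurentSeries k) ^ (ℓ + 1)) (n : ℕ)
    (hdiv : ∀ Q : Place k E, Q ∉ Cu → (p : ℤ) ∣ Q.ord f - n * Q.ord G) :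
    ∀ Q : Place k E, Q ∉ Cu → (p : ℤ) ∣ Q.ord Tf - n * (((ℓ + 1 : ℕ) : ℤ) * Q.ord G) := by
  have hf1 : f / G ^ n ≠ 0 := div_ne_zero hf (pow_ne_zero n hG)
  have hTf : Tf ≠ 0 := by
    intro h0
    rw [h0, ZeroMemClass.coe_zero] at hT
    exact Fermat.Agent.GF.D3.heckeNorm_ne_zero_field ℓ (fun h => hf (Subtype.ext h)) hT.symm
  have key := hL1 (f / G ^ n) (Tf / (G ^ (ℓ + 1)) ^ n) hf1
    (coe_div_pow_heckeNorm ℓ hG hT hGT n)
    (fun Q hQ => by rw [ord_div_pow Q hf hG n]; exact hdiv Q hQ)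
  intro Q hQ
  have h1 := key Q hQ
  rw [ord_div_pow Q hTf (pow_ne_zero _ hG) n, ← zpow_natCast G (ℓ + 1), Q.ord_zpow] at h1
  exact h1

end Fermat.Agent.GF.Eis.EisSeries
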