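/-
GATE-F / S40, node GF-EIS, leaf (L2) of helper77's board 5973 (helper25): the Hecke norm of the
discriminant:

  **`heckeNorm ℓ Δ = ± Δ ^ (ℓ + 1)`**   over EVERY commutative ring, `ℓ` prime.

Route: over `ℚ`, `dlog Δ = E₂` (`GJ/Haupt/Theta6.thetaL_deltaS`), `dlog (heckeNorm ℓ u) = T_ℓ (dlog u)`
with the formal weight-2 operator `T_ℓ = heckeT2 ℓ` (helper17, `GF/D3/Core.dlogL_heckeNorm`), and
`T_ℓ E₂ = (ℓ + 1) E₂` because `σ₁(ℓ n) + ℓ σ₁(n / ℓ) = (ℓ + 1) σ₁(n)` (`sigma_hecke`).  Hence the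
quotient `heckeNorm ℓ Δ / Δ^{ℓ+1}` has `θ = 0`, so it is a constant `c ∈ ℚ`; `c` and `c⁻¹` are integers
(both sides have integral expansions, `Δ^{±(ℓ+1)}` has leading coefficient `1`), so `c = ±1`.
Descend to `ℤ` (coefficientwise injectivity) and base change to any `R` (`coeffMap_heckeNorm`).

* `sigma_hecke`        : `σ₁(ℓ n) + [ℓ ∣ n] ℓ σ₁(n / ℓ) = (ℓ + 1) σ₁(n)`;
* `heckeT2_e2S`        : `T_ℓ E₂ = (ℓ + 1) E₂` over `ℚ`;
* `dlogL_deltaS`       : `dlog Δ = E₂` over `ℚ`;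
* `exists_const_rat`   : `heckeNorm ℓ Δ = c · Δ^{ℓ+1}` over `ℚ`;
* `heckeNorm_deltaS_int`, **`heckeNorm_deltaS`** : the statement over `ℤ` / over any `R`;
* `heckeNorm_deltaInvS`: the same for `Δ⁻¹`.
-/
import Mathlib
import Fermat.Agent.GF.D3.Core
import Fermat.Agent.GJ.Haupt.Theta6
import Fermat.Agent.S28.UnitOrders
import Fermat.Agent.S28.CuspSeries

set_option autoImplicit false

noncomputable section

namespace Fermat.Agent.GF.Eis.EtaHecke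

open HahnSeries ModularCurve Finset ArithmeticFunction
open scoped ArithmeticFunction.sigma
open Fermat.Agent.GJ.Kum Fermat.Agent.GJ.Haupt Fermat.Agent.GF.D3 Fermat.Agent.S28

/-! ### the Hecke relation for `σ₁` -/

section Sigma

theorem geom_succ (ℓ j : ℕ) :
    ∑ i ∈ range (j + 2), ℓ ^ i = ℓ * ∑ i ∈ range (j + 1), ℓ ^ i + 1 := by
  rw [Finset.sum_range_succ' _ (j + 1), Finset.mul_sum, pow_zero]
  congr 1
  exact Finset.sum_congr rfl fun i _ => pow_succ' ℓ i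

/-- **`σ₁(ℓ n) + [ℓ ∣ n] ℓ σ₁(n / ℓ) = (ℓ + 1) σ₁(n)`** for a prime `ℓ`. -/
theorem sigma_hecke {ℓ : ℕ} (hℓ : ℓ.Prime) {n : ℕ} (hn : n ≠ 0) :
    σ 1 (ℓ * n) + (if ℓ ∣ n then ℓ * σ 1 (n / ℓ) else 0) = (ℓ + 1) * σ 1 n := by
  obtain ⟨a, m, hm, rfl⟩ := Nat.exists_eq_pow_mul_and_not_dvd hn ℓ hℓ.ne_one
  have hcop : ∀ j, Nat.Coprime (ℓ ^ j) m := fun j =>
    ((Nat.Prime.coprime_iff_not_dvd hℓ).2 hm).pow_left j
  have hσ : ∀ j, σ 1 (ℓ ^ j * m) = (∑ i ∈ range (j + 1), ℓ ^ i) * σ 1 m := fun j => by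
    rw [isMultiplicative_sigma.map_mul_of_coprime (hcop j), sigma_one_apply_prime_pow hℓ]
  have e1 : ℓ * (ℓ ^ a * m) = ℓ ^ (a + 1) * m := by rw [pow_succ']; ring
  rw [e1, hσ (a + 1), hσ a]
  cases a with
  | zero =>
    have hnd : ¬ ℓ ∣ ℓ ^ 0 * m := by rwa [pow_zero, one_mul]
    rw [if_neg hnd]
    simp only [zero_add, Finset.sum_range_succ, Finset.sum_range_zero, pow_zero, pow_one]
    ring
  | succ k =>
    have hd : ℓ ∣ ℓ ^ (k + 1) * m := Dvd.dvd.mul_right (dvd_pow_self ℓ (Nat.succ_ne_zero k)) m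
    have hdiv : ℓ ^ (k + 1) * m / ℓ = ℓ ^ k * m :=
      Nat.div_eq_of_eq_mul_right hℓ.pos (by rw [pow_succ']; ring)
    rw [if_pos hd, hdiv, hσ k, geom_succ ℓ (k + 1), geom_succ ℓ k]
    ring

end Sigma

/-! ### the coefficients of `E₂` -/

section E2

variable (A : Type*) [CommRing A]

theorem coeff_e2S_natCast (n : ℕ) :
    (e2S A).coeff (n : ℤ) = if n = 0 then 1 else -24 * ((σ 1 n : ℕ) : A) := by
  rw [e2S, HahnSeries.ofPowerSeries_apply_coeff, Fermat.Agent.S16.RAM.coeff_e2]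

theorem coeff_e2S_of_neg {n : ℤ} (hn : n < 0) : (e2S A).coeff n = 0 := by
  rw [e2S, HahnSeries.ofPowerSeries_apply]
  apply HahnSeries.embDomain_of_notMem_range
  rintro ⟨k, hk⟩
  have : (k : ℤ) = n := hk
  omega

end E2

/-! ### over `ℚ` -/

section Rat

variable (ℓ : ℕ) [NeZero ℓ]

/-- **`T_ℓ E₂ = (ℓ + 1) E₂`** for the formal weight-2 Hecke operator. -/
theorem heckeT2_e2S (hℓ : ℓ.Prime) : heckeT2 ℓ (e2S ℚ) = ((ℓ : ℚ) + 1) • e2S ℚ := by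
  have hℓ0 : (0 : ℤ) < ℓ := by exact_mod_cast hℓ.pos
  ext n
  rw [coeff_heckeT2, HahnSeries.coeff_smul, smul_eq_mul]
  rcases lt_or_ge n 0 with hn | hn
  · have h1 : (ℓ : ℤ) * n < 0 := mul_neg_of_pos_of_neg hℓ0 hn
    rw [coeff_e2S_of_neg ℚ h1, coeff_e2S_of_neg ℚ hn, mul_zero, zero_add]
    split_ifs with hd
    · rw [coeff_e2S_of_neg ℚ (Int.ediv_neg_of_neg_of_pos hn hℓ0), mul_zero]
    · rfl
  · obtain ⟨m, rfl⟩ := Int.eq_ofNat_of_zero_le hn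
    have e1 : (ℓ : ℤ) * (m : ℤ) = ((ℓ * m : ℕ) : ℤ) := by push_cast; ring
    rw [e1, coeff_e2S_natCast, coeff_e2S_natCast]
    rcases Nat.eq_zero_or_pos m with rfl | hm
    · have e0 : (e2S ℚ).coeff 0 = 1 := by
        have := coeff_e2S_natCast ℚ 0
        simpa using this
      simp [e0]
      ring
    · have hm0 : m ≠ 0 := hm.ne'
      have hlm : ℓ * m ≠ 0 := Nat.mul_ne_zero hℓ.ne_zero hm0
      rw [if_neg hlm, if_neg hm0]
      have key := sigma_hecke hℓ hm0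
      by_cases hd : ℓ ∣ m
      · rw [if_pos (Int.natCast_dvd_natCast.2 hd)]
        rw [if_pos hd] at key
        have e3 : (m : ℤ) / (ℓ : ℤ) = ((m / ℓ : ℕ) : ℤ) := (Int.natCast_div m ℓ).symm
        have hq0 : m / ℓ ≠ 0 := by
          obtain ⟨t, rfl⟩ := hd
          rw [Nat.mul_div_cancel_left t hℓ.pos]
          rintro rfl
          exact hm0 (mul_zero ℓ)
        rw [e3, coeff_e2S_natCast, if_neg hq0]
        have key' : ((σ 1 (ℓ * m) : ℕ) : ℚ) + (ℓ : ℚ) * ((σ 1 (m / ℓ) : ℕ) : ℚ)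
            = ((ℓ : ℚ) + 1) * ((σ 1 m : ℕ) : ℚ) := by exact_mod_cast key
        linear_combination (-24 : ℚ) * key'
      · rw [if_neg (fun h => hd (Int.natCast_dvd_natCast.1 h))]
        rw [if_neg hd, add_zero] at key
        have key' : ((σ 1 (ℓ * m) : ℕ) : ℚ) = ((ℓ : ℚ) + 1) * ((σ 1 m : ℕ) : ℚ) := by
          exact_mod_cast key
        linear_combination (-24 : ℚ) * key'

/-- `dlog Δ = E₂`. -/
theorem dlogL_deltaS : dlogL (deltaS ℚ) = e2S ℚ := by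
  rw [dlogL_def, thetaL_deltaS, mul_assoc, mul_inv_cancel₀ (deltaS_ne_zero ℚ), mul_one]

/-- a Laurent series over `ℚ` killed by `θ` is constant. -/
theorem eq_C_of_thetaL_eq_zero {w : LaurentSeries ℚ} (hw : thetaL w = 0) :
    w = HahnSeries.C (w.coeff 0) := by
  ext n
  rw [HahnSeries.C_apply, HahnSeries.coeff_single]
  by_cases hn : n = 0
  · rw [if_pos hn, hn]
  · rw [if_neg hn]
    have h := congrArg (fun x : LaurentSeries ℚ => x.coeff n) hw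
    simp only [thetaL_coeff, HahnSeries.coeff_zero] at h
    rcases mul_eq_zero.1 h with h1 | h1
    · exact absurd (by exact_mod_cast h1) hn
    · exact h1

/-- **over `ℚ`**: `heckeNorm ℓ Δ = c · Δ^{ℓ+1}`. -/
theorem exists_const_rat (hℓ : ℓ.Prime) :
    ∃ c : ℚ, c ≠ 0 ∧ heckeNorm ℓ (deltaS ℚ) = HahnSeries.C c * deltaS ℚ ^ (ℓ + 1) := by
  have hℓQ : ((ℓ : ℕ) : ℚ) ≠ 0 := Nat.cast_ne_zero.2 hℓ.ne_zero
  have hu : deltaS ℚ ≠ 0 := deltaS_ne_zero ℚ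
  have hN : heckeNorm ℓ (deltaS ℚ) ≠ 0 := heckeNorm_ne_zero_field ℓ hu
  have hP : deltaS ℚ ^ (ℓ + 1) ≠ 0 := pow_ne_zero _ hu
  set w : LaurentSeries ℚ := heckeNorm ℓ (deltaS ℚ) * (deltaS ℚ ^ (ℓ + 1))⁻¹ with hw
  have hw0 : w ≠ 0 := mul_ne_zero hN (inv_ne_zero hP)
  have hd : dlogL w = 0 := by
    rw [hw, dlogL_mul hN (inv_ne_zero hP), dlogL_inv hP, dlogL_pow,
      dlogL_heckeNorm_eq_heckeT2 ℓ hℓQ hu, dlogL_deltaS, heckeT2_e2S ℓ hℓ]
    push_cast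
    rw [add_neg_cancel]
  have hθ : thetaL w = 0 := by
    have := dlogL_mul_self hw0
    rw [hd, zero_mul] at this
    exact this.symm
  have hc := eq_C_of_thetaL_eq_zero hθ
  refine ⟨w.coeff 0, fun h0 => hw0 (by rw [hc, h0, _root_.map_zero]), ?_⟩
  rw [← hc, hw, mul_assoc, inv_mul_cancel₀ hP, mul_one]

end Rat

/-! ### over `ℤ`, and over every commutative ring -/

section Int

variable (ℓ : ℕ) [NeZero ℓ]

theorem coeffMap_intCast_injective :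
    Function.Injective (coeffMap (Int.castRingHom ℚ) : LaurentSeries ℤ → LaurentSeries ℚ) := by
  intro x y h
  ext n
  have h1 := congrArg (fun z : LaurentSeries ℚ => z.coeff n) h
  simp only [coeffMap_coeff, eq_intCast] at h1
  exact_mod_cast h1

/-- **over `ℤ`**: `heckeNorm ℓ Δ = ε · Δ^{ℓ+1}`, `heckeNorm ℓ Δ⁻¹ = ε · Δ^{-(ℓ+1)}`, `ε = ±1`. -/
theorem exists_sign_int (hℓ : ℓ.Prime) :
    ∃ ε : ℤ, (ε = 1 ∨ ε = -1) ∧
      heckeNorm ℓ (deltaS ℤ) = HahnSeries.C ε * deltaS ℤ ^ (ℓ + 1) ∧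
      heckeNorm ℓ (deltaInvS ℤ) = HahnSeries.C ε * deltaInvS ℤ ^ (ℓ + 1) := by
  obtain ⟨c, hc0, hc⟩ := exists_const_rat ℓ hℓ
  have hS : coeffMap (Int.castRingHom ℚ) (heckeNorm ℓ (deltaS ℤ)) = heckeNorm ℓ (deltaS ℚ) := by
    rw [coeffMap_heckeNorm, coeffMap_deltaS]
  have hI : coeffMap (Int.castRingHom ℚ) (heckeNorm ℓ (deltaInvS ℤ)) =
      heckeNorm ℓ (deltaInvS ℚ) := by
    rw [coeffMap_heckeNorm, coeffMap_deltaInvS]
  -- the inverse side over `ℚ`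
  have hone : heckeNorm ℓ (deltaInvS ℚ) * heckeNorm ℓ (deltaS ℚ) = 1 := by
    rw [← heckeNorm_mul, deltaInvS_mul_deltaS, heckeNorm_one]
  have hN0 : heckeNorm ℓ (deltaS ℚ) ≠ 0 := heckeNorm_ne_zero_field ℓ (deltaS_ne_zero ℚ)
  have hcI : heckeNorm ℓ (deltaInvS ℚ) = HahnSeries.C c⁻¹ * deltaInvS ℚ ^ (ℓ + 1) := by
    apply mul_right_cancel₀ hN0
    rw [hone, hc, mul_mul_mul_comm, ← map_mul, inv_mul_cancel₀ hc0, map_one, one_mul, ← mul_pow,
      deltaInvS_mul_deltaS, one_pow]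
  -- leading coefficients
  obtain ⟨m, hm⟩ : ∃ m : ℤ, m = ((ℓ + 1 : ℕ) : ℤ) * 1 := ⟨_, rfl⟩
  obtain ⟨m', hm'⟩ : ∃ m' : ℤ, m' = ((ℓ + 1 : ℕ) : ℤ) * (-1) := ⟨_, rfl⟩
  have hl1 : (deltaS ℚ ^ (ℓ + 1)).coeff m = 1 := by
    rw [hm, ((hasLead_deltaS ℚ).pow (ℓ + 1)).coeff_self, one_pow]
  have hl2 : (deltaInvS ℚ ^ (ℓ + 1)).coeff m' = 1 := by
    rw [hm', ((hasLead_deltaInvS ℚ).pow (ℓ + 1)).coeff_self, one_pow]
  set k : ℤ := (heckeNorm ℓ (deltaS ℤ)).coeff m with hk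
  set k' : ℤ := (heckeNorm ℓ (deltaInvS ℤ)).coeff m' with hk'
  have hkc : (k : ℚ) = c := by
    have h := congrArg (fun z : LaurentSeries ℚ => z.coeff m) (hS.trans hc)
    simp only [coeffMap_coeff, eq_intCast, HahnSeries.C_mul_eq_smul, HahnSeries.coeff_smul,
      smul_eq_mul] at h
    rw [hl1, mul_one] at h
    exact h
  have hkc' : (k' : ℚ) = c⁻¹ := by
    have h := congrArg (fun z : LaurentSeries ℚ => z.coeff m') (hI.trans hcI)
    simp only [coeffMap_coeff, eq_intCast, HahnSeries.C_mul_eq_smul, HahnSeries.coeff_smul,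
      smul_eq_mul] at h
    rw [hl2, mul_one] at h
    exact h
  have hkk : k * k' = 1 := by
    have : ((k * k' : ℤ) : ℚ) = 1 := by
      rw [Int.cast_mul, hkc, hkc', mul_inv_cancel₀ hc0]
    exact_mod_cast this
  refine ⟨k, Int.eq_one_or_neg_one_of_mul_eq_one hkk, ?_, ?_⟩
  · apply coeffMap_intCast_injective
    rw [hS, hc, map_mul, map_pow, coeffMap_deltaS, coeffMap_C, eq_intCast, hkc]
  · apply coeffMap_intCast_injective
    have hk1 : (k : ℚ) = c⁻¹ := by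
      rcases Int.eq_one_or_neg_one_of_mul_eq_one hkk with h | h
      · have hc1 : c = 1 := by rw [← hkc, h]; norm_num
        rw [h, hc1]; norm_num
      · have hc1 : c = -1 := by rw [← hkc, h]; norm_num
        rw [h, hc1]; norm_num
    rw [hI, hcI, map_mul, map_pow, coeffMap_deltaInvS, coeffMap_C, eq_intCast, hk1]

/-- **`heckeNorm ℓ Δ = ε · Δ^{ℓ+1}`** and the same for `Δ⁻¹`, with ONE sign `ε = ±1` for all
commutative rings. -/
theorem exists_sign (hℓ : ℓ.Prime) :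
    ∃ ε : ℤ, (ε = 1 ∨ ε = -1) ∧ ∀ (R : Type*) [CommRing R],
      heckeNorm ℓ (deltaS R) = HahnSeries.C (ε : R) * deltaS R ^ (ℓ + 1) ∧
      heckeNorm ℓ (deltaInvS R) = HahnSeries.C (ε : R) * deltaInvS R ^ (ℓ + 1) := by
  obtain ⟨ε, hε, h1, h2⟩ := exists_sign_int ℓ hℓ
  refine ⟨ε, hε, fun R _ => ⟨?_, ?_⟩⟩
  · have h := congrArg (coeffMap (Int.castRingHom R)) h1
    rw [coeffMap_heckeNorm, coeffMap_deltaS, map_mul, map_pow, coeffMap_deltaS, coeffMap_C,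
      eq_intCast] at h
    exact h
  · have h := congrArg (coeffMap (Int.castRingHom R)) h2
    rw [coeffMap_heckeNorm, coeffMap_deltaInvS, map_mul, map_pow, coeffMap_deltaInvS, coeffMap_C,
      eq_intCast] at h
    exact h

/-- **(L2)**: `heckeNorm ℓ Δ = ± Δ^{ℓ+1}` over every commutative ring. -/
theorem heckeNorm_deltaS (R : Type*) [CommRing R] (hℓ : ℓ.Prime) :
    heckeNorm ℓ (deltaS R) = deltaS R ^ (ℓ + 1) ∨ heckeNorm ℓ (deltaS R) = -deltaS R ^ (ℓ + 1) := by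
  obtain ⟨ε, hε, h⟩ := exists_sign ℓ hℓ
  rcases hε with rfl | rfl
  · left
    rw [(h R).1, Int.cast_one, map_one, one_mul]
  · right
    rw [(h R).1, Int.cast_neg, Int.cast_one, map_neg, map_one, neg_one_mul]

/-- `heckeNorm ℓ Δ⁻¹ = ± Δ^{-(ℓ+1)}` over every commutative ring. -/
theorem heckeNorm_deltaInvS (R : Type*) [CommRing R] (hℓ : ℓ.Prime) :
    heckeNorm ℓ (deltaInvS R) = deltaInvS R ^ (ℓ + 1) ∨
      heckeNorm ℓ (deltaInvS R) = -deltaInvS R ^ (ℓ + 1) := by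
  obtain ⟨ε, hε, h⟩ := exists_sign ℓ hℓ
  rcases hε with rfl | rfl
  · left
    rw [(h R).2, Int.cast_one, map_one, one_mul]
  · right
    rw [(h R).2, Int.cast_neg, Int.cast_one, map_neg, map_one, neg_one_mul]

end Int

end Fermat.Agent.GF.Eis.EtaHecke
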