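/-
GATE-F / S44, node GF-EIS, leaf (E1) of helper77's board 6134 (helper25): even powers of `Δ^{±1}` are
honest eigen-units of the Hecke norm, with NO sign:

  `heckeNorm ℓ (Δ⁻¹ ^ n) = (Δ⁻¹ ^ n) ^ (ℓ + 1)`   for `n` even, over every commutative ring,

used at `n = p - 1` with `GL/Eta/Gauss.coe_red1_etaQ_char : ↑(red₁ (etaQ N p)) = deltaInvS k ^ (p-1)`.
Corollary of `EtaHecke.exists_sign` (`heckeNorm ℓ Δ^{±1} = ε · Δ^{±(ℓ+1)}`, `ε = ±1`).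
-/
import Mathlib
import Fermat.Agent.GF.Eis.EtaHecke

set_option autoImplicit false

noncomputable section

namespace Fermat.Agent.GF.Eis.EtaHeckeCor

open HahnSeries
open Fermat.Agent.GJ.Kum Fermat.Agent.S28 Fermat.Agent.GF.Eis.EtaHecke

variable (R : Type*) [CommRing R] {ℓ : ℕ} [NeZero ℓ]

/-- a sign to an even power is `1`. -/
theorem C_sign_pow_even {ε : ℤ} (hε : ε = 1 ∨ ε = -1) {n : ℕ} (hn : Even n) :
    (HahnSeries.C ((ε : ℤ) : R) : LaurentSeries R) ^ n = 1 := by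
  rcases hε with rfl | rfl
  · rw [Int.cast_one, map_one, one_pow]
  · rw [Int.cast_neg, Int.cast_one, map_neg, map_one, hn.neg_one_pow]

/-- **(E1)**: `heckeNorm ℓ (Δ⁻¹ ^ n) = (Δ⁻¹ ^ n) ^ (ℓ + 1)` for even `n`. -/
theorem heckeNorm_deltaInvS_pow_even (hℓ : ℓ.Prime) {n : ℕ} (hn : Even n) :
    heckeNorm ℓ (deltaInvS R ^ n) = (deltaInvS R ^ n) ^ (ℓ + 1) := by
  obtain ⟨ε, hε, h⟩ := exists_sign ℓ hℓ
  rw [heckeNorm_pow, (h R).2, mul_pow, C_sign_pow_even R hε hn, one_mul, ← pow_mul, ← pow_mul,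
    mul_comm]

/-- the `Δ` twin: `heckeNorm ℓ (Δ ^ n) = (Δ ^ n) ^ (ℓ + 1)` for even `n`. -/
theorem heckeNorm_deltaS_pow_even (hℓ : ℓ.Prime) {n : ℕ} (hn : Even n) :
    heckeNorm ℓ (deltaS R ^ n) = (deltaS R ^ n) ^ (ℓ + 1) := by
  obtain ⟨ε, hε, h⟩ := exists_sign ℓ hℓ
  rw [heckeNorm_pow, (h R).1, mul_pow, C_sign_pow_even R hε hn, one_mul, ← pow_mul, ← pow_mul,
    mul_comm]

/-- the form used at `n = p - 1`, `p` an odd prime. -/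
theorem heckeNorm_deltaInvS_pow_pred (hℓ : ℓ.Prime) {p : ℕ} (hp : p.Prime) (hp2 : p ≠ 2) :
    heckeNorm ℓ (deltaInvS R ^ (p - 1)) = (deltaInvS R ^ (p - 1)) ^ (ℓ + 1) :=
  heckeNorm_deltaInvS_pow_even R hℓ (hp.even_sub_one hp2)

theorem heckeNorm_deltaS_pow_pred (hℓ : ℓ.Prime) {p : ℕ} (hp : p.Prime) (hp2 : p ≠ 2) :
    heckeNorm ℓ (deltaS R ^ (p - 1)) = (deltaS R ^ (p - 1)) ^ (ℓ + 1) :=
  heckeNorm_deltaS_pow_even R hℓ (hp.even_sub_one hp2)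

end Fermat.Agent.GF.Eis.EtaHeckeCor
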