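/-
GATE-F (S40/S44) / node GF-EIS, file 6 (helper77): **TROP-HECKE on the modular nodal frame.**

Level `N`, `p ∥ N`, `A | p`, `Ft = FresBar N A`, `τ = red₁ j`, nodes `P s`, `ℓ ∤ N` prime,
`T_ℓ = kumTl N p` on `V = Kum_p(F_N)`, `h = etaQ N p = Δ(z)/Δ(pz)`, `G = red₁ h = Δ~^{-(p-1)}`.

`trop1FN_kumTl_of_prop` : if the tropical vector of `x` is proportional to the tropical vector of
`h` (`m_s(x) = c · ordRed_{P s}(h)`), then `m(T_ℓ x) = (ℓ + 1) • m(x)`.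

Binders: (L1) [the Hecke norm on `Ft` preserves `p`-divisibility off the cusps; good level
`N / p`, `GF/Eis/GoodLevel.lean`], the fibre formula `FF2` at the non-nodes (`GS/Fib.ff2 H`),
`hoff` [the nodes are not cusps], `hd` [off the cusps the zeros of `G` are nodes].
Corollaries: the `e`-form (= the field `trop_T` of helper61's `FieldsAt`) and the eigenvector form
`eis1` (`T_ℓ x = a x`, `a ≠ ℓ + 1` ⟹ `m(x) = 0`).
-/
import Mathlib
import Fermat.Agent.GF.Trop.Modular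
import Fermat.Agent.GF.D3.Eigen
import Fermat.Agent.GK.UQ.ESComm
import Fermat.Agent.GL.Eta.Gauss
import Fermat.Agent.GF.Eis.EtaHeckeCor
import Fermat.Agent.GF.Eis.EisSeries

set_option autoImplicit false
set_option linter.unusedSectionVars false
set_option linter.style.haveILetI false

noncomputable section

namespace Fermat.Agent.GF.Eis.Main

open AlgebraicCurve ModularCurve IsLocalRing HahnSeries
open Fermat.Agent.S24 Fermat.Agent.S24_helper62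
open Fermat.Agent.GJ.J1 Fermat.Agent.GJ.J1.Val
open Fermat.Agent.GJ Fermat.Agent.GJ.KumGroup Fermat.Agent.GJ.Kum Fermat.Agent.GJ.Kum.KumType
open Fermat.Agent.GK.AL Fermat.Agent.GK.UQ Fermat.Agent.GK.CuspSep
open Fermat.Agent.GS.Nodal.ROfSurj2 Fermat.Agent.GS.Nodal.Inst
open Fermat.Agent.GF.Trop Fermat.Agent.GF.D3 Fermat.Agent.GL.Eta

variable {p : ℕ} [Fact p.Prime] (N : ℕ) [NeZero N] [NeZero p] (A : ValuationSubring Kbar)
  (h : ExactDvd p N)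

attribute [local instance] finiteResidues_FN hasPrincipalDivisors_FN nonempty_place_FN

local notation "𝕜" => ResidueField A

/-- `G = red₁ (Δ(z)/Δ(pz))` -/
def Gred : FresBar N A := (redDataBar N A).red ⟨etaQ N p h.dvd, etaQ_mem_Rw1 N A p h.dvd⟩

theorem isU_etaQ : IsU (redDataBar N A) (etaQ N p h.dvd) :=
  ⟨etaQ_ne_zero N p h.dvd, etaQ_mem_Rw1 N A p h.dvd, etaQ_inv_mem_Rw1 N A p h.dvd⟩

theorem Gred_ne_zero : Gred N A h ≠ 0 := (isU_etaQ N A h).red_ne_zero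

theorem ordRed_etaQ (Pl : Place 𝕜 (FresBar N A)) :
    ordRed (redDataBar N A) (Fermat.Agent.GS.F.unram_redDataBar N A) Pl (etaQ N p h.dvd) =
      Pl.ord (Gred N A h) :=
  ordRed_of_isU _ Pl (isU_etaQ N A h)

/-- (L2) for `G`: `heckeNorm ℓ G = G ^ (ℓ + 1)` (`p` odd) -/
theorem heckeNorm_Gred (hA : A.LiesOverPrime p) (hp2 : p ≠ 2) {ℓ : ℕ} [NeZero ℓ] (hℓ : ℓ.Prime) :
    heckeNorm ℓ ((Gred N A h : FresBar N A) : LaurentSeries 𝕜) =
      ((Gred N A h : FresBar N A) : LaurentSeries 𝕜) ^ (ℓ + 1) := by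
  haveI : CharP 𝕜 p := Fermat.Agent.GJ.GaussDeg.charP_residue A hA
  have h1 : ((Gred N A h : FresBar N A) : LaurentSeries 𝕜) = Fermat.Agent.S28.deltaInvS 𝕜 ^ (p - 1) :=
    coe_red1_etaQ_char N A p h.dvd _
  rw [h1]
  exact Fermat.Agent.GF.Eis.EtaHeckeCor.heckeNorm_deltaInvS_pow_pred 𝕜 hℓ Fact.out hp2

variable {ι : Type} [Fintype ι] (P : ι → Place (ResidueField A) (FresBar N A))

/-- **TROP-HECKE, proportional form.** -/
theorem trop1FN_kumTl_of_prop (hA : A.LiesOverPrime p) (hp2 : p ≠ 2)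
    {d1 : Place 𝕜 (FresBar N A) → Set (Place Kbar (FN N))}
    {d2 : Place 𝕜 (FresBar N A) → Set (Place Kbar (FN N))}
    {S2 : Set (Place 𝕜 (FresBar N A))}
    (hFF : FF2 (redDataBar N A) (redData2 N A h) d1 d2 {Q' | ∀ j, Q' ≠ P j} S2)
    {ℓ : ℕ} [NeZero ℓ] (hℓ : ℓ.Prime) (hℓN : ¬ ℓ ∣ N)
    (hL1 : ∀ f Tf : FresBar N A, f ≠ 0 →
      (Tf : LaurentSeries 𝕜) = heckeNorm ℓ (f : LaurentSeries 𝕜) →
      (∀ Q' : Place 𝕜 (FresBar N A), 0 ≤ Q'.ord (tauF N A) → (p : ℤ) ∣ Q'.ord f) →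
      ∀ Q' : Place 𝕜 (FresBar N A), 0 ≤ Q'.ord (tauF N A) → (p : ℤ) ∣ Q'.ord Tf)
    (hoff : ∀ s, 0 ≤ (P s).ord (tauF N A))
    (hd : ∀ Q' : Place 𝕜 (FresBar N A), 0 ≤ Q'.ord (tauF N A) → (∀ s, Q' ≠ P s) →
      Q'.ord (Gred N A h) = 0)
    (x : Additive (Kum Kbar (FN N) p)) (c : ZMod p)
    (hprop : ∀ s, trop1FN N A P x s = c *
      ((ordRed (redDataBar N A) (Fermat.Agent.GS.F.unram_redDataBar N A) (P s)
        (etaQ N p h.dvd) : ℤ) : ZMod p)) :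
    trop1FN N A P (kumTl N p hℓ hℓN x) = (((ℓ : ℕ) : ZMod p) + 1) • trop1FN N A P x := by
  classical
  have T := tropHyp_FN N A h hA
  have hun : Unram (redDataBar N A) := Fermat.Agent.GS.F.unram_redDataBar N A
  obtain ⟨u, hux, hu⟩ := exists_bothUnit_rep T.hc T.hPS T.hun1 T.hun2 T.harch T.hp T.hroot
    (Additive.toMul x)
  have hx : x = Additive.ofMul (Kum.mk u) := by rw [hux]; rfl
  subst hx
  set hM := Fermat.Agent.GJ.Kum.KumGate.hnMemHyp N hℓ hℓN with hMdef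
  set hD := Fermat.Agent.GJ.Kum.KumGate.hnDivHyp N p hℓ hℓN with hDdef
  have hU : IsU (redDataBar N A) (((u : (FN N)ˣ) : FN N)) := hu.1
  have hTU : IsU (redDataBar N A) (((heckeUnits hM (u : (FN N)ˣ) : (FN N)ˣ) : FN N)) :=
    isU_heckeUnits A hM hU
  -- the two reductions
  set f : FresBar N A := (redDataBar N A).red ⟨((u : (FN N)ˣ) : FN N), hU.2.1⟩ with hf
  set Tf : FresBar N A :=
    (redDataBar N A).red ⟨((heckeUnits hM (u : (FN N)ˣ) : (FN N)ˣ) : FN N), hTU.2.1⟩ with hTf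
  have hf0 : f ≠ 0 := hU.red_ne_zero
  have hT : (Tf : LaurentSeries 𝕜) = heckeNorm ℓ (f : LaurentSeries 𝕜) :=
    redS_heckeUnits A hM hU
  -- the tropical coordinates
  have hm : ∀ s, trop1FN N A P (Additive.ofMul (Kum.mk u)) s = (((P s).ord f : ℤ) : ZMod p) := by
    intro s
    show ((ordRed (redDataBar N A) hun (P s) ((u : (FN N)ˣ) : FN N) : ℤ) : ZMod p) = _
    rw [ordRed_of_isU hun (P s) hU]
  have hTm : ∀ s, trop1FN N A P (kumTl N p hℓ hℓN (Additive.ofMul (Kum.mk u))) s =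
      (((P s).ord Tf : ℤ) : ZMod p) := by
    intro s
    have e : kumTl N p hℓ hℓN (Additive.ofMul (Kum.mk u)) =
        Additive.ofMul (Kum.mk ⟨heckeUnits hM u, heckeUnits_mem hM hD u u.2⟩) := rfl
    rw [e]
    show ((ordRed (redDataBar N A) hun (P s)
      ((heckeUnits hM (u : (FN N)ˣ) : (FN N)ˣ) : FN N) : ℤ) : ZMod p) = _
    rw [ordRed_of_isU hun (P s) hTU]
  -- `f` is `p`-divisible off the cusps up to `G ^ n`
  set n : ℕ := c.val with hn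
  have hnc : ((n : ℕ) : ZMod p) = c := ZMod.natCast_zmod_val c
  have hdiv : ∀ Q' : Place 𝕜 (FresBar N A),
      Q' ∉ {Q' : Place 𝕜 (FresBar N A) | ¬ 0 ≤ Q'.ord (tauF N A)} →
      (p : ℤ) ∣ Q'.ord f - n * Q'.ord (Gred N A h) := by
    intro Q' hQ'
    have hQ0 : 0 ≤ Q'.ord (tauF N A) := not_not.mp hQ'
    by_cases hnode : ∀ s, Q' ≠ P s
    · rw [hd Q' hQ0 hnode, mul_zero, sub_zero]
      exact dvd_ord_red1_of_mem hFF hu (mem_pDivUnits.mp u.2) hnode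
    · push Not at hnode
      obtain ⟨s, rfl⟩ := hnode
      rw [← ZMod.intCast_zmod_eq_zero_iff_dvd]
      push_cast
      rw [← hm s, hprop s, ordRed_etaQ N A h (P s), hnc, sub_self]
  have key := Fermat.Agent.GF.Eis.EisSeries.dvd_ord_sub ℓ p
    {Q' : Place 𝕜 (FresBar N A) | ¬ 0 ≤ Q'.ord (tauF N A)}
    (fun f Tf hf hT hdv Q' hQ' =>
      hL1 f Tf hf hT (fun Q'' hQ'' => hdv Q'' (not_not.mpr hQ'')) Q' (not_not.mp hQ'))
    hf0 (Gred_ne_zero N A h) hT (heckeNorm_Gred N A h hA hp2 hℓ) n hdiv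
  funext s
  have h1 := key (P s) (not_not.mpr (hoff s))
  rw [← ZMod.intCast_zmod_eq_zero_iff_dvd] at h1
  push_cast at h1
  rw [sub_eq_zero] at h1
  rw [hTm s, h1, Pi.smul_apply, hm s, hnc]
  have h2 := hprop s
  rw [hm s, ordRed_etaQ N A h (P s)] at h2
  rw [h2, smul_eq_mul]
  ring

/-- **TROP-HECKE, `e`-form** = the field `trop_T` of helper61's `FieldsAt` (`GF/Top/ProviderInst`):
`e s · ordRed_{P s}(etaQ) = 12` for all `s`, `12 ≠ 0` in `ZMod p` (`p ≥ 5`), `e s · m_s(x)` constant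
⟹ `m(T_ℓ x) = (ℓ + 1) • m(x)`. -/
theorem trop1FN_kumTl_of_econst (hA : A.LiesOverPrime p) (hp2 : p ≠ 2)
    {d1 : Place (ResidueField A) (FresBar N A) → Set (Place Kbar (FN N))}
    {d2 : Place (ResidueField A) (FresBar N A) → Set (Place Kbar (FN N))}
    {S2 : Set (Place (ResidueField A) (FresBar N A))}
    (hFF : FF2 (redDataBar N A) (redData2 N A h) d1 d2 {Q' | ∀ j, Q' ≠ P j} S2)
    {ℓ : ℕ} [NeZero ℓ] (hℓ : ℓ.Prime) (hℓN : ¬ ℓ ∣ N)
    (hL1 : ∀ f Tf : FresBar N A, f ≠ 0 →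
      (Tf : LaurentSeries 𝕜) = heckeNorm ℓ (f : LaurentSeries 𝕜) →
      (∀ Q' : Place 𝕜 (FresBar N A), 0 ≤ Q'.ord (tauF N A) → (p : ℤ) ∣ Q'.ord f) →
      ∀ Q' : Place 𝕜 (FresBar N A), 0 ≤ Q'.ord (tauF N A) → (p : ℤ) ∣ Q'.ord Tf)
    (hoff : ∀ s, 0 ≤ (P s).ord (tauF N A))
    (hd : ∀ Q' : Place 𝕜 (FresBar N A), 0 ≤ Q'.ord (tauF N A) → (∀ s, Q' ≠ P s) →
      Q'.ord (Gred N A h) = 0)
    (e : ι → ZMod p) (h12 : (12 : ZMod p) ≠ 0)
    (he : ∀ s, e s * ((ordRed (redDataBar N A) (Fermat.Agent.GS.F.unram_redDataBar N A) (P s)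
        (etaQ N p h.dvd) : ℤ) : ZMod p) = 12)
    (x : Additive (Kum Kbar (FN N) p))
    (hx : ∃ κ : ZMod p, ∀ s, e s * trop1FN N A P x s = κ) :
    trop1FN N A P (kumTl N p hℓ hℓN x) = (((ℓ : ℕ) : ZMod p) + 1) • trop1FN N A P x := by
  obtain ⟨κ, hκ⟩ := hx
  refine trop1FN_kumTl_of_prop N A h P hA hp2 hFF hℓ hℓN hL1 hoff hd x (κ * (12 : ZMod p)⁻¹) ?_
  intro s
  have h1 := he s
  have h2 := hκ s
  have he0 : e s ≠ 0 := by
    intro h0
    rw [h0, zero_mul] at h1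
    exact h12 h1.symm
  -- `12 m_s = e_s g_s m_s = κ g_s`
  have h3 : (12 : ZMod p) * trop1FN N A P x s = κ *
      ((ordRed (redDataBar N A) (Fermat.Agent.GS.F.unram_redDataBar N A) (P s)
        (etaQ N p h.dvd) : ℤ) : ZMod p) := by
    rw [← h1, ← h2]
    ring
  calc trop1FN N A P x s = (12 : ZMod p)⁻¹ * ((12 : ZMod p) * trop1FN N A P x s) := by
        rw [← mul_assoc, inv_mul_cancel₀ h12, one_mul]
    _ = _ := by rw [h3]; ring

/-- **EIS, eigenvector form** (`eis1` of board 5973): a `T_ℓ`-eigenclass with eigenvalue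
`a ≠ ℓ + 1` whose tropical vector is proportional to the one of `etaQ` has trivial tropical
vector. -/
theorem trop1FN_eq_zero_of_eigen (hA : A.LiesOverPrime p) (hp2 : p ≠ 2)
    {d1 : Place (ResidueField A) (FresBar N A) → Set (Place Kbar (FN N))}
    {d2 : Place (ResidueField A) (FresBar N A) → Set (Place Kbar (FN N))}
    {S2 : Set (Place (ResidueField A) (FresBar N A))}
    (hFF : FF2 (redDataBar N A) (redData2 N A h) d1 d2 {Q' | ∀ j, Q' ≠ P j} S2)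
    {ℓ : ℕ} [NeZero ℓ] (hℓ : ℓ.Prime) (hℓN : ¬ ℓ ∣ N)
    (hL1 : ∀ f Tf : FresBar N A, f ≠ 0 →
      (Tf : LaurentSeries 𝕜) = heckeNorm ℓ (f : LaurentSeries 𝕜) →
      (∀ Q' : Place 𝕜 (FresBar N A), 0 ≤ Q'.ord (tauF N A) → (p : ℤ) ∣ Q'.ord f) →
      ∀ Q' : Place 𝕜 (FresBar N A), 0 ≤ Q'.ord (tauF N A) → (p : ℤ) ∣ Q'.ord Tf)
    (hoff : ∀ s, 0 ≤ (P s).ord (tauF N A))
    (hd : ∀ Q' : Place 𝕜 (FresBar N A), 0 ≤ Q'.ord (tauF N A) → (∀ s, Q' ≠ P s) →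
      Q'.ord (Gred N A h) = 0)
    (x : Additive (Kum Kbar (FN N) p)) (a : ZMod p)
    (hTx : kumTl N p hℓ hℓN x = a • x) (ha : a ≠ ((ℓ : ℕ) : ZMod p) + 1)
    (hprop : ∃ c : ZMod p, ∀ s, trop1FN N A P x s = c *
      ((ordRed (redDataBar N A) (Fermat.Agent.GS.F.unram_redDataBar N A) (P s)
        (etaQ N p h.dvd) : ℤ) : ZMod p)) :
    trop1FN N A P x = 0 := by
  obtain ⟨c, hc⟩ := hprop
  have h1 := trop1FN_kumTl_of_prop N A h P hA hp2 hFF hℓ hℓN hL1 hoff hd x c hc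
  rw [hTx] at h1
  have h2 : trop1FN N A P (a • x) = a • trop1FN N A P x := by
    have := (trop1FN (q := p) N A P).toZModLinearMap p |>.map_smul a x
    exact this
  rw [h2] at h1
  funext s
  have h3 := congrFun h1 s
  rw [Pi.smul_apply, Pi.smul_apply, smul_eq_mul, smul_eq_mul] at h3
  have h4 : (a - (((ℓ : ℕ) : ZMod p) + 1)) * trop1FN N A P x s = 0 := by
    rw [sub_mul, h3, sub_self]
  rcases mul_eq_zero.mp h4 with h5 | h5
  · exact absurd (sub_eq_zero.mp h5) ha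
  · exact h5

end Fermat.Agent.GF.Eis.Main
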