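/-
GATE-F (S40/S44) / node GF-EIS, file 8 (helper77): **TROP-HECKE at the level `M' p`, plugged.**

Level `N = M' p`, `p ∤ M'`, `5 ≤ p`, `A | p`, any nodal frame `H : NodalHyp (redCompatFN N A h) P Q …`
(`GS/Nodal/Inst`) whose nodes `P s` are not cusps (`hoff`, from `FrameFacts.offP`:
`hoff_of_frameFacts`) and carry all the non-cuspidal zeros of `G = red₁ (Δ(z)/Δ(pz))` (`hd`,
helper65's `exists_nodalHyp_ss`), thickness vector `e` with `e s · ordRed_{P s}(etaQ) = 12`: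

* `trop_T_mul`     : the field `trop_T` of helper61's `FieldsAt` VERBATIM;
* `trop_zero_mul`  : a `T_ℓ`-eigenclass (`a ≠ ℓ + 1`) with `e`-constant tropical vector has trivial
                     tropical vector (= `trop_zero` of `FieldsAtZ` / `FieldsAtO` on `Y₀`).

No binder (L1), (L2), (L3) left: `BadLevel.hL1_mul`, helper25 `EtaHeckeCor`, helper17 `D3/Eigen`.
-/
import Mathlib
import Fermat.Agent.GF.Eis.Main
import Fermat.Agent.GF.Eis.BadLevel

set_option autoImplicit false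
set_option linter.unusedSectionVars false
set_option linter.style.haveILetI false

noncomputable section

namespace Fermat.Agent.GF.Eis.Final

open AlgebraicCurve ModularCurve IsLocalRing HahnSeries
open Fermat.Agent.S24 Fermat.Agent.S24_helper62 Fermat.Agent.RRh45 Fermat.Agent.RR
open Fermat.Agent.GJ.J1 Fermat.Agent.GJ.J1.Val
open Fermat.Agent.GJ Fermat.Agent.GJ.KumGroup Fermat.Agent.GJ.Kum Fermat.Agent.GJ.Kum.KumType
open Fermat.Agent.GK.AL Fermat.Agent.GK.UQ Fermat.Agent.GK.CuspSep Fermat.Agent.GK.MultiVal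
open Fermat.Agent.GK.BallTwo Fermat.Agent.GK.NodalGraded
open Fermat.Agent.GS.Nodal.LSR2 Fermat.Agent.GS.Nodal.ROfSurj2 Fermat.Agent.GS.Nodal.Inst
open Fermat.Agent.GF.Trop Fermat.Agent.GL.Eta Fermat.Agent.GF.Eis.Main

attribute [local instance] finiteResidues_FN hasPrincipalDivisors_FN nonempty_place_FN
  isAlgClosed_res finiteResidues_Fres hasPrincipalDivisors_Fres nonempty_place_Fres

variable {p : ℕ} [Fact p.Prime] [NeZero p] (M' : ℕ) [NeZero M'] (A : ValuationSubring Kbar)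
  (h : ExactDvd p (M' * p))
variable {ι : Type} [Fintype ι] {P Q : ι → Place (ResidueField A) (FresBar (M' * p) A)}
variable {C : Divisor Kbar (FN (M' * p))}
  {C₁ C₂ : Divisor (ResidueField A) (FresBar (M' * p) A)} {g c : ℤ} {n₀ : ℕ}

/-- the nodes of a nodal frame are not cusps -/
theorem hoff_of_frameFacts (FF : FrameFacts (M' * p) A h P Q) (s : ι) :
    0 ≤ (P s).ord (tauF (M' * p) A) := by
  have h0 := FF.offP s
  have hτ : tauF (M' * p) A ^ (1 + p) ≠ 0 := pow_ne_zero _ (tauF_ne_zero (M' * p) A)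
  rw [Dτ, Bound.poleDiv_apply hτ, ← zpow_natCast, Place.ord_zpow] at h0
  have h1 : -(((1 + p : ℕ) : ℤ) * (P s).ord (tauF (M' * p) A)) ≤ 0 := by
    rw [← h0]; exact le_max_left _ _
  have h2 : (0 : ℤ) < ((1 + p : ℕ) : ℤ) := by positivity
  by_contra hneg
  push Not at hneg
  nlinarith

theorem twelve_ne_zero (hp5 : 5 ≤ p) : (12 : ZMod p) ≠ 0 := by
  have hp : p.Prime := Fact.out
  intro h0
  have h1 : ((12 : ℕ) : ZMod p) = 0 := by exact_mod_cast h0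
  rw [ZMod.natCast_eq_zero_iff] at h1
  have h2 : p ∣ 2 ^ 2 * 3 := by norm_num; exact h1
  rcases (Nat.Prime.dvd_mul hp).mp h2 with h3 | h3
  · have := (Nat.prime_dvd_prime_iff_eq hp Nat.prime_two).mp (hp.dvd_of_dvd_pow h3)
    omega
  · have := (Nat.prime_dvd_prime_iff_eq hp Nat.prime_three).mp h3
    omega

variable (H : NodalHyp (redCompatFN (M' * p) A h) P Q C C₁ C₂ g c n₀)

include H in
/-- **TROP-HECKE** = the field `trop_T` of `FieldsAt` (`GF/Top/ProviderInst.lean`). -/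
theorem trop_T_mul (hpM' : ¬ p ∣ M') (hp5 : 5 ≤ p) (hA : A.LiesOverPrime p)
    (hoff : ∀ s, 0 ≤ (P s).ord (tauF (M' * p) A))
    (hd : ∀ Q' : Place (ResidueField A) (FresBar (M' * p) A), 0 ≤ Q'.ord (tauF (M' * p) A) →
      (∀ s, Q' ≠ P s) → Q'.ord (Gred (M' * p) A h) = 0)
    (e : ι → ZMod p)
    (he : ∀ s, e s * ((ordRed (redDataBar (M' * p) A)
      (Fermat.Agent.GS.F.unram_redDataBar (M' * p) A) (P s) (etaQ (M' * p) p h.dvd) : ℤ) :
        ZMod p) = 12)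
    {ℓ₀ : ℕ} (hℓ₀ : ℓ₀.Prime) (hℓ₀M : ¬ ℓ₀ ∣ M' * p)
    (x : Additive (Kum Kbar (FN (M' * p)) p))
    (hx : ∃ κ : ZMod p, ∀ s, e s * trop1FN (q := p) (M' * p) A P x s = κ) :
    trop1FN (q := p) (M' * p) A P (kumTl (M' * p) p hℓ₀ hℓ₀M x) =
      (((ℓ₀ : ℕ) : ZMod p) + 1) • trop1FN (q := p) (M' * p) A P x := by
  haveI : NeZero ℓ₀ := ⟨hℓ₀.ne_zero⟩
  have hp2 : p ≠ 2 := by omega
  have hℓM : ¬ ℓ₀ ∣ M' := fun hdvd => hℓ₀M (Dvd.dvd.mul_right hdvd p)
  exact trop1FN_kumTl_of_econst (M' * p) A h P hA hp2 (Fermat.Agent.GS.Fib.ff2 H) hℓ₀ hℓ₀M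
    (fun f Tf hf hT hdv => Fermat.Agent.GF.Eis.BadLevel.hL1_mul hpM' (fun e2 => by omega)
      (fun e3 => by omega) hA hℓ₀ hℓM (p : ℤ) f Tf hf hT hdv)
    hoff hd e (twelve_ne_zero hp5) he x hx

include H in
/-- **`trop_zero` on eigenclasses**: `T_ℓ₀ x = a x`, `a ≠ ℓ₀ + 1`, `e`-constant tropical vector
⟹ `trop x = 0`. -/
theorem trop_zero_mul (hpM' : ¬ p ∣ M') (hp5 : 5 ≤ p) (hA : A.LiesOverPrime p)
    (hoff : ∀ s, 0 ≤ (P s).ord (tauF (M' * p) A))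
    (hd : ∀ Q' : Place (ResidueField A) (FresBar (M' * p) A), 0 ≤ Q'.ord (tauF (M' * p) A) →
      (∀ s, Q' ≠ P s) → Q'.ord (Gred (M' * p) A h) = 0)
    (e : ι → ZMod p)
    (he : ∀ s, e s * ((ordRed (redDataBar (M' * p) A)
      (Fermat.Agent.GS.F.unram_redDataBar (M' * p) A) (P s) (etaQ (M' * p) p h.dvd) : ℤ) :
        ZMod p) = 12)
    {ℓ₀ : ℕ} (hℓ₀ : ℓ₀.Prime) (hℓ₀M : ¬ ℓ₀ ∣ M' * p)
    (x : Additive (Kum Kbar (FN (M' * p)) p)) (a : ZMod p)
    (hTx : kumTl (M' * p) p hℓ₀ hℓ₀M x = a • x) (ha : a ≠ ((ℓ₀ : ℕ) : ZMod p) + 1)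
    (hx : ∃ κ : ZMod p, ∀ s, e s * trop1FN (q := p) (M' * p) A P x s = κ) :
    trop1FN (q := p) (M' * p) A P x = 0 := by
  have h1 := trop_T_mul M' A h H hpM' hp5 hA hoff hd e he hℓ₀ hℓ₀M x hx
  rw [hTx] at h1
  have h2 : trop1FN (q := p) (M' * p) A P (a • x) = a • trop1FN (q := p) (M' * p) A P x :=
    ((trop1FN (q := p) (M' * p) A P).toZModLinearMap p).map_smul a x
  rw [h2] at h1
  funext s
  have h3 := congrFun h1 s
  rw [Pi.smul_apply, Pi.smul_apply, smul_eq_mul, smul_eq_mul] at h3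
  have h4 : (a - (((ℓ₀ : ℕ) : ZMod p) + 1)) * trop1FN (q := p) (M' * p) A P x s = 0 := by
    rw [sub_mul, h3, sub_self]
  rcases mul_eq_zero.mp h4 with h5 | h5
  · exact absurd (sub_eq_zero.mp h5) ha
  · exact h5

end Fermat.Agent.GF.Eis.Final
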