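/-
GATE-F (S44) / node GF-EIS, file 10 (helper77): **`EisHyp` on a nodal frame with clause (d)** — the
adapter consumed by helper34's `GF/F2Asm/TropZero.trop_zero_of_frame`.

Level `N = M' p`, `p ∤ M'`, `p ≠ 2`, `A | p`, nodal frame `FF : FrameFacts`, `H : NodalHyp`, clause
(d) of helper65's `GF/Eis/NodesSS.exists_nodalHyp_ss` (the non-cuspidal zeros of `red₁ (etaQ)` are
nodes), `ℓ ∤ N` prime.  Then (the body of `EisHyp (M' p) A P h hℓ hℓN`, unfolded):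

  `T_ℓ x = a x`, `a ≠ ℓ + 1`, `trop x = c · trop (etaQ)`  ⟹  `trop x = 0`.

No other binder: (L1) `BadLevel.hL1_mul`, (L2) helper25, (L3) helper17, FF2 `GS/Fib.ff2 H`,
`hoff_of_frameFacts`.
-/
import Mathlib
import Fermat.Agent.GF.Eis.Final

set_option autoImplicit false
set_option linter.unusedSectionVars false
set_option linter.style.haveILetI false

noncomputable section

namespace Fermat.Agent.GF.Eis.EisFrame

open AlgebraicCurve ModularCurve IsLocalRing HahnSeries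
open Fermat.Agent.S24 Fermat.Agent.S24_helper62 Fermat.Agent.RRh45 Fermat.Agent.RR
open Fermat.Agent.GJ.J1 Fermat.Agent.GJ.J1.Val
open Fermat.Agent.GJ Fermat.Agent.GJ.KumGroup Fermat.Agent.GJ.Kum Fermat.Agent.GJ.Kum.KumType
open Fermat.Agent.GK.AL Fermat.Agent.GK.UQ Fermat.Agent.GK.CuspSep Fermat.Agent.GK.MultiVal
open Fermat.Agent.GK.BallTwo Fermat.Agent.GK.NodalGraded
open Fermat.Agent.GS.Nodal.LSR2 Fermat.Agent.GS.Nodal.ROfSurj2 Fermat.Agent.GS.Nodal.Inst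
open Fermat.Agent.GF.Trop Fermat.Agent.GL.Eta Fermat.Agent.GF.Eis.Main

attribute [local instance] finiteResidues_FN hasPrincipalDivisors_FN nonempty_place_FN
  isAlgClosed_res finiteResidues_Fres hasPrincipalDivisors_Fres nonempty_place_Fres

variable {p : ℕ} [Fact p.Prime] [NeZero p] (M' : ℕ) [NeZero M'] (A : ValuationSubring Kbar)
  (h : ExactDvd p (M' * p))
variable {ι : Type} [Fintype ι] {P Q : ι → Place (ResidueField A) (FresBar (M' * p) A)}
variable {C : Divisor Kbar (FN (M' * p))}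
  {C₁ C₂ : Divisor (ResidueField A) (FresBar (M' * p) A)} {g c : ℤ} {n₀ : ℕ}

/-- **`EisHyp` (unfolded) on a nodal frame with clause (d).** -/
theorem eis_of_frame (FF : FrameFacts (M' * p) A h P Q)
    (H : NodalHyp (redCompatFN (M' * p) A h) P Q C C₁ C₂ g c n₀)
    (hpM' : ¬ p ∣ M') (hp2 : p ≠ 2) (h3 : p = 3 → 2 ∣ M') (hA : A.LiesOverPrime p)
    (hd : ∀ Q' : Place (ResidueField A) (FresBar (M' * p) A), 0 ≤ Q'.ord (tauF (M' * p) A) →
      (∀ s, Q' ≠ P s) →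
      Q'.ord ((redDataBar (M' * p) A).red
        ⟨etaQ (M' * p) p h.dvd, etaQ_mem_Rw1 (M' * p) A p h.dvd⟩) = 0)
    {ℓ : ℕ} (hℓ : ℓ.Prime) (hℓN : ¬ ℓ ∣ M' * p)
    (x : Additive (Kum Kbar (FN (M' * p)) p)) (a : ZMod p)
    (hTx : kumTl (M' * p) p hℓ hℓN x = a • x) (ha : a ≠ ((ℓ : ℕ) : ZMod p) + 1)
    (hprop : ∃ c : ZMod p, ∀ s, trop1FN (q := p) (M' * p) A P x s = c *
      ((ordRed (redDataBar (M' * p) A) (Fermat.Agent.GS.F.unram_redDataBar (M' * p) A) (P s)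
        (etaQ (M' * p) p h.dvd) : ℤ) : ZMod p)) :
    ∀ s, trop1FN (q := p) (M' * p) A P x s = 0 := by
  haveI : NeZero ℓ := ⟨hℓ.ne_zero⟩
  have hℓM : ¬ ℓ ∣ M' := fun hdvd => hℓN (Dvd.dvd.mul_right hdvd p)
  have h0 := trop1FN_eq_zero_of_eigen (M' * p) A h P hA hp2 (Fermat.Agent.GS.Fib.ff2 H) hℓ hℓN
    (fun f Tf hf hT hdv => Fermat.Agent.GF.Eis.BadLevel.hL1_mul hpM' (fun e2 => absurd e2 hp2)
      h3 hA hℓ hℓM (p : ℤ) f Tf hf hT hdv)
    (Fermat.Agent.GF.Eis.Final.hoff_of_frameFacts M' A h FF) hd x a hTx ha hprop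
  intro s
  rw [h0]
  rfl

end Fermat.Agent.GF.Eis.EisFrame
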