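/-
GATE-F (S44) / node GF-EIS, (L-d) downstairs, file 1 (helper77): **the order of `f(t)` at a place**.

`v : Place k F`, `t : F`, `a : k` with `0 < ord_v (t - a)`, `f ∈ k[X]`, `f ≠ 0`.  Then

  `ord_v f(t) = mult_a(f) · ord_v (t - a)`.

Mathlib + `S24_helper38/OrdBasic` only.
-/
import Mathlib
import Fermat.Agent.S24_helper38.OrdBasic

set_option autoImplicit false

namespace Fermat.Agent.GF.Eis.PlacePoly

open AlgebraicCurve Polynomial Fermat.Agent.S24_helper38

variable {k F : Type*} [Field k] [Field F] [Algebra k F] (v : Place k F)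

/-- polynomials in an element of the valuation ring stay in the valuation ring -/
theorem aeval_mem {t : F} (ht : 0 ≤ v.ord t) (g : k[X]) : 0 ≤ v.ord (aeval t g) := by
  rw [← mem_iff_ord_nonneg]
  have htm : t ∈ v.toValuationSubring := (mem_iff_ord_nonneg v).2 ht
  induction g using Polynomial.induction_on' with
  | add p q hp hq =>
    rw [map_add]
    exact add_mem hp hq
  | monomial n c =>
    rw [aeval_monomial]
    exact mul_mem (v.algebraMap_mem' c) (pow_mem htm n)

/-- a polynomial not vanishing at `a` is a unit at every zero of `t - a` -/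
theorem ord_aeval_eq_zero {t : F} {a : k} (hta : 0 < v.ord (t - algebraMap k F a))
    {g : k[X]} (hg : g.eval a ≠ 0) : aeval t g ≠ 0 ∧ v.ord (aeval t g) = 0 := by
  have hdvd : (X - C a) ∣ g - C (g.eval a) := by
    rw [dvd_iff_isRoot]
    simp
  obtain ⟨g₁, hg₁⟩ := hdvd
  have hgeq : g = (X - C a) * g₁ + C (g.eval a) := by rw [← hg₁]; ring
  have hev : aeval t g = (t - algebraMap k F a) * aeval t g₁ + algebraMap k F (g.eval a) := by
    conv_lhs => rw [hgeq]
    simp [aeval_C]
  have ht0 : 0 ≤ v.ord t := by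
    rw [← mem_iff_ord_nonneg]
    have h1 : t - algebraMap k F a ∈ v.toValuationSubring :=
      (mem_iff_ord_nonneg v).2 hta.le
    have := add_mem h1 (v.algebraMap_mem' a)
    simpa using this
  have hc0 : algebraMap k F (g.eval a) ≠ 0 := by
    rw [Ne, map_eq_zero_iff _ (algebraMap k F).injective]
    exact hg
  have hc : v.ord (algebraMap k F (g.eval a)) = 0 := by
    have h1 : 0 ≤ v.ord (algebraMap k F (g.eval a)) :=
      (mem_iff_ord_nonneg v).1 (v.algebraMap_mem' _)
    have h2 : 0 ≤ v.ord (algebraMap k F (g.eval a))⁻¹ := by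
      rw [← map_inv₀]
      exact (mem_iff_ord_nonneg v).1 (v.algebraMap_mem' _)
    rw [v.ord_inv] at h2
    omega
  rw [hev]
  refine ord_add_eq_zero v ?_ hc0 hc
  by_cases h0 : (t - algebraMap k F a) * aeval t g₁ = 0
  · exact Or.inl h0
  · right
    have hne1 : t - algebraMap k F a ≠ 0 := left_ne_zero_of_mul h0
    have hne2 : aeval t g₁ ≠ 0 := right_ne_zero_of_mul h0
    rw [v.ord_mul hne1 hne2]
    have := aeval_mem v ht0 g₁
    omega

/-- **`ord_v f(t) = mult_a(f) · ord_v (t - a)`** at a zero of `t - a`. -/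
theorem ord_aeval_eq_rootMultiplicity_mul {t : F} {a : k}
    (hta : 0 < v.ord (t - algebraMap k F a)) {f : k[X]} (hf : f ≠ 0) :
    v.ord (aeval t f) = (f.rootMultiplicity a : ℤ) * v.ord (t - algebraMap k F a) := by
  obtain ⟨g, hfg, hg⟩ := exists_eq_pow_rootMultiplicity_mul_and_not_dvd f hf a
  have hga : g.eval a ≠ 0 := by
    intro h0
    exact hg ((dvd_iff_isRoot).2 h0)
  obtain ⟨hne, h0⟩ := ord_aeval_eq_zero v hta hga
  have hne1 : t - algebraMap k F a ≠ 0 := by
    rintro h
    rw [h, v.ord_zero] at hta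
    exact lt_irrefl _ hta
  have hev : aeval t f = (t - algebraMap k F a) ^ (f.rootMultiplicity a) * aeval t g := by
    conv_lhs => rw [hfg]
    simp
  rw [hev, v.ord_mul (pow_ne_zero _ hne1) hne, ord_pow, h0, add_zero]

end Fermat.Agent.GF.Eis.PlacePoly
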