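/-
GATE-F (S44) / node GF-EIS, (L-d) downstairs, file 2 (helper77): **the order of `red₁ (Δ(z)/Δ(pz))` at
the node branches is prime to `p`** (`5 ≤ p`, ANY level `N`, `p ∥ N`, elliptic points included).

helper65's supersingular nodal frame (`GF/Eis/NodesSS.exists_nodalHyp_ss`: `FrameFacts`, `NodalHyp`,
(d), (e)) is re-built here with two more clauses on `G := red₁ (Δ(z)/Δ(pz)) = pH(j~)`:

* (f) `∀ s, ¬ (p : ℤ) ∣ ord_{P s} G`;
* (g) `∀ s, ord_{P s} G ≤ 12`.

Proof of (f): `ord_{P s} G = μ · e`, `μ := mult_a pH`, `e := ord_{P s} (j~ - a)`, `a := j~(P s)`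
(`PlacePoly.ord_aeval_eq_rootMultiplicity_mul`);  `4 ≤ μ` (`GL/Thick/SsPolyMult`: a root `a ≠ 0` has
multiplicity `≥ 6`, the root `0` has multiplicity `≥ 4`), `μ ≤ deg pH = p - 1`, and `μ e ≤ 12`
(`GL/Thick/EtaSharp.ssPolyAll_notMem_pow_succ`).  If `p ∣ μ e` then `p ∣ e`, `e ≥ 5`, `μ e ≥ 20`.

Consequence for `F2Hyp` (helper34 `GF/F2Asm/TropZero`): with `E s := κ₀ · (etaTrop s)⁻¹` the middle
clause `∀ s, E s * etaTrop s = κ₀` holds (`exists_mul_eq_of_not_dvd`).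
-/
import Fermat.Agent.GF.Eis.NodesSS
import Fermat.Agent.GF.Eis.PlacePoly
import Fermat.Agent.GL.Thick.EtaSharp
import Fermat.Agent.GL.Thick.SsPolyMult

set_option autoImplicit false
set_option linter.unusedSectionVars false
set_option linter.style.haveILetI false

noncomputable section

namespace Fermat.Agent.GF.Eis.NodesOrd

open AlgebraicCurve IntermediateField Module IsLocalRing ModularCurve Polynomial
open Fermat.Agent.S24 Fermat.Agent.S24_helper62 Fermat.Agent.RRh45 Fermat.Agent.RR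
open Fermat.Agent.GJ.J1 Fermat.Agent.GJ.J1.Val Fermat.Agent.GJ.J1.InstGen
open Fermat.Agent.GJ.J1.PlaceLattice
open Fermat.Agent.GK.AL Fermat.Agent.GK.MultiVal
open Fermat.Agent.GK.CuspSep Fermat.Agent.GK.SymChart Fermat.Agent.GK.SymDegree
open Fermat.Agent.GK.BallTwo Fermat.Agent.GK.Val.TwoVal Fermat.Agent.GK.PsiFN
open Fermat.Agent.GK.FrobGlue Fermat.Agent.GK.NodalBridge Fermat.Agent.GK.NodalGraded
open Fermat.Agent.GK.NodalPole
open Fermat.Agent.GK.SS.Modular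
open Fermat.Agent.GS.Nodal.Inst Fermat.Agent.GS.Nodal.LSR2
open Fermat.Agent.GF.Eis.NodesCentred Fermat.Agent.GF.Eis.NodesFrame Fermat.Agent.GF.Eis.NodesSS
open Fermat.Agent.GK.QS Fermat.Agent.GK.PsiFNGood
open Fermat.Agent.GL.Eta Fermat.Agent.GL.SmallQ Fermat.Agent.GL.Thick Fermat.Agent.S28

/-! ### arithmetic -/

/-- `4 ≤ μ ≤ p - 1`, `1 ≤ e`, `μ e ≤ 12`, `p` prime ⟹ `p ∤ μ e` -/
theorem not_dvd_mul_of_le {p μ e : ℕ} (hp : p.Prime) (hμ4 : 4 ≤ μ) (hμp : μ ≤ p - 1)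
    (hle : μ * e ≤ 12) : ¬ p ∣ μ * e ∨ e = 0 := by
  by_cases he : e = 0
  · exact Or.inr he
  left
  intro hdvd
  have hp2 := hp.two_le
  rcases (Nat.Prime.dvd_mul hp).1 hdvd with h | h
  · have := Nat.le_of_dvd (by omega) h
    omega
  · have hpe := Nat.le_of_dvd (Nat.pos_of_ne_zero he) h
    have h5 : 5 ≤ p := by omega
    have : 4 * 5 ≤ μ * e := Nat.mul_le_mul hμ4 (by omega)
    omega

/-- root multiplicity is at most the degree -/
theorem rootMultiplicity_le_natDegree' {K : Type*} [Field K] {f : K[X]} (hf : f ≠ 0) (a : K) :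
    f.rootMultiplicity a ≤ f.natDegree := by
  have hd := pow_rootMultiplicity_dvd f a
  have h1 := natDegree_le_of_dvd hd hf
  rwa [natDegree_pow, natDegree_X_sub_C, mul_one] at h1

/-! ### generic: the order at a centred place is bounded by the ideal-adic order -/

section Generic

variable {k F : Type*} [Field k] [Field F] [Algebra k F]
variable {C : Type*} [CommRing C] [Algebra k C] [Algebra C F] [IsScalarTower k C F]
variable [IsDedekindDomain C] [IsFractionRing C F]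

open IsDedekindDomain IsDedekindDomain.HeightOneSpectrum WithZero in
/-- `x ∉ m ^ (n + 1)` ⟹ `ord_v x ≤ n` at the place `v` centred at `m` -/
theorem ord_le_of_notMem_pow {v : Place k F} {m : Ideal C} (hcen : CentredAt v m) {x : C} {n : ℕ}
    (hx : x ∉ m ^ (n + 1)) : v.ord (algebraMap C F x) ≤ n := by
  have hB : Fermat.Agent.S24_helper6.ContainsB C v := hcen.mem
  have e1 : Fermat.Agent.S24_helper6.centre v hB = m := (centredAt_centre v hB).eq hcen
  have hx0 : x ≠ 0 := by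
    rintro rfl
    exact hx (zero_mem _)
  have hne : (Fermat.Agent.S24_helper6.primeOfPlace v hB).intValuation x ≠ 0 :=
    (Fermat.Agent.S24_helper6.primeOfPlace v hB).intValuation_ne_zero x hx0
  rw [Fermat.Agent.S24_helper6.ord_eq_of_containsB v hB, valuation_of_algebraMap]
  by_contra hlt
  rw [not_le] at hlt
  apply hx
  rw [← e1, ← Fermat.Agent.S24_helper6.primeOfPlace_asIdeal v hB,
    ← intValuation_le_pow_iff_mem, ← log_le_iff_le_exp hne]
  push_cast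
  omega

end Generic

attribute [local instance] finiteResidues_FN hasPrincipalDivisors_FN nonempty_place_FN
  isAlgClosed_res finiteResidues_Fres hasPrincipalDivisors_Fres nonempty_place_Fres

section Level

variable (N' : ℕ) [NeZero N'] (ℓ : ℕ) [Fact ℓ.Prime] [NeZero ℓ]
variable (A : ValuationSubring Kbar) (h : ExactDvd ℓ (N' * ℓ)) (hA : A.LiesOverPrime ℓ)

include hA in
set_option synthInstance.maxHeartbeats 400000 in
set_option maxHeartbeats 1600000 in
/-- **the supersingular nodal frame at level `N' ℓ`, `ℓ ∤ N'`, `5 ≤ ℓ`, `A | ℓ`**, with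
(d) (e) of helper65 and (f) `ℓ ∤ ord_{P s} G`, (g) `ord_{P s} G ≤ 12`, `G = red₁ (Δ(z)/Δ(ℓz))`. -/
theorem exists_nodalHyp_ss_mul_f (hℓN : ¬ ℓ ∣ N') (hℓ5 : 5 ≤ ℓ) :
    ∃ (ι : Type) (_ : Fintype ι) (P Q : ι → Place (ResidueField A) (FresBar (N' * ℓ) A))
      (c : ℤ) (n₀ : ℕ), FrameFacts (N' * ℓ) A h P Q ∧
        NodalHyp (redCompatFN (N' * ℓ) A h) P Q (CS (N' * ℓ) h) (Dτ (N' * ℓ) A ℓ)
          (Dτ (N' * ℓ) A ℓ) (genusRR Kbar (FN (N' * ℓ))) c n₀ ∧
        (∀ Q' : Place (ResidueField A) (FresBar (N' * ℓ) A), 0 ≤ Q'.ord (tauF (N' * ℓ) A) →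
          (∀ s, Q' ≠ P s) →
          Q'.ord ((redDataBar (N' * ℓ) A).red
            ⟨etaQ (N' * ℓ) ℓ h.dvd, etaQ_mem_Rw1 (N' * ℓ) A ℓ h.dvd⟩) = 0) ∧
        (∀ s, 0 < (P s).ord ((redDataBar (N' * ℓ) A).red
            ⟨etaQ (N' * ℓ) ℓ h.dvd, etaQ_mem_Rw1 (N' * ℓ) A ℓ h.dvd⟩)) ∧
        (∀ s, ¬ (ℓ : ℤ) ∣ (P s).ord ((redDataBar (N' * ℓ) A).red
            ⟨etaQ (N' * ℓ) ℓ h.dvd, etaQ_mem_Rw1 (N' * ℓ) A ℓ h.dvd⟩)) ∧
        (∀ s, (P s).ord ((redDataBar (N' * ℓ) A).red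
            ⟨etaQ (N' * ℓ) ℓ h.dvd, etaQ_mem_Rw1 (N' * ℓ) A ℓ h.dvd⟩) ≤ 12) := by
  have h2 : ℓ = 2 → 3 ∣ N' := fun e => by omega
  have h3 : ℓ = 3 → 2 ∣ N' := fun e => by omega
  obtain ⟨hDed, hCf, hrange⟩ := fibreFacts N' ℓ A h hA hℓN h2 h3
  obtain ⟨J', hfix, hBT⟩ := exists_ideal_BT N' ℓ A h hℓN hA h2 h3
  obtain ⟨mα, hα⟩ := Fermat.Agent.GK.OldLiftsFN.exists_alpha_lifts_FN (N' * ℓ) A h hA
    (fun e => Dvd.dvd.mul_right (h2 e) ℓ) (fun e => Dvd.dvd.mul_right (h3 e) ℓ)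
  obtain ⟨mβ, hβ⟩ := Fermat.Agent.GK.OldLiftsFN.exists_beta_lifts_FN (N' * ℓ) A h hA
    (fun e => Dvd.dvd.mul_right (h2 e) ℓ) (fun e => Dvd.dvd.mul_right (h3 e) ℓ)
  letI : Algebra (CRing N' A) (FresBar (N' * ℓ) A) := (iC N' ℓ A h hA).toRingHom.toAlgebra
  haveI : IsScalarTower (ResidueField A) (CRing N' A) (FresBar (N' * ℓ) A) :=
    IsScalarTower.of_algebraMap_eq fun c => ((iC N' ℓ A h hA).commutes c).symm
  obtain ⟨hι, P, Q, FF, hP, hQ⟩ :=
    exists_frameFacts_fibre_centred (N' * ℓ) A h hA hCf (iC_injective N' ℓ A h hA)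
      (fun z hz => mem_range_iC N' ℓ A h hA hz)
      (psiC N' ℓ A hℓN hA) (exists_pow_eq_psiC N' ℓ A hℓN hA) (iC_psiC N' ℓ A h hA hℓN)
      J' hfix (hB_of_range N' ℓ A h hA hℓN hBT hrange) (hBsurj_of_BT N' ℓ A h hA hℓN hBT)
      mα mβ hα hβ
  obtain ⟨c, n₀, H⟩ := nodalHyp_of_frameFacts (N' * ℓ) A h hA FF
  -- the fraction field
  haveI hfr0 : IsFractionRing (CRing N' A) (FresBar N' A) := isFractionRing_CRing N' A
  let e : FresBar N' A ≃ₐ[CRing N' A] FresBar (N' * ℓ) A :=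
    AlgEquiv.ofRingEquiv (f := (goodEquiv A hA N' h).toRingEquiv) (fun _ => rfl)
  haveI hfr : IsFractionRing (CRing N' A) (FresBar (N' * ℓ) A) :=
    IsLocalization.isLocalization_of_algEquiv (nonZeroDivisors (CRing N' A)) e
  haveI hgenk : IsGen (ResidueField A) (tauF (N' * ℓ) A) := isGen_tauF (N' * ℓ) A
  have hG := red_etaQ_eq_iC N' ℓ A h hA hℓN
  have hG0 : (redDataBar (N' * ℓ) A).red
      ⟨etaQ (N' * ℓ) ℓ h.dvd, etaQ_mem_Rw1 (N' * ℓ) A ℓ h.dvd⟩ ≠ 0 := by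
    intro h0
    have h1 : ((redDataBar (N' * ℓ) A).red
      ⟨etaQ (N' * ℓ) ℓ h.dvd, etaQ_mem_Rw1 (N' * ℓ) A ℓ h.dvd⟩ : LaurentSeries (ResidueField A)) =
        0 := by rw [h0]; rfl
    rw [coe_red1_etaQ] at h1
    exact right_ne_zero_of_mul_eq_one (uS_mul_uInvS (ResidueField A) ℓ) h1
  -- (e), (g) at every node
  have hE : ∀ s : ↥(nodes J'), 0 < (P s).ord ((redDataBar (N' * ℓ) A).red
      ⟨etaQ (N' * ℓ) ℓ h.dvd, etaQ_mem_Rw1 (N' * ℓ) A ℓ h.dvd⟩) := by
    intro s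
    have hmem : aeval (jtC N' A)
        (@ssPolyAll ℓ _ (ResidueField A) _ (charP_residue A Fact.out hA)) ∈ s.1 :=
      s.2.2 (Fermat.Agent.GL.SmallQ.ssPolyAll_mem_ideal hℓN hA hBT)
    rw [(hP s).mem_iff, mem_ordGE] at hmem
    rcases hmem with h0 | h1
    · exact absurd (hG.trans h0) hG0
    · rw [hG]
      exact lt_of_lt_of_le one_pos h1
  have hGle : ∀ s : ↥(nodes J'), (P s).ord ((redDataBar (N' * ℓ) A).red
      ⟨etaQ (N' * ℓ) ℓ h.dvd, etaQ_mem_Rw1 (N' * ℓ) A ℓ h.dvd⟩) ≤ 12 := by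
    intro s
    have hnot := Fermat.Agent.GL.Thick.ssPolyAll_notMem_pow_succ hℓN hA hfix hBT s.1 s.2.1
    rw [hG]
    exact_mod_cast ord_le_of_notMem_pow (hP s) (n := 12) hnot
  refine ⟨↥(nodes J'), hι, P, Q, c, n₀, FF, H, ?_, hE, ?_, hGle⟩
  · intro Q' hτ hne
    have hB : Fermat.Agent.S24_helper6.ContainsB (CRing N' A) Q' := fun c => by
      rw [← ord_nonneg_iff_mem]
      exact (regFin_iff_ord (tauF (N' * ℓ) A) (tauF (N' * ℓ) A) _).1
        (regFin_iC N' ℓ A h hA c) Q' hτ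
    have hmprime : (Fermat.Agent.S24_helper6.centre Q' hB).IsPrime := inferInstance
    have hm0 : Fermat.Agent.S24_helper6.centre Q' hB ≠ ⊥ :=
      Fermat.Agent.S24_helper6.centre_ne_bot Q' hB
    have hmmax : (Fermat.Agent.S24_helper6.centre Q' hB).IsMaximal := hmprime.isMaximal hm0
    have hcen : CentredAt Q' (Fermat.Agent.S24_helper6.centre Q' hB) := centredAt_centre Q' hB
    by_contra hne0
    rw [hG] at hne0
    have hge : 0 ≤ Q'.ord (iC N' ℓ A h hA (aeval (jtC N' A)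
        (@ssPolyAll ℓ _ (ResidueField A) _ (charP_residue A Fact.out hA)))) :=
      hcen.ord_nonneg _
    have hmem : aeval (jtC N' A)
        (@ssPolyAll ℓ _ (ResidueField A) _ (charP_residue A Fact.out hA)) ∈
          Fermat.Agent.S24_helper6.centre Q' hB := by
      rw [hcen.mem_iff, mem_ordGE]
      right
      have : Q'.ord (algebraMap (CRing N' A) (FresBar (N' * ℓ) A) (aeval (jtC N' A)
        (@ssPolyAll ℓ _ (ResidueField A) _ (charP_residue A Fact.out hA)))) ≠ 0 := hne0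
      have h0 : 0 ≤ Q'.ord (algebraMap (CRing N' A) (FresBar (N' * ℓ) A) (aeval (jtC N' A)
        (@ssPolyAll ℓ _ (ResidueField A) _ (charP_residue A Fact.out hA)))) := hge
      omega
    have hle : J' ≤ Fermat.Agent.S24_helper6.centre Q' hB :=
      (Fermat.Agent.GL.Thick.le_prime_iff_ssPolyAll_mem hℓN hA hBT _).2 hmem
    have hnode : Fermat.Agent.S24_helper6.centre Q' hB ∈ nodes J' := ⟨hmmax, hle⟩
    exact hne ⟨_, hnode⟩ (eq_of_centredAt hcen (hP ⟨_, hnode⟩))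
  · -- (f)
    intro s
    have hcharp : CharP (ResidueField A) ℓ := charP_residue A Fact.out hA
    have hpos := hE s
    have hle := hGle s
    obtain ⟨a, ha⟩ := (hP s).exists_value (tauF (N' * ℓ) A) (jtC N' A)
    set t : FresBar (N' * ℓ) A := algebraMap (CRing N' A) (FresBar (N' * ℓ) A) (jtC N' A) with ht
    have hGt : (redDataBar (N' * ℓ) A).red
        ⟨etaQ (N' * ℓ) ℓ h.dvd, etaQ_mem_Rw1 (N' * ℓ) A ℓ h.dvd⟩ =
          aeval t (ssPoly ℓ (ResidueField A) hℓ5) := by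
      rw [hG, ssPolyAll_of_le ℓ (ResidueField A) hℓ5]
      exact (Polynomial.aeval_algHom_apply (iC N' ℓ A h hA) (jtC N' A) _).symm
    have hsub : algebraMap (CRing N' A) (FresBar (N' * ℓ) A)
        (jtC N' A - algebraMap (ResidueField A) (CRing N' A) a) =
          t - algebraMap (ResidueField A) (FresBar (N' * ℓ) A) a := by
      rw [map_sub, ← IsScalarTower.algebraMap_apply]
    rw [(hP s).mem_iff, mem_ordGE, hsub] at ha
    rw [hGt] at hpos hle ⊢
    rcases ha with h0 | h1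
    · -- `t` constant: impossible, `G` would be a constant
      exfalso
      have ht' : t = algebraMap (ResidueField A) (FresBar (N' * ℓ) A) a := sub_eq_zero.1 h0
      rw [ht', aeval_algebraMap_apply] at hpos
      have hc0 : 0 ≤ (P s).ord (algebraMap (ResidueField A) (FresBar (N' * ℓ) A)
          (aeval a (ssPoly ℓ (ResidueField A) hℓ5)))⁻¹ := by
        rw [← map_inv₀, ord_nonneg_iff_mem]
        exact (P s).algebraMap_mem' _
      rw [(P s).ord_inv] at hc0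
      omega
    · have hta : 0 < (P s).ord (t - algebraMap (ResidueField A) (FresBar (N' * ℓ) A) a) := by
        omega
      have hmul := Fermat.Agent.GF.Eis.PlacePoly.ord_aeval_eq_rootMultiplicity_mul (P s) hta
        (Fermat.Agent.GL.Thick.ssPoly_ne_zero ℓ (ResidueField A) hℓ5)
      rw [hmul] at hpos hle ⊢
      obtain ⟨e, he⟩ := Int.eq_ofNat_of_zero_le hta.le
      rw [he] at hpos hle ⊢
      set μ := (ssPoly ℓ (ResidueField A) hℓ5).rootMultiplicity a with hμ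
      have hμpos : 0 < μ := by
        rcases Nat.eq_zero_or_pos μ with h0 | h0
        · rw [h0] at hpos
          simp at hpos
        · exact h0
      have hroot : (ssPoly ℓ (ResidueField A) hℓ5).IsRoot a :=
        (rootMultiplicity_pos (Fermat.Agent.GL.Thick.ssPoly_ne_zero ℓ (ResidueField A) hℓ5)).1 hμpos
      have hμ4 : 4 ≤ μ := by
        by_cases ha0 : a = 0
        · subst ha0
          exact Fermat.Agent.GL.Thick.SsPolyMult.four_le_rootMultiplicity_zero_of_isRoot ℓ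
            (ResidueField A) hℓ5 hroot
        · have := Fermat.Agent.GL.Thick.SsPolyMult.six_le_rootMultiplicity ℓ
            (ResidueField A) hℓ5 ha0 hroot
          omega
      have hμp : μ ≤ ℓ - 1 := by
        have := rootMultiplicity_le_natDegree' (Fermat.Agent.GL.Thick.ssPoly_ne_zero ℓ (ResidueField A) hℓ5) a
        rwa [Fermat.Agent.GL.Thick.natDegree_ssPoly] at this
      have hle' : μ * e ≤ 12 := by exact_mod_cast hle
      have hep : e ≠ 0 := by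
        rintro rfl
        rw [he] at hta
        simp at hta
      rcases not_dvd_mul_of_le (Fact.out : ℓ.Prime) hμ4 hμp hle' with hnd | he0
      · intro hd
        apply hnd
        exact_mod_cast hd
      · exact absurd he0 hep

end Level

/-- **(E4+) the supersingular nodal frame at level `N`, `p ∥ N`, `5 ≤ p`, `A | p`**: helper65's
`NodesSS.exists_nodalHyp_ss` (frame, `FrameFacts`, `NodalHyp`, (d), (e)) together with
(f) `p ∤ ord_{P s} red₁ (Δ(z)/Δ(pz))` and (g) `ord_{P s} red₁ (Δ(z)/Δ(pz)) ≤ 12`. -/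
theorem exists_nodalHyp_ss_f (N : ℕ) [NeZero N] (p : ℕ) [NeZero p]
    (A : ValuationSubring Kbar) (h : ExactDvd p N) (hA : A.LiesOverPrime p) (hp5 : 5 ≤ p) :
    ∃ (ι : Type) (_ : Fintype ι) (P Q : ι → Place (ResidueField A) (FresBar N A))
      (c : ℤ) (n₀ : ℕ), FrameFacts N A h P Q ∧
        NodalHyp (redCompatFN N A h) P Q (CS N h) (Dτ N A p) (Dτ N A p)
          (genusRR Kbar (FN N)) c n₀ ∧
        (∀ Q' : Place (ResidueField A) (FresBar N A), 0 ≤ Q'.ord (tauF N A) →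
          (∀ s, Q' ≠ P s) →
          Q'.ord ((redDataBar N A).red ⟨etaQ N p h.dvd, etaQ_mem_Rw1 N A p h.dvd⟩) = 0) ∧
        (∀ s, 0 < (P s).ord ((redDataBar N A).red ⟨etaQ N p h.dvd, etaQ_mem_Rw1 N A p h.dvd⟩)) ∧
        (∀ s, ¬ (p : ℤ) ∣
          (P s).ord ((redDataBar N A).red ⟨etaQ N p h.dvd, etaQ_mem_Rw1 N A p h.dvd⟩)) ∧
        (∀ s, (P s).ord ((redDataBar N A).red ⟨etaQ N p h.dvd, etaQ_mem_Rw1 N A p h.dvd⟩) ≤ 12) := by
  obtain ⟨N', hN'⟩ : ∃ N', N = N' * p := by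
    obtain ⟨m, hm⟩ := h.dvd
    exact ⟨m, by rw [hm, mul_comm]⟩
  subst hN'
  haveI : NeZero N' := ⟨fun h0 => NeZero.ne (N' * p) (by rw [h0, zero_mul])⟩
  haveI : Fact p.Prime := ⟨h.prime⟩
  have hpN : ¬ p ∣ N' := by
    rintro ⟨m, hm⟩
    apply h.not_sq
    exact ⟨m, by rw [hm]; ring⟩
  exact exists_nodalHyp_ss_mul_f N' p A h hA hpN hp5

/-- with (f), ANY constant `κ₀` is of the form `E s * ord_s` in `ZMod p`: the middle clause of
helper34's `F2Hyp` for `E s := κ₀ · (ord_s)⁻¹`. -/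
theorem exists_mul_eq_of_not_dvd {p : ℕ} [Fact p.Prime] {ι : Type*} (n : ι → ℤ)
    (hn : ∀ s, ¬ (p : ℤ) ∣ n s) (κ₀ : ZMod p) :
    ∃ E : ι → ZMod p, ∀ s, E s * ((n s : ℤ) : ZMod p) = κ₀ := by
  refine ⟨fun s => κ₀ * ((n s : ℤ) : ZMod p)⁻¹, fun s => ?_⟩
  have h0 : ((n s : ℤ) : ZMod p) ≠ 0 := by
    rw [Ne, ZMod.intCast_zmod_eq_zero_iff_dvd]
    exact hn s
  rw [mul_assoc, inv_mul_cancel₀ h0, mul_one]

end Fermat.Agent.GF.Eis.NodesOrd
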