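/-
GATE-F (S44) / node GF-EIS, (L-d) downstairs, file 3 (helper77): helper61's frame clause
`Provider44D.clauseD` ((d) + (e) of helper65's E4) ENLARGED by the two clauses of
`GF/Eis/NodesOrd.exists_nodalHyp_ss_f`:

`clauseF` := `clauseD` ∧ (f) `∀ s, ¬ (p : ℤ) ∣ ord_{P s} red₁ (Δ(z)/Δ(pz))`
                       ∧ (g) `∀ s, ord_{P s} red₁ (Δ(z)/Δ(pz)) ≤ 12`.

* `frameExists_ssF : FrameExists clauseF`;
* `s44_of_tropZeroF (H : TropZeroT clauseF) : (frozen S44)`;
* `tropZeroF_of_tropZeroD : TropZeroT clauseD → TropZeroT clauseF` (a proof that does not need (f),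
  (g) still plugs in).
-/
import Mathlib
import Fermat.Agent.GF.Top.Provider44D
import Fermat.Agent.GF.Eis.NodesOrd

set_option autoImplicit false
set_option linter.unusedSectionVars false

noncomputable section

namespace Fermat.Agent.GF.Eis.ClauseF

open AlgebraicCurve IntermediateField Module IsLocalRing ModularCurve
open Fermat.Agent.S24 Fermat.Agent.S24_helper62 Fermat.Agent.RRh45 Fermat.Agent.RR
open Fermat.Agent.GJ.J1 Fermat.Agent.GJ.J1.Val Fermat.Agent.GJ.J1.InstGen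
open Fermat.Agent.GK.MultiVal Fermat.Agent.GK.BallTwo Fermat.Agent.GK.NodalGraded
open Fermat.Agent.GS.Nodal.LSR2 Fermat.Agent.GS.Nodal.Inst Fermat.Agent.GS.Nodal.ROfSurj2
open Fermat.Agent.GJ Fermat.Agent.GJ.KumGroup Fermat.Agent.GJ.Kum.KumType
open Fermat.Agent.GK.UQ Fermat.Agent.GK.New Fermat.Agent.GK.AL Fermat.Agent.GK.UqKronecker
open Fermat.Agent.GL.Eta Fermat.Agent.GK.CuspSep
open Fermat.Agent.GF.Setup.Plane Fermat.Agent.GF.Setup.S0
open Fermat.Agent.GF.Top.Provider44T Fermat.Agent.GF.Top.Provider44D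

attribute [local instance] finiteResidues_FN hasPrincipalDivisors_FN nonempty_place_FN
  isAlgClosed_res finiteResidues_Fres hasPrincipalDivisors_Fres nonempty_place_Fres

/-- **clauses (d) + (e) + (f) + (g)**: the node branches `P s` are exactly the zeros off the cusps
of `G := red₁ (Δ(z)/Δ(pz))`, and `ord_{P s} G` is prime to `p` and at most `12`. -/
def clauseF : FrameClause := fun p _ M' _ hpM' A ι _ P Q =>
  clauseD p M' hpM' A ι P Q ∧
  (∀ s, ¬ (p : ℤ) ∣ (P s).ord ((redDataBar (M' * p) A).red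
      ⟨etaQ (M' * p) p (exactDvd hpM').dvd, etaQ_mem_Rw1 (M' * p) A p (exactDvd hpM').dvd⟩)) ∧
  (∀ s, (P s).ord ((redDataBar (M' * p) A).red
      ⟨etaQ (M' * p) p (exactDvd hpM').dvd, etaQ_mem_Rw1 (M' * p) A p (exactDvd hpM').dvd⟩) ≤ 12)

theorem frameExists_ssF : FrameExists clauseF := by
  intro p _ hp5 M' _ hpM' A hA
  have : NeZero p := ⟨(Fact.out : p.Prime).ne_zero⟩
  obtain ⟨ι, i, P, Q, c, n₀, FF, NH, hd, he, hf, hg⟩ :=
    Fermat.Agent.GF.Eis.NodesOrd.exists_nodalHyp_ss_f (M' * p) p A (exactDvd hpM') hA hp5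
  exact ⟨ι, i, P, Q, c, n₀, FF, NH, ⟨hd, he⟩, hf, hg⟩

/-- a proof of `trop_zero` on the `clauseD` frames is a proof on the `clauseF` frames -/
theorem tropZeroF_of_tropZeroD (H : TropZeroT clauseD) : TropZeroT clauseF := by
  intro W hΔ p _ hp5 hss hmult hpeu hirr hord M' _ hpM' hmod hnot C hC ℓ₀ hℓ₀ hℓ₀S hne A hA hAp
    ι _ P Q c n₀ FF NH hcl
  exact H W hΔ p hp5 hss hmult hpeu hirr hord M' hpM' hmod hnot C hC ℓ₀ hℓ₀ hℓ₀S hne A hA hAp
    ι P Q c n₀ FF NH hcl.1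

/-- **Frozen S44 from `trop_zero` on the supersingular nodal frames with (d) (e) (f) (g).** -/
theorem s44_of_tropZeroF (H : TropZeroT clauseF) (P : FreyPackage) {N : ℕ}
    (hcond : P.IsConductorLevel N) (hpN : P.p ∣ N)
    (hirr : WeierstrassCurve.Affine.Point.GaloisRepIsIrreducible (K := AlgebraicClosure ℚ) ℚ
      P.freyCurve P.p)
    (hmod : P.ModularRepOfLevel N) :
    ∃ M : ℕ, M ∣ N ∧ ¬ P.p ∣ M ∧ P.ModularRepOfLevel M :=
  s44_of_tropZeroT clauseF frameExists_ssF H P hcond hpN hirr hmod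

end Fermat.Agent.GF.Eis.ClauseF
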