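/-
GATE-F / (L-d) DOWNSTAIRS, part 2 (helper65): clause (f) of helper77's `GF/Eis/NodesOrd`
FRAME-INDEPENDENTLY: at EVERY zero `Q` off the cusps of `G = red₁ (Δ(z)/Δ(pz))` (level `N`, `p ∥ N`,
`5 ≤ p`, `A | p`, elliptic points included) **`p ∤ ord_Q G`** (and `ord_Q G ≤ 12`).

Same proof as `NodesOrd.exists_nodalHyp_ss_mul_f` (helper77): `G = pH(τ)`, `τ = j~`,
`ord_Q G = μ_a · ord_Q (τ - a)` (`PlacePoly`), `4 ≤ μ_a ≤ p - 1` (`GL/Thick/SsPolyMult`),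
`ord_Q G ≤ 12` (`EtaOrd.ord_red_etaQ_le_mul`, any place off the cusps).

Consequence: `clauseD_f` — on ANY nodal frame satisfying `Provider44D.clauseD` (clauses (d), (e)) and
`FrameFacts`, clause (f) holds; so the context of `Integrate2.SupplyF2` already contains `hN0`.
-/
import Fermat.Agent.GF.Eis.EtaOrd
import Fermat.Agent.GF.Eis.NodesOrd
import Fermat.Agent.GF.Eis.Final
import Fermat.Agent.GF.Top.Provider44D

set_option autoImplicit false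
set_option linter.unusedSectionVars false
set_option linter.style.haveILetI false

noncomputable section

namespace Fermat.Agent.GF.Eis.EtaOrdF

open AlgebraicCurve IntermediateField Module IsLocalRing ModularCurve Polynomial
open Fermat.Agent.S24 Fermat.Agent.S24_helper62 Fermat.Agent.RRh45 Fermat.Agent.RR
open Fermat.Agent.GJ.J1 Fermat.Agent.GJ.J1.Val Fermat.Agent.GJ.J1.InstGen
open Fermat.Agent.GJ.J1.PlaceLattice
open Fermat.Agent.GK.AL Fermat.Agent.GK.MultiVal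
open Fermat.Agent.GK.CuspSep Fermat.Agent.GK.SymChart Fermat.Agent.GK.SymDegree
open Fermat.Agent.GK.BallTwo Fermat.Agent.GK.Val.TwoVal Fermat.Agent.GK.PsiFN
open Fermat.Agent.GK.FrobGlue Fermat.Agent.GK.NodalBridge Fermat.Agent.GK.NodalGraded
open Fermat.Agent.GK.NodalPole
open Fermat.Agent.GK.SS.Modular
open Fermat.Agent.GS.Nodal.Inst Fermat.Agent.GS.Nodal.LSR2
open Fermat.Agent.GF.Eis.NodesCentred Fermat.Agent.GF.Eis.NodesFrame Fermat.Agent.GF.Eis.NodesSS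
open Fermat.Agent.GF.Eis.EtaOrd Fermat.Agent.GF.Eis.NodesOrd
open Fermat.Agent.GK.QS Fermat.Agent.GK.PsiFNGood
open Fermat.Agent.GL.Eta Fermat.Agent.GL.SmallQ Fermat.Agent.GL.Thick Fermat.Agent.S28

attribute [local instance] finiteResidues_FN hasPrincipalDivisors_FN nonempty_place_FN
  isAlgClosed_res finiteResidues_Fres hasPrincipalDivisors_Fres nonempty_place_Fres

section Level

variable (N' : ℕ) [NeZero N'] (ℓ : ℕ) [Fact ℓ.Prime] [NeZero ℓ]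
variable (A : ValuationSubring Kbar) (h : ExactDvd ℓ (N' * ℓ)) (hA : A.LiesOverPrime ℓ)

/-- `j~`, transported to level `N' ℓ`, is `τ` -/
theorem iC_jtC : iC N' ℓ A h hA (jtC N' A) = tauF (N' * ℓ) A := by
  rw [iC_apply]
  exact goodEquiv_jt A hA N' h

/-- **`red₁ (Δ(z)/Δ(ℓz)) = pH(τ)`** for `5 ≤ ℓ` -/
theorem red_etaQ_eq_aeval_tauF (hℓN : ¬ ℓ ∣ N') (hℓ5 : 5 ≤ ℓ) :
    (redDataBar (N' * ℓ) A).red ⟨etaQ (N' * ℓ) ℓ h.dvd, etaQ_mem_Rw1 (N' * ℓ) A ℓ h.dvd⟩ =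
      aeval (tauF (N' * ℓ) A)
        (@ssPoly ℓ _ (ResidueField A) _ (charP_residue A Fact.out hA) hℓ5) := by
  have hcharp : CharP (ResidueField A) ℓ := charP_residue A Fact.out hA
  rw [red_etaQ_eq_iC N' ℓ A h hA hℓN, ssPolyAll_of_le ℓ (ResidueField A) hℓ5,
    ← iC_jtC N' ℓ A h hA]
  exact (Polynomial.aeval_algHom_apply (iC N' ℓ A h hA) (jtC N' A) _).symm

include hA in
/-- **`ℓ ∤ ord_Q (red₁ (Δ(z)/Δ(ℓz)))` at every zero `Q` off the cusps** (`5 ≤ ℓ`, any level). -/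
theorem not_dvd_ord_red_etaQ_mul (hℓN : ¬ ℓ ∣ N') (hℓ5 : 5 ≤ ℓ)
    (Q' : Place (ResidueField A) (FresBar (N' * ℓ) A))
    (hτ : 0 ≤ Q'.ord (tauF (N' * ℓ) A))
    (hpos : 0 < Q'.ord ((redDataBar (N' * ℓ) A).red
      ⟨etaQ (N' * ℓ) ℓ h.dvd, etaQ_mem_Rw1 (N' * ℓ) A ℓ h.dvd⟩)) :
    ¬ (ℓ : ℤ) ∣ Q'.ord ((redDataBar (N' * ℓ) A).red
      ⟨etaQ (N' * ℓ) ℓ h.dvd, etaQ_mem_Rw1 (N' * ℓ) A ℓ h.dvd⟩) := by
  have h2 : ℓ = 2 → 3 ∣ N' := fun e => by omega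
  have h3 : ℓ = 3 → 2 ∣ N' := fun e => by omega
  have hcharp : CharP (ResidueField A) ℓ := charP_residue A Fact.out hA
  have hle := ord_red_etaQ_le_mul N' ℓ A h hA hℓN h2 h3 Q' hτ
  haveI : Module.Finite (ResidueField A) Q'.ResidueField := FiniteResidues.finite Q'
  obtain ⟨a, hta⟩ := exists_const_ord_pos Q' (transcendental_tauF (N' * ℓ) A) hτ
  rw [red_etaQ_eq_aeval_tauF N' ℓ A h hA hℓN hℓ5] at hpos hle ⊢
  have hmul := Fermat.Agent.GF.Eis.PlacePoly.ord_aeval_eq_rootMultiplicity_mul Q' hta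
    (Fermat.Agent.GL.Thick.ssPoly_ne_zero ℓ (ResidueField A) hℓ5)
  rw [hmul] at hpos hle ⊢
  obtain ⟨e, he⟩ := Int.eq_ofNat_of_zero_le hta.le
  rw [he] at hpos hle ⊢
  set μ := (ssPoly ℓ (ResidueField A) hℓ5).rootMultiplicity a with hμ
  have hμpos : 0 < μ := by
    rcases Nat.eq_zero_or_pos μ with h0 | h0
    · rw [h0] at hpos
      simp at hpos
    · exact h0
  have hroot : (ssPoly ℓ (ResidueField A) hℓ5).IsRoot a :=
    (rootMultiplicity_pos (Fermat.Agent.GL.Thick.ssPoly_ne_zero ℓ (ResidueField A) hℓ5)).1 hμpos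
  have hμ4 : 4 ≤ μ := by
    by_cases ha0 : a = 0
    · subst ha0
      exact Fermat.Agent.GL.Thick.SsPolyMult.four_le_rootMultiplicity_zero_of_isRoot ℓ
        (ResidueField A) hℓ5 hroot
    · have := Fermat.Agent.GL.Thick.SsPolyMult.six_le_rootMultiplicity ℓ
        (ResidueField A) hℓ5 ha0 hroot
      omega
  have hμp : μ ≤ ℓ - 1 := by
    have := rootMultiplicity_le_natDegree'
      (Fermat.Agent.GL.Thick.ssPoly_ne_zero ℓ (ResidueField A) hℓ5) a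
    rwa [Fermat.Agent.GL.Thick.natDegree_ssPoly] at this
  have hle' : μ * e ≤ 12 := by exact_mod_cast hle
  have hep : e ≠ 0 := by
    rintro rfl
    rw [he] at hta
    simp at hta
  rcases not_dvd_mul_of_le (Fact.out : ℓ.Prime) hμ4 hμp hle' with hnd | he0
  · intro hd
    apply hnd
    exact_mod_cast hd
  · exact absurd he0 hep

end Level

/-- **`p ∤ ord_Q (red₁ (Δ(z)/Δ(pz)))` at every zero `Q` off the cusps**: level `N`, `p ∥ N`,
`5 ≤ p`, `A | p`. -/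
theorem not_dvd_ord_red_etaQ (N : ℕ) [NeZero N] (p : ℕ) [NeZero p]
    (A : ValuationSubring Kbar) (h : ExactDvd p N) (hA : A.LiesOverPrime p) (hp5 : 5 ≤ p)
    (Q' : Place (ResidueField A) (FresBar N A)) (hτ : 0 ≤ Q'.ord (tauF N A))
    (hpos : 0 < Q'.ord ((redDataBar N A).red ⟨etaQ N p h.dvd, etaQ_mem_Rw1 N A p h.dvd⟩)) :
    ¬ (p : ℤ) ∣ Q'.ord ((redDataBar N A).red ⟨etaQ N p h.dvd, etaQ_mem_Rw1 N A p h.dvd⟩) := by
  obtain ⟨N', hN'⟩ : ∃ N', N = N' * p := by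
    obtain ⟨m, hm⟩ := h.dvd
    exact ⟨m, by rw [hm, mul_comm]⟩
  subst hN'
  haveI : NeZero N' := ⟨fun h0 => NeZero.ne (N' * p) (by rw [h0, zero_mul])⟩
  haveI : Fact p.Prime := ⟨h.prime⟩
  have hpN : ¬ p ∣ N' := by
    rintro ⟨m, hm⟩
    apply h.not_sq
    exact ⟨m, by rw [hm]; ring⟩
  exact not_dvd_ord_red_etaQ_mul N' p A h hA hpN hp5 Q' hτ hpos

/-- **`ord_Q (red₁ (Δ(z)/Δ(pz))) ≤ 12` at every place `Q` off the cusps**: level `N`, `p ∥ N`,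
`5 ≤ p`, `A | p`. -/
theorem ord_red_etaQ_le (N : ℕ) [NeZero N] (p : ℕ) [NeZero p]
    (A : ValuationSubring Kbar) (h : ExactDvd p N) (hA : A.LiesOverPrime p) (hp5 : 5 ≤ p)
    (Q' : Place (ResidueField A) (FresBar N A)) (hτ : 0 ≤ Q'.ord (tauF N A)) :
    Q'.ord ((redDataBar N A).red ⟨etaQ N p h.dvd, etaQ_mem_Rw1 N A p h.dvd⟩) ≤ 12 := by
  obtain ⟨N', hN'⟩ : ∃ N', N = N' * p := by
    obtain ⟨m, hm⟩ := h.dvd
    exact ⟨m, by rw [hm, mul_comm]⟩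
  subst hN'
  haveI : NeZero N' := ⟨fun h0 => NeZero.ne (N' * p) (by rw [h0, zero_mul])⟩
  haveI : Fact p.Prime := ⟨h.prime⟩
  have hpN : ¬ p ∣ N' := by
    rintro ⟨m, hm⟩
    apply h.not_sq
    exact ⟨m, by rw [hm]; ring⟩
  exact ord_red_etaQ_le_mul N' p A h hA hpN (fun e => by omega) (fun e => by omega) Q' hτ

/-! ### on any `clauseD` frame -/

open Fermat.Agent.GF.Top.Provider44T Fermat.Agent.GF.Top.Provider44D Fermat.Agent.GF.Setup.S0

/-- **clause (f) on ANY nodal frame satisfying `clauseD`** (+ `FrameFacts`): `p ∤ ord_{P s} G`. -/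
theorem clauseD_f {p : ℕ} [Fact p.Prime] (hp5 : 5 ≤ p) {M' : ℕ} [NeZero M'] {hpM' : ¬ p ∣ M'}
    {A : ValuationSubring Kbar} (hA : A.LiesOverPrime p) {ι : Type} [Fintype ι]
    {P Q : ι → Place (ResidueField A) (FresBar (M' * p) A)}
    (FF : FrameFacts (M' * p) A (exactDvd hpM') P Q)
    (hd : clauseD p M' hpM' A ι P Q) (s : ι) :
    ¬ (p : ℤ) ∣ (P s).ord ((redDataBar (M' * p) A).red
      ⟨etaQ (M' * p) p (exactDvd hpM').dvd, etaQ_mem_Rw1 (M' * p) A p (exactDvd hpM').dvd⟩) :=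
  not_dvd_ord_red_etaQ (M' * p) p A (exactDvd hpM') hA hp5 (P s)
    (Fermat.Agent.GF.Eis.Final.hoff_of_frameFacts M' A (exactDvd hpM') FF s) (hd.2 s)

/-- clause (g) on any `clauseD` frame: `ord_{P s} G ≤ 12`. -/
theorem clauseD_g {p : ℕ} [Fact p.Prime] (hp5 : 5 ≤ p) {M' : ℕ} [NeZero M'] {hpM' : ¬ p ∣ M'}
    {A : ValuationSubring Kbar} (hA : A.LiesOverPrime p) {ι : Type} [Fintype ι]
    {P Q : ι → Place (ResidueField A) (FresBar (M' * p) A)}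
    (FF : FrameFacts (M' * p) A (exactDvd hpM') P Q) (s : ι) :
    (P s).ord ((redDataBar (M' * p) A).red
      ⟨etaQ (M' * p) p (exactDvd hpM').dvd, etaQ_mem_Rw1 (M' * p) A p (exactDvd hpM').dvd⟩) ≤ 12 :=
  ord_red_etaQ_le (M' * p) p A (exactDvd hpM') hA hp5 (P s)
    (Fermat.Agent.GF.Eis.Final.hoff_of_frameFacts M' A (exactDvd hpM') FF s)

end Fermat.Agent.GF.Eis.EtaOrdF

end
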