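/-
GATE-F / (L-d) DOWNSTAIRS, part 3 (helper65): the `hN0` / `hη` fields of
`GF/Top/Integrate2.CoverSupplySub` on ANY `clauseD` frame, in the integrator's vocabulary:

* `etaTrop_eq_cast_ord` : `etaTrop (M' p) A P h s = ((ord_{P s} red₁(etaQ) : ℤ) : ZMod p)`;
* `etaTrop_ne_zero`     : `etaTrop (M' p) A P h s ≠ 0`  (`5 ≤ p`, `FrameFacts`, `clauseD`);
* `exists_E_etaTrop`    : for every `κ₀` there is `E` with `∀ s, E s * etaTrop … s = κ₀`
  (the MIDDLE clause of `SupplyF2` / helper34's `F2Hyp`, for `E s := κ₀ · (etaTrop s)⁻¹`).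
-/
import Fermat.Agent.GF.Eis.EtaOrdF
import Fermat.Agent.GF.Top.Integrate

set_option autoImplicit false
set_option linter.unusedSectionVars false

noncomputable section

namespace Fermat.Agent.GF.Eis.EtaTropNe

open AlgebraicCurve IsLocalRing ModularCurve
open Fermat.Agent.S24 Fermat.Agent.S24_helper62
open Fermat.Agent.GJ.J1 Fermat.Agent.GJ.J1.Val Fermat.Agent.GJ.J1.InstGen
open Fermat.Agent.GK.AL Fermat.Agent.GK.CuspSep Fermat.Agent.GL.Eta
open Fermat.Agent.GS.Nodal.LSR2 Fermat.Agent.GS.Nodal.Inst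
open Fermat.Agent.GF.Setup.S0 Fermat.Agent.GF.Trop
open Fermat.Agent.GF.Top.Provider44T Fermat.Agent.GF.Top.Provider44D
open Fermat.Agent.GF.Top.Integrate Fermat.Agent.GF.Eis.EtaOrdF

attribute [local instance] finiteResidues_FN hasPrincipalDivisors_FN nonempty_place_FN
  isAlgClosed_res finiteResidues_Fres hasPrincipalDivisors_Fres nonempty_place_Fres

variable {p : ℕ} [Fact p.Prime] {M' : ℕ} [NeZero M'] {hpM' : ¬ p ∣ M'}
  {A : ValuationSubring Kbar} {ι : Type} [Fintype ι]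
  {P Q : ι → Place (ResidueField A) (FresBar (M' * p) A)}

/-- `etaTrop` is the order of `red₁ (Δ(z)/Δ(pz))` at the node, mod `p` -/
theorem etaTrop_eq_cast_ord (s : ι) :
    etaTrop (M' * p) A P (exactDvd hpM') s =
      (((P s).ord ((redDataBar (M' * p) A).red
        ⟨etaQ (M' * p) p (exactDvd hpM').dvd,
          etaQ_mem_Rw1 (M' * p) A p (exactDvd hpM').dvd⟩) : ℤ) : ZMod p) := by
  unfold etaTrop
  rw [Fermat.Agent.GF.Eis.Main.ordRed_etaQ (M' * p) A (exactDvd hpM') (P s)]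
  rfl

/-- **`hN0`**: the tropical vector of the eta quotient vanishes at NO node. -/
theorem etaTrop_ne_zero (hp5 : 5 ≤ p) (hA : A.LiesOverPrime p)
    (FF : FrameFacts (M' * p) A (exactDvd hpM') P Q)
    (hd : clauseD p M' hpM' A ι P Q) (s : ι) :
    etaTrop (M' * p) A P (exactDvd hpM') s ≠ 0 := by
  rw [etaTrop_eq_cast_ord (hpM' := hpM') s, Ne, ZMod.intCast_zmod_eq_zero_iff_dvd]
  exact clauseD_f hp5 hA FF hd s

/-- **the middle clause of `SupplyF2`**: every `κ₀` is `E s * etaTrop s` for a suitable `E`. -/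
theorem exists_E_etaTrop (hp5 : 5 ≤ p) (hA : A.LiesOverPrime p)
    (FF : FrameFacts (M' * p) A (exactDvd hpM') P Q)
    (hd : clauseD p M' hpM' A ι P Q) (κ₀ : ZMod p) :
    ∃ E : ι → ZMod p, ∀ s, E s * etaTrop (M' * p) A P (exactDvd hpM') s = κ₀ :=
  ⟨fun s => κ₀ * (etaTrop (M' * p) A P (exactDvd hpM') s)⁻¹, fun s => by
    rw [mul_assoc, inv_mul_cancel₀ (etaTrop_ne_zero hp5 hA FF hd s), mul_one]⟩

end Fermat.Agent.GF.Eis.EtaTropNe

end
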