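/-
GATE-F (S40/S44) / node GF-EIS, file 9 (helper77): **TROP-HECKE at the level `M' p`, general
normalisation of the thickness vector.**

Same as `GF/Eis/Final.lean` with the binder `e s · ordRed_{P s}(etaQ) = 12` replaced by
`e s · ordRed_{P s}(etaQ) = c₀` for ANY constant `c₀ ≠ 0` of `ZMod p` (e.g. `c₀ = 12 (p - 1)` when
`e s` is the thickness in `ϖ`-units, helper31's `E s` of `GF/F2Asm/Asm.lean`: the node relation
applied to `etaQ` itself).  Only `p ≠ 2` (and the J1 side condition at `p = 3`) is needed.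

* `trop_T_mul_of_const`, `trop_zero_mul_of_const`.
-/
import Mathlib
import Fermat.Agent.GF.Eis.Final

set_option autoImplicit false
set_option linter.unusedSectionVars false
set_option linter.style.haveILetI false

noncomputable section

namespace Fermat.Agent.GF.Eis.Final2

open AlgebraicCurve ModularCurve IsLocalRing HahnSeries
open Fermat.Agent.S24 Fermat.Agent.S24_helper62 Fermat.Agent.RRh45 Fermat.Agent.RR
open Fermat.Agent.GJ.J1 Fermat.Agent.GJ.J1.Val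
open Fermat.Agent.GJ Fermat.Agent.GJ.KumGroup Fermat.Agent.GJ.Kum Fermat.Agent.GJ.Kum.KumType
open Fermat.Agent.GK.AL Fermat.Agent.GK.UQ Fermat.Agent.GK.CuspSep Fermat.Agent.GK.MultiVal
open Fermat.Agent.GK.BallTwo Fermat.Agent.GK.NodalGraded
open Fermat.Agent.GS.Nodal.LSR2 Fermat.Agent.GS.Nodal.ROfSurj2 Fermat.Agent.GS.Nodal.Inst
open Fermat.Agent.GF.Trop Fermat.Agent.GL.Eta Fermat.Agent.GF.Eis.Main

attribute [local instance] finiteResidues_FN hasPrincipalDivisors_FN nonempty_place_FN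
  isAlgClosed_res finiteResidues_Fres hasPrincipalDivisors_Fres nonempty_place_Fres

variable {p : ℕ} [Fact p.Prime] [NeZero p] (M' : ℕ) [NeZero M'] (A : ValuationSubring Kbar)
  (h : ExactDvd p (M' * p))
variable {ι : Type} [Fintype ι] {P Q : ι → Place (ResidueField A) (FresBar (M' * p) A)}
variable {C : Divisor Kbar (FN (M' * p))}
  {C₁ C₂ : Divisor (ResidueField A) (FresBar (M' * p) A)} {g c : ℤ} {n₀ : ℕ}
variable (H : NodalHyp (redCompatFN (M' * p) A h) P Q C C₁ C₂ g c n₀)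

include H in
/-- **TROP-HECKE**, thickness vector normalised by any nonzero constant. -/
theorem trop_T_mul_of_const (hpM' : ¬ p ∣ M') (hp2 : p ≠ 2) (h3 : p = 3 → 2 ∣ M')
    (hA : A.LiesOverPrime p)
    (hoff : ∀ s, 0 ≤ (P s).ord (tauF (M' * p) A))
    (hd : ∀ Q' : Place (ResidueField A) (FresBar (M' * p) A), 0 ≤ Q'.ord (tauF (M' * p) A) →
      (∀ s, Q' ≠ P s) → Q'.ord (Gred (M' * p) A h) = 0)
    (e : ι → ZMod p) (c₀ : ZMod p) (hc₀ : c₀ ≠ 0)
    (he : ∀ s, e s * ((ordRed (redDataBar (M' * p) A)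
      (Fermat.Agent.GS.F.unram_redDataBar (M' * p) A) (P s) (etaQ (M' * p) p h.dvd) : ℤ) :
        ZMod p) = c₀)
    {ℓ₀ : ℕ} (hℓ₀ : ℓ₀.Prime) (hℓ₀M : ¬ ℓ₀ ∣ M' * p)
    (x : Additive (Kum Kbar (FN (M' * p)) p))
    (hx : ∃ κ : ZMod p, ∀ s, e s * trop1FN (q := p) (M' * p) A P x s = κ) :
    trop1FN (q := p) (M' * p) A P (kumTl (M' * p) p hℓ₀ hℓ₀M x) =
      (((ℓ₀ : ℕ) : ZMod p) + 1) • trop1FN (q := p) (M' * p) A P x := by
  haveI : NeZero ℓ₀ := ⟨hℓ₀.ne_zero⟩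
  have hℓM : ¬ ℓ₀ ∣ M' := fun hdvd => hℓ₀M (Dvd.dvd.mul_right hdvd p)
  obtain ⟨κ, hκ⟩ := hx
  refine trop1FN_kumTl_of_prop (M' * p) A h P hA hp2 (Fermat.Agent.GS.Fib.ff2 H) hℓ₀ hℓ₀M
    (fun f Tf hf hT hdv => Fermat.Agent.GF.Eis.BadLevel.hL1_mul hpM' (fun e2 => absurd e2 hp2)
      h3 hA hℓ₀ hℓM (p : ℤ) f Tf hf hT hdv)
    hoff hd x (κ * c₀⁻¹) ?_
  intro s
  have h1 := he s
  have h2 := hκ s
  have h4 : c₀ * trop1FN (q := p) (M' * p) A P x s = κ *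
      ((ordRed (redDataBar (M' * p) A) (Fermat.Agent.GS.F.unram_redDataBar (M' * p) A) (P s)
        (etaQ (M' * p) p h.dvd) : ℤ) : ZMod p) := by
    rw [← h1, ← h2]
    ring
  calc trop1FN (q := p) (M' * p) A P x s
      = c₀⁻¹ * (c₀ * trop1FN (q := p) (M' * p) A P x s) := by
        rw [← mul_assoc, inv_mul_cancel₀ hc₀, one_mul]
    _ = _ := by rw [h4]; ring

include H in
/-- **`trop_zero` on eigenclasses**, thickness vector normalised by any nonzero constant. -/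
theorem trop_zero_mul_of_const (hpM' : ¬ p ∣ M') (hp2 : p ≠ 2) (h3 : p = 3 → 2 ∣ M')
    (hA : A.LiesOverPrime p)
    (hoff : ∀ s, 0 ≤ (P s).ord (tauF (M' * p) A))
    (hd : ∀ Q' : Place (ResidueField A) (FresBar (M' * p) A), 0 ≤ Q'.ord (tauF (M' * p) A) →
      (∀ s, Q' ≠ P s) → Q'.ord (Gred (M' * p) A h) = 0)
    (e : ι → ZMod p) (c₀ : ZMod p) (hc₀ : c₀ ≠ 0)
    (he : ∀ s, e s * ((ordRed (redDataBar (M' * p) A)
      (Fermat.Agent.GS.F.unram_redDataBar (M' * p) A) (P s) (etaQ (M' * p) p h.dvd) : ℤ) :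
        ZMod p) = c₀)
    {ℓ₀ : ℕ} (hℓ₀ : ℓ₀.Prime) (hℓ₀M : ¬ ℓ₀ ∣ M' * p)
    (x : Additive (Kum Kbar (FN (M' * p)) p)) (a : ZMod p)
    (hTx : kumTl (M' * p) p hℓ₀ hℓ₀M x = a • x) (ha : a ≠ ((ℓ₀ : ℕ) : ZMod p) + 1)
    (hx : ∃ κ : ZMod p, ∀ s, e s * trop1FN (q := p) (M' * p) A P x s = κ) :
    trop1FN (q := p) (M' * p) A P x = 0 := by
  have h1 := trop_T_mul_of_const M' A h H hpM' hp2 h3 hA hoff hd e c₀ hc₀ he hℓ₀ hℓ₀M x hx
  rw [hTx] at h1
  have h2 : trop1FN (q := p) (M' * p) A P (a • x) = a • trop1FN (q := p) (M' * p) A P x :=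
    ((trop1FN (q := p) (M' * p) A P).toZModLinearMap p).map_smul a x
  rw [h2] at h1
  funext s
  have h3' := congrFun h1 s
  rw [Pi.smul_apply, Pi.smul_apply, smul_eq_mul, smul_eq_mul] at h3'
  have h4 : (a - (((ℓ₀ : ℕ) : ZMod p) + 1)) * trop1FN (q := p) (M' * p) A P x s = 0 := by
    rw [sub_mul, h3', sub_self]
  rcases mul_eq_zero.mp h4 with h5 | h5
  · exact absurd (sub_eq_zero.mp h5) ha
  · exact h5

end Fermat.Agent.GF.Eis.Final2
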